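import Fermat.Agent.RR.Three

/-!
# The Hurwitz inequality over a rational function field
-/

set_option autoImplicit false
set_option linter.style.haveILetI false
set_option linter.unusedSectionVars false

namespace Fermat.Agent.RR

open AlgebraicCurve Fermat.Agent.Curve Polynomial IntermediateField

variable {K E F : Type*} [Field K] [IsAlgClosed K] [Field E] [Algebra K E] [Field F] [Algebra K F]

section

variable [hE : FunField K E]

/-- Restriction of a place along an embedding of function fields. -/
theorem exists_restrict (φ : E →ₐ[K] F) (u : Place K F) {j : E}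
    (hj : u.ord (φ j) ≠ 0) :
    ∃ v : Place K E, ∃ m : ℤ, 0 < m ∧ ∀ f : E, f ≠ 0 → u.ord (φ f) = m * v.ord f := by
  have hne : ∀ f : E, f ≠ 0 → φ f ≠ 0 := fun f hf => by
    rwa [ne_eq, map_eq_zero]
  apply exists_place_of_valuation (K := K) (fun f : E => u.ord (φ f))
  · intro f g hf hg
    rw [map_mul]
    exact u.ord_mul (hne f hf) (hne g hg)
  · intro f g hf hg hfg
    have h1 : φ f + φ g ≠ 0 := by
      rw [← map_add]
      exact hne _ hfg
    rw [map_add]
    exact le_ord_add u h1 (min_le_left _ _) (min_le_right _ _) (hne f hf) (hne g hg)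
  · intro a _
    rw [φ.commutes, ord_algebraMap]
  · refine ⟨j, ?_, hj⟩
    rintro rfl
    rw [map_zero] at hj
    exact hj u.ord_zero

/-- The zero of `x - a` for a generator `x` of a rational function field is unique. -/
theorem zero_unique {x : E} (hx : Transcendental K x) (htop : K⟮x⟯ = ⊤) {a : K}
    {v v' : Place K E} (hv : 0 < v.ord (x - algebraMap K E a))
    (hv' : 0 < v'.ord (x - algebraMap K E a)) : v = v' := by
  classical
  obtain ⟨hfin, hsum⟩ := sum_zeros (K := K) hx a
  rw [htop, IntermediateField.finrank_top, Nat.cast_one] at hsum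
  by_contra hne
  have h1 : ({v, v'} : Finset (Place K E)) ⊆ hfin.toFinset := by
    intro w hw
    rw [Finset.mem_insert, Finset.mem_singleton] at hw
    rw [Set.Finite.mem_toFinset]
    rcases hw with rfl | rfl
    · exact hv
    · exact hv'
  have h2 := Finset.sum_le_sum_of_subset_of_nonneg (f := fun v : Place K E =>
    v.ord (x - algebraMap K E a)) h1 (by
      intro i hi _
      rw [Set.Finite.mem_toFinset] at hi
      exact le_of_lt hi)
  rw [hsum, Finset.sum_pair hne] at h2
  omega

end

section

variable [Algebra E F] [IsScalarTower K E F]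

theorem adjoin_algebraMap_eq {x : E} (htop : K⟮x⟯ = ⊤) :
    K⟮algebraMap E F x⟯ = (IsScalarTower.toAlgHom K E F).fieldRange := by
  have h1 := IntermediateField.adjoin_map K {x} (IsScalarTower.toAlgHom K E F)
  rw [htop, Set.image_singleton, ← AlgHom.fieldRange_eq_map] at h1
  exact h1.symm

/-- `E ≃ K(x)` inside `F`. -/
noncomputable def genEquiv (F : Type*) [Field F] [Algebra K F] [Algebra E F] [IsScalarTower K E F]
    {x : E} (htop : K⟮x⟯ = ⊤) : E ≃+* K⟮algebraMap E F x⟯ :=
  ((AlgEquiv.ofInjectiveField (IsScalarTower.toAlgHom K E F)).toRingEquiv).trans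
    (IntermediateField.equivOfEq (adjoin_algebraMap_eq (F := F) htop).symm).toRingEquiv

theorem coe_genEquiv {x : E} (htop : K⟮x⟯ = ⊤) (e : E) :
    ((genEquiv F htop e : K⟮algebraMap E F x⟯) : F) = algebraMap E F e := rfl

theorem gen_comp {x : E} (htop : K⟮x⟯ = ⊤) :
    (algebraMap K⟮algebraMap E F x⟯ F).comp (genEquiv F htop : E ≃+* K⟮algebraMap E F x⟯) =
      RingHom.comp (RingEquiv.refl F : F ≃+* F) (algebraMap E F) := by
  ext e
  rfl

theorem finrank_gen {x : E} (htop : K⟮x⟯ = ⊤) :
    Module.finrank K⟮algebraMap E F x⟯ F = Module.finrank E F :=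
  (Algebra.finrank_eq_of_equiv_equiv (genEquiv F htop) (RingEquiv.refl F) (gen_comp htop)).symm

theorem finite_gen [FiniteDimensional E F] {x : E} (htop : K⟮x⟯ = ⊤) :
    FiniteDimensional K⟮algebraMap E F x⟯ F :=
  Module.Finite.of_equiv_equiv (genEquiv F htop) (RingEquiv.refl F) (gen_comp htop)

theorem separable_gen [Algebra.IsSeparable E F] {x : E} (htop : K⟮x⟯ = ⊤) :
    Algebra.IsSeparable K⟮algebraMap E F x⟯ F :=
  Algebra.IsSeparable.of_equiv_equiv (genEquiv F htop) (RingEquiv.refl F) (gen_comp htop)

theorem transcendental_algebraMap {x : E} (hx : Transcendental K x) :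
    Transcendental K (algebraMap E F x) := by
  exact (transcendental_algebraMap_iff (algebraMap E F).injective).2 hx

end

/-- Hurwitz inequality for a finite separable extension of a rational function field, with branch
locus the poles of an element. -/
theorem hurwitz_tower [hE : FunField K E] [hF : FunField K F] [Algebra E F] [IsScalarTower K E F]
    [FiniteDimensional E F] [Algebra.IsSeparable E F] (hg : rrGenus K E = 0) {j : E}
    (hj : Transcendental K j) :
    ((Set.ncard {v : Place K E | v.ord j < 0} : ℤ) - 2) * Module.finrank E F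
      - (Set.ncard {v : Place K F | v.ord (algebraMap E F j) < 0} : ℤ)
        ≤ 2 * (rrGenus K F : ℤ) - 2 := by
  classical
  obtain ⟨v0, hv0⟩ := exists_pole (K := K) hj
  obtain ⟨x, hx, hpx, htop⟩ := exists_generator_of_genus_zero hg v0
  haveI := finite_gen (F := F) htop
  haveI := separable_gen (F := F) htop
  have hjne : j ≠ 0 := by
    rintro rfl
    exact hj isAlgebraic_zero
  have hjF := transcendental_algebraMap (F := F) hj
  have hjFne : algebraMap E F j ≠ 0 := by
    rwa [ne_eq, map_eq_zero]
  have hxF := transcendental_algebraMap (F := F) hx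
  have hfinE : {v : Place K E | v.ord j < 0}.Finite :=
    (finite_ord (K := K) hjne).subset fun v hv => ne_of_lt hv
  have hfinF : {v : Place K F | v.ord (algebraMap E F j) < 0}.Finite :=
    (finite_ord (K := K) hjFne).subset fun v hv => ne_of_lt hv
  have hxa : ∀ a : K, x - algebraMap K E a ≠ 0 := fun a h =>
    hx (by rw [sub_eq_zero.1 h]; exact isAlgebraic_algebraMap a)
  -- the values of `x` at the other poles
  have hval : ∀ v : Place K E, v ≠ v0 → ∃ a : K, 0 < v.ord (x - algebraMap K E a) := by
    intro v hv
    have h1 : 0 ≤ v.ord x := by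
      have h2 : (poleDiv K x) v = 0 := by
        rw [hpx, Finsupp.single_eq_of_ne hv]
      rw [poleDiv_apply] at h2
      omega
    obtain ⟨a, ha⟩ := exists_const' (K := K) v (f := x)
      (mem_of_ord_nonneg v h1)
    refine ⟨a, ?_⟩
    rcases ha with h | h
    · exact absurd h (hxa a)
    · omega
  let val : Place K E → K := fun v => if h : v ≠ v0 then (hval v h).choose else 0
  have hvals : ∀ v, v ≠ v0 → 0 < v.ord (x - algebraMap K E (val v)) := by
    intro v hv
    simp only [val, dif_pos hv]
    exact (hval v hv).choose_spec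
  let P := hfinE.toFinset.erase v0
  have hinj : Set.InjOn val (P : Set (Place K E)) := by
    intro v hv v' hv' h
    rw [Finset.mem_coe, Finset.mem_erase] at hv hv'
    have h1 := hvals v hv.1
    have h2 := hvals v' hv'.1
    rw [← h] at h2
    exact zero_unique hx htop h1 h2
  let A := P.image val
  have hcard : (A.card : ℤ) = (Set.ncard {v : Place K E | v.ord j < 0} : ℤ) - 1 := by
    rw [Finset.card_image_of_injOn hinj, Finset.card_erase_of_mem
      ((Set.Finite.mem_toFinset hfinE).2 hv0), Set.ncard_eq_toFinset_card _ hfinE]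
    have : 0 < hfinE.toFinset.card := Finset.card_pos.2 ⟨v0, (Set.Finite.mem_toFinset hfinE).2 hv0⟩
    omega
  have h1 := hurwitz_values hxF A
  rw [finrank_gen (F := F) htop, hcard] at h1
  -- the preimages are disjoint subsets of the poles of `j`
  have hsub : ∀ a ∈ A, {w : Place K F | 0 < w.ord (algebraMap E F x - algebraMap K F a)} ⊆
      {v : Place K F | v.ord (algebraMap E F j) < 0} := by
    intro a ha w hw
    rw [Finset.mem_image] at ha
    obtain ⟨v, hv, rfl⟩ := ha
    rw [Finset.mem_erase, Set.Finite.mem_toFinset] at hv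
    rw [Set.mem_ofPred_eq, IsScalarTower.algebraMap_apply K E F, ← map_sub] at hw
    obtain ⟨v', m, hm, hv'⟩ := exists_restrict (K := K) (IsScalarTower.toAlgHom K E F) w
      (j := x - algebraMap K E (val v)) (by
        rw [IsScalarTower.coe_toAlgHom']
        exact ne_of_gt hw)
    have h3 := hv' _ (hxa (val v))
    rw [IsScalarTower.coe_toAlgHom'] at h3
    have h4 : 0 < v'.ord (x - algebraMap K E (val v)) := by
      rw [h3] at hw
      exact pos_of_mul_pos_right hw hm.le |> fun h => h
    have h5 := zero_unique hx htop h4 (hvals v hv.1)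
    subst h5
    rw [Set.mem_ofPred_eq]
    have h6 := hv' j hjne
    rw [IsScalarTower.coe_toAlgHom'] at h6
    rw [h6]
    exact mul_neg_of_pos_of_neg hm hv.2
  have hsub0 : {w : Place K F | w.ord (algebraMap E F x) < 0} ⊆
      {v : Place K F | v.ord (algebraMap E F j) < 0} := by
    intro w hw
    rw [Set.mem_ofPred_eq] at hw
    obtain ⟨v', m, hm, hv'⟩ := exists_restrict (K := K) (IsScalarTower.toAlgHom K E F) w
      (j := x) (by
        rw [IsScalarTower.coe_toAlgHom']
        exact ne_of_lt hw)
    have h3 := hv' x (fun h => hx (h ▸ isAlgebraic_zero))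
    rw [IsScalarTower.coe_toAlgHom'] at h3
    have h4 : v'.ord x < 0 := by
      rw [h3] at hw
      by_contra hcon
      exact absurd (mul_nonneg hm.le (not_lt.1 hcon)) (not_le.2 hw)
    have h5 : v' = v0 := by
      by_contra hne
      have h2 : (poleDiv K x) v' = 0 := by
        rw [hpx, Finsupp.single_eq_of_ne hne]
      rw [poleDiv_apply] at h2
      omega
    subst h5
    rw [Set.mem_ofPred_eq]
    have h6 := hv' j hjne
    rw [IsScalarTower.coe_toAlgHom'] at h6
    rw [h6]
    exact mul_neg_of_pos_of_neg hm hv0
  -- counting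
  let Z : K → Finset (Place K F) := fun a =>
    (sum_zeros (K := K) hxF a).choose.toFinset
  let Q : Finset (Place K F) := (sum_poles (K := K) hxF).choose.toFinset
  have hZ : ∀ a, (Set.ncard {w : Place K F | 0 < w.ord (algebraMap E F x - algebraMap K F a)} : ℤ)
      = (Z a).card := fun a => by
    rw [Set.ncard_eq_toFinset_card _ (sum_zeros (K := K) hxF a).choose]
  have hQ : (Set.ncard {w : Place K F | w.ord (algebraMap E F x) < 0} : ℤ) = Q.card := by
    rw [Set.ncard_eq_toFinset_card _ (sum_poles (K := K) hxF).choose]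
  have hmemZ : ∀ a w, w ∈ Z a ↔ 0 < w.ord (algebraMap E F x - algebraMap K F a) := fun a w => by
    simp only [Z, Set.Finite.mem_toFinset, Set.mem_ofPred_eq]
  have hmemQ : ∀ w, w ∈ Q ↔ w.ord (algebraMap E F x) < 0 := fun w => by
    simp only [Q, Set.Finite.mem_toFinset, Set.mem_ofPred_eq]
  have hnonneg : ∀ (w : Place K F) (a : K), 0 < w.ord (algebraMap E F x - algebraMap K F a) →
      0 ≤ w.ord (algebraMap E F x) := by
    intro w a h
    have h4 : Ge w 0 ((algebraMap E F x - algebraMap K F a) + algebraMap K F a) :=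
      (Ge.of_le (by omega)).add (Ge.algebraMap w _)
    rw [sub_add_cancel] at h4
    refine h4.le_ord ?_
    intro h
    rw [h] at hxF
    exact hxF isAlgebraic_zero
  have huniq : ∀ (w : Place K F) (a b : K), 0 < w.ord (algebraMap E F x - algebraMap K F a) →
      0 < w.ord (algebraMap E F x - algebraMap K F b) → a = b := by
    intro w a b h1 h2
    by_contra hab
    have h3 : Ge w 1 ((algebraMap E F x - algebraMap K F a) -
        (algebraMap E F x - algebraMap K F b)) :=
      (Ge.of_le (by omega)).sub (Ge.of_le (by omega))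
    rw [sub_sub_sub_cancel_left, ← map_sub] at h3
    have h4 : algebraMap K F (b - a) ≠ 0 := by
      rw [ne_eq, map_eq_zero]
      exact sub_ne_zero.2 (Ne.symm hab)
    have h5 := h3.le_ord h4
    rw [ord_algebraMap] at h5
    omega
  have hdisj : Disjoint (A.biUnion Z) Q := by
    rw [Finset.disjoint_left]
    intro w hw hw'
    rw [Finset.mem_biUnion] at hw
    obtain ⟨a, -, ha⟩ := hw
    rw [hmemZ] at ha
    rw [hmemQ] at hw'
    exact absurd (hnonneg w a ha) (not_le.2 hw')
  have hdisj2 : (A : Set K).PairwiseDisjoint Z := by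
    intro a _ b _ hab
    change Disjoint (Z a) (Z b)
    rw [Finset.disjoint_left]
    intro w hw hw'
    rw [hmemZ] at hw hw'
    exact hab (huniq w a b hw hw')
  have h2 : ((A.biUnion Z) ∪ Q).card ≤ hfinF.toFinset.card := by
    apply Finset.card_le_card
    intro w hw
    rw [Set.Finite.mem_toFinset]
    rw [Finset.mem_union, Finset.mem_biUnion] at hw
    rcases hw with ⟨a, haA, ha⟩ | hw
    · exact hsub a haA ((hmemZ a w).1 ha)
    · exact hsub0 ((hmemQ w).1 hw)
  rw [Finset.card_union_of_disjoint hdisj, Finset.card_biUnion hdisj2,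
    ← Set.ncard_eq_toFinset_card _ hfinF] at h2
  rw [Finset.sum_congr rfl fun a _ => hZ a, hQ] at h1
  zify at h2
  linarith

end Fermat.Agent.RR
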