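import Fermat.Agent.RR.Tower

/-!
# Degrees in towers of function fields
-/

set_option autoImplicit false
set_option linter.style.haveILetI false
set_option linter.unusedSectionVars false

namespace Fermat.Agent.RR

open AlgebraicCurve Fermat.Agent.Curve Polynomial IntermediateField

variable {K E F : Type*} [Field K] [Field E] [Algebra K E] [Field F] [Algebra K F]
  [Algebra E F] [IsScalarTower K E F]

theorem adjoin_map_eq (F : Type*) [Field F] [Algebra K F] [Algebra E F] [IsScalarTower K E F]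
    (j : E) : K⟮j⟯.map (IsScalarTower.toAlgHom K E F) = K⟮algebraMap E F j⟯ := by
  rw [IntermediateField.adjoin_map, Set.image_singleton]
  rfl

/-- `K(j)` inside `E` and inside `F`. -/
noncomputable def adjEquiv (F : Type*) [Field F] [Algebra K F] [Algebra E F] [IsScalarTower K E F]
    (j : E) : K⟮j⟯ ≃+* K⟮algebraMap E F j⟯ :=
  (K⟮j⟯.equivMap (IsScalarTower.toAlgHom K E F)).toRingEquiv.trans
    (IntermediateField.equivOfEq (adjoin_map_eq F j)).toRingEquiv

theorem adj_comp (j : E) :
    (algebraMap K⟮algebraMap E F j⟯ F).comp (adjEquiv F j : K⟮j⟯ ≃+* K⟮algebraMap E F j⟯) =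
      RingHom.comp (RingEquiv.refl F : F ≃+* F) (algebraMap K⟮j⟯ F) := by
  ext e
  rfl

theorem adj_comp_symm (j : E) :
    (algebraMap K⟮j⟯ F).comp ((adjEquiv F j).symm : K⟮algebraMap E F j⟯ ≃+* K⟮j⟯) =
      RingHom.comp (RingEquiv.refl F : F ≃+* F) (algebraMap K⟮algebraMap E F j⟯ F) := by
  ext e
  obtain ⟨e', rfl⟩ := (adjEquiv (K := K) F j).surjective e
  show algebraMap K⟮j⟯ F ((adjEquiv (K := K) F j).symm ((adjEquiv (K := K) F j) e')) = _
  rw [RingEquiv.symm_apply_apply]
  rfl

theorem finrank_tower (j : E) :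
    Module.finrank K⟮algebraMap E F j⟯ F = Module.finrank K⟮j⟯ E * Module.finrank E F := by
  rw [← Algebra.finrank_eq_of_equiv_equiv (adjEquiv (K := K) F j) (RingEquiv.refl F) (adj_comp j),
    Module.finrank_mul_finrank]

theorem finite_tower (j : E) [FiniteDimensional K⟮algebraMap E F j⟯ F] :
    FiniteDimensional E F := by
  haveI : FiniteDimensional K⟮j⟯ F :=
    Module.Finite.of_equiv_equiv (adjEquiv (K := K) F j).symm (RingEquiv.refl F) (adj_comp_symm j)
  exact Module.Finite.of_restrictScalars_finite K⟮j⟯ E F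

theorem separable_tower (j : E) [Algebra.IsSeparable K⟮algebraMap E F j⟯ F] :
    Algebra.IsSeparable E F := by
  haveI : Algebra.IsSeparable K⟮j⟯ F :=
    Algebra.IsSeparable.of_equiv_equiv (adjEquiv (K := K) F j).symm (RingEquiv.refl F)
      (adj_comp_symm j)
  exact Algebra.isSeparable_tower_top_of_isSeparable K⟮j⟯ E F

theorem tower_of (j : E) (j' : F) (hj : algebraMap E F j = j')
    (h1 : FiniteDimensional K⟮j'⟯ F) (h2 : Algebra.IsSeparable K⟮j'⟯ F) :
    FiniteDimensional E F ∧ Algebra.IsSeparable E F ∧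
      Module.finrank K⟮j'⟯ F = Module.finrank K⟮j⟯ E * Module.finrank E F := by
  subst hj
  exact ⟨finite_tower (K := K) j, separable_tower (K := K) j, finrank_tower j⟩

/-- `hurwitz_tower` in terms of the image of `j`. -/
theorem hurwitz_tower' [IsAlgClosed K] [hE : FunField K E] [hF : FunField K F] (j : E) (j' : F)
    (hj : algebraMap E F j = j')
    (h1 : FiniteDimensional K⟮j'⟯ F) (h2 : Algebra.IsSeparable K⟮j'⟯ F) (hg : rrGenus K E = 0)
    (hjt : Transcendental K j) :
    ∃ n : ℕ, Module.finrank K⟮j'⟯ F = Module.finrank K⟮j⟯ E * n ∧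
    ((Set.ncard {v : Place K E | v.ord j < 0} : ℤ) - 2) * n
      - (Set.ncard {v : Place K F | v.ord j' < 0} : ℤ) ≤ 2 * (rrGenus K F : ℤ) - 2 := by
  obtain ⟨h3, h4, h5⟩ := tower_of (K := K) j j' hj h1 h2
  haveI := h3
  haveI := h4
  refine ⟨Module.finrank E F, h5, ?_⟩
  have h6 := hurwitz_tower (F := F) hg hjt
  rw [hj] at h6
  exact h6

end Fermat.Agent.RR
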