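import Fermat.Agent.RR.Three
import Fermat.Agent.X0Genus.Full
import Fermat.Agent.GenusRR.Family
import Fermat.Agent.Red.Genus

/-!
# The Riemann-Roch genus of the modular function field
-/

set_option autoImplicit false
set_option linter.style.haveILetI false
set_option linter.unusedSectionVars false

namespace Fermat.Agent.RR

open AlgebraicCurve Fermat.Agent.Curve Polynomial IntermediateField ModularCurve
open Fermat.Agent.X0Genus

theorem riemannAt (K F : Type*) [Field K] [IsAlgClosed K] [Field F] [Algebra K F] [FunField K F] :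
    Fermat.Agent.Red.RiemannAt K F (rrGenus K F) := by
  obtain ⟨c, hc⟩ := exists_riemann (K := K) (F := F)
  exact ⟨c, fun D hD => ⟨inferInstance, hc D hD⟩⟩

theorem isSeparable_adjoin {K F : Type*} [Field K] [CharZero K] [Field F] [Algebra K F] (t : F)
    [FiniteDimensional K⟮t⟯ F] : Algebra.IsSeparable K⟮t⟯ F := by
  haveI : CharZero K⟮t⟯ := charZero_of_injective_algebraMap (algebraMap K K⟮t⟯).injective
  infer_instance

variable {K : Type*} [Field K] [IsAlgClosed K] [CharZero K] [Algebra ℚ K] (N : ℕ) [NeZero N]

instance funField_modular : FunField K (laurentBaseChange K (modularFunctionFieldFull N)) :=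
  FunField.of (transcendental_jj (K := K) N)

/-- Hurwitz: the genus is at least the value of the classical formula. -/
theorem genusFormula_le_rrGenus (ι : K →+* ℂ) :
    genusFormula N ≤ rrGenus K (laurentBaseChange K (modularFunctionFieldFull N)) := by
  classical
  have ht := transcendental_jj (K := K) N
  have hn := finrank_jj K N
  haveI := isSeparable_adjoin (K := K) (jj K N)
  have h01 : (0 : K) ≠ 1728 := by
    intro h
    have : ((1728 : ℕ) : K) = ((0 : ℕ) : K) := by push_cast; exact h.symm
    have := Nat.cast_injective this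
    norm_num at this
  have h1 := hurwitz_values ht ({0, 1728} : Finset K)
  rw [Finset.sum_pair h01, Finset.card_pair h01, hn] at h1
  have h2 := count_zero N ι hn
  have h3 := count_1728 N ι hn
  have h4 := count_cusps N ι hn
  rw [h4] at h1
  have h2' := congrArg (Nat.cast : ℕ → ℚ) h2
  have h3' := congrArg (Nat.cast : ℕ → ℚ) h3
  have h1' : (((((2 : ℕ) : ℤ) - 1) * (dedekindPsi N : ℤ)
      - (({v : Place K (laurentBaseChange K (modularFunctionFieldFull N)) |
        0 < v.ord (jj K N - algebraMap K _ 0)}.ncard : ℤ) +
        ({v : Place K (laurentBaseChange K (modularFunctionFieldFull N)) |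
        0 < v.ord (jj K N - algebraMap K _ 1728)}.ncard : ℤ))
      - (cuspCount N : ℤ) : ℤ) : ℚ) ≤
      ((2 * (rrGenus K (laurentBaseChange K (modularFunctionFieldFull N)) : ℤ) - 2 : ℤ) : ℚ) := by
    exact_mod_cast h1
  rw [genusFormula]
  push_cast at h1' h2' h3'
  linarith

/-- Modular forms: the genus is at most the value of the classical formula. -/
theorem rrGenus_le_genusFormula (ι : K →+* ℂ) :
    (rrGenus K (laurentBaseChange K (modularFunctionFieldFull N)) : ℚ) ≤ genusFormula N := by
  have ht := transcendental_jj (K := K) N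
  have hn := finrank_jj K N
  obtain ⟨c, hc⟩ := exists_riemann (K := K)
    (F := laurentBaseChange K (modularFunctionFieldFull N))
  let n : ℕ := c.toNat + 1
  have hn1 : 1 ≤ n := by omega
  have hD : ∀ v : Place K (laurentBaseChange K (modularFunctionFieldFull N)),
      (n • poleDiv K (jj K N)) v = n * max 0 (-v.ord (Fermat.Agent.GenusRR.jK K N)) := by
    intro v
    rw [Finsupp.smul_apply, poleDiv_apply, nsmul_eq_mul, max_comm]
    rfl
  obtain ⟨m, y, hm, hy1, hy2⟩ := Fermat.Agent.GenusRR.exists_family_riemannRoch N ι hn1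
    (n • poleDiv K (jj K N)) hD
  let w : Fin m → riemannRochSpace (n • poleDiv K (jj K N)) := fun i => ⟨y i, hy2 i⟩
  have hw : LinearIndependent K w := by
    apply LinearIndependent.of_comp (riemannRochSpace (n • poleDiv K (jj K N))).subtype
    exact hy1
  have h2 := hw.fintype_card_le_finrank
  rw [Fintype.card_fin] at h2
  have hdeg : Divisor.degree (n • poleDiv K (jj K N)) = n * dedekindPsi N := by
    rw [map_nsmul, degree_poleDiv ht, nsmul_eq_mul, hn]
  have hpsi : 0 < dedekindPsi N := Nat.pos_of_ne_zero (dedekindPsi_ne_zero' N)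
  have h3 := hc (n • poleDiv K (jj K N)) (by
    rw [hdeg]
    have h2 := Int.self_le_toNat c
    have h3 : (c.toNat : ℤ) ≤ n := by
      have : c.toNat ≤ n := by omega
      exact_mod_cast this
    have h4 : (1 : ℤ) ≤ dedekindPsi N := by exact_mod_cast hpsi
    have h5 : (0 : ℤ) ≤ n := by positivity
    nlinarith)
  rw [hdeg] at h3
  have h4 : (m : ℤ) ≤ ell (n • poleDiv K (jj K N)) := by exact_mod_cast h2
  rw [h3] at h4
  have h5 : ((m : ℤ) : ℚ) ≤ (((n : ℤ) * (dedekindPsi N : ℤ) + 1 -
      (rrGenus K (laurentBaseChange K (modularFunctionFieldFull N)) : ℤ) : ℤ) : ℚ) := by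
    exact_mod_cast h4
  push_cast at h5
  linarith

theorem rrGenus_modular (ι : K →+* ℂ) :
    (rrGenus K (laurentBaseChange K (modularFunctionFieldFull N)) : ℚ) = genusFormula N :=
  le_antisymm (rrGenus_le_genusFormula N ι) (genusFormula_le_rrGenus N ι)

end Fermat.Agent.RR
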