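import Fermat.Agent.RR.TowerDeg
import Fermat.Agent.RR.ModularGenus
import Fermat.Agent.ModPoly.Main

/-!
# Lower bound for the genus of `X₀(M)` in characteristic `ℓ ∤ M`, `4 ∣ M` or `9 ∣ M`
-/

set_option autoImplicit false
set_option linter.style.haveILetI false
set_option linter.unusedSectionVars false

namespace Fermat.Agent.RR

open AlgebraicCurve Fermat.Agent.Curve Polynomial IntermediateField ModularCurve
open Fermat.Agent.ModPoly

section Numerics

theorem nuTwo_eq_zero {L M : ℕ} (hLM : L ∣ M) (h : ∀ x : ZMod L, x ^ 2 + 1 ≠ 0) : nuTwo M = 0 := by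
  rw [nuTwo, Nat.card_eq_zero]
  left
  refine ⟨?_⟩
  rintro ⟨x, hx⟩
  apply h (ZMod.castHom hLM (ZMod L) x)
  rw [← map_pow, ← map_one (ZMod.castHom hLM (ZMod L)), ← map_add, hx, map_zero]

theorem nuThree_eq_zero {L M : ℕ} (hLM : L ∣ M) (h : ∀ x : ZMod L, x ^ 2 + x + 1 ≠ 0) :
    nuThree M = 0 := by
  rw [nuThree, Nat.card_eq_zero]
  left
  refine ⟨?_⟩
  rintro ⟨x, hx⟩
  apply h (ZMod.castHom hLM (ZMod L) x)
  rw [← map_pow, ← map_one (ZMod.castHom hLM (ZMod L)), ← map_add, ← map_add, hx, map_zero]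

theorem cuspCount_four : cuspCount 4 = 3 := by decide
theorem cuspCount_nine : cuspCount 9 = 4 := by decide
theorem dedekindPsi_four : dedekindPsi 4 = 6 := by decide +kernel
theorem dedekindPsi_nine : dedekindPsi 9 = 12 := by decide +kernel

theorem genusFormula_of_four {M : ℕ} (h : 4 ∣ M) :
    genusFormula M = 1 + (dedekindPsi M : ℚ) / 12 - (cuspCount M : ℚ) / 2 := by
  rw [genusFormula, nuTwo_eq_zero h (by decide), nuThree_eq_zero h (by decide)]
  norm_num

theorem genusFormula_of_nine {M : ℕ} (h : 9 ∣ M) :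
    genusFormula M = 1 + (dedekindPsi M : ℚ) / 12 - (cuspCount M : ℚ) / 2 := by
  rw [genusFormula, nuTwo_eq_zero h (by decide), nuThree_eq_zero h (by decide)]
  norm_num

theorem genusFormula_four : genusFormula 4 = 0 := by
  rw [genusFormula_of_four dvd_rfl, cuspCount_four, dedekindPsi_four]
  norm_num

theorem genusFormula_nine : genusFormula 9 = 0 := by
  rw [genusFormula_of_nine dvd_rfl, cuspCount_nine, dedekindPsi_nine]
  norm_num

end Numerics

section

variable {k : Type*} [Field k] [IsAlgClosed k]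

theorem transcendental_jF (M : ℕ) : Transcendental k (jF' k M) := by
  rw [transcendental_iff_injective]
  exact aeval_jF_injective

theorem funField_FF {M : ℕ} [NeZero M] (hM : (M : k) ≠ 0) : FunField k (FF k M) := by
  haveI := finiteDimensional_E (k := k) (N := M) hM
  exact FunField.of (t := jF' k M) (transcendental_jF M)

theorem natCast_ne_zero_of_dvd {L M : ℕ} (h : L ∣ M) (hM : (M : k) ≠ 0) : (L : k) ≠ 0 := by
  obtain ⟨c, rfl⟩ := h
  rw [Nat.cast_mul] at hM
  exact left_ne_zero_of_mul hM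

/-- Hurwitz over a level of genus zero. -/
theorem genus_lower_of {L M : ℕ} [NeZero L] [NeZero M] [FunField k (FF k L)]
    [FunField k (FF k M)] (hLM : L ∣ M) (hM : (M : k) ≠ 0) (h0 : rrGenus k (FF k L) = 0) :
    ∃ n : ℕ, dedekindPsi M = dedekindPsi L * n ∧
      ((Set.ncard {v : Place k (FF k L) | v.ord (jF' k L) < 0} : ℤ) - 2) * n
      - (Set.ncard {v : Place k (FF k M) | v.ord (jF' k M) < 0} : ℤ)
        ≤ 2 * (rrGenus k (FF k M) : ℤ) - 2 := by
  have hL : (L : k) ≠ 0 := natCast_ne_zero_of_dvd hLM hM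
  letI : Algebra (FF k L) (FF k M) := (IntermediateField.inclusion (full_degeneracyC_le k hLM)).toAlgebra
  haveI : IsScalarTower k (FF k L) (FF k M) := IsScalarTower.of_algebraMap_eq fun _ => rfl
  obtain ⟨n, hn, h⟩ := hurwitz_tower' (K := k) (E := FF k L) (F := FF k M) (jF' k L) (jF' k M) rfl
    (finiteDimensional_E hM) (isSeparable_E hM) h0 (transcendental_jF L)
  refine ⟨n, ?_, h⟩
  rw [← finrank_E (k := k) (N := M) hM, ← finrank_E (k := k) (N := L) hL]
  exact hn

/-- The lower bound for the genus. -/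
theorem genusFormula_le_of {M : ℕ} [NeZero M] [FunField k (FF k M)] (hM : (M : k) ≠ 0)
    (hcM : Set.ncard {v : Place k (FF k M) | v.ord (jF' k M) < 0} ≤ cuspCount M)
    (h : (4 ∣ M ∧ (∃ _ : FunField k (FF k 4), rrGenus k (FF k 4) = 0) ∧
        cuspCount 4 ≤ Set.ncard {v : Place k (FF k 4) | v.ord (jF' k 4) < 0}) ∨
      (9 ∣ M ∧ (∃ _ : FunField k (FF k 9), rrGenus k (FF k 9) = 0) ∧
        cuspCount 9 ≤ Set.ncard {v : Place k (FF k 9) | v.ord (jF' k 9) < 0})) :
    genusFormula M ≤ rrGenus k (FF k M) := by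
  have hcM' : (Set.ncard {v : Place k (FF k M) | v.ord (jF' k M) < 0} : ℚ) ≤ cuspCount M := by
    exact_mod_cast hcM
  rcases h with ⟨h4, ⟨h0', h0⟩, hc⟩ | ⟨h9, ⟨h0', h0⟩, hc⟩
  · haveI : NeZero 4 := ⟨by norm_num⟩
    obtain ⟨n, hn, h1⟩ := genus_lower_of h4 hM h0
    have h1' : (((Set.ncard {v : Place k (FF k 4) | v.ord (jF' k 4) < 0} : ℤ) : ℚ) - 2) * n
      - ((Set.ncard {v : Place k (FF k M) | v.ord (jF' k M) < 0} : ℤ) : ℚ)
        ≤ 2 * ((rrGenus k (FF k M) : ℤ) : ℚ) - 2 := by exact_mod_cast h1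
    rw [cuspCount_four] at hc
    have hc' : (3 : ℚ) ≤ Set.ncard {v : Place k (FF k 4) | v.ord (jF' k 4) < 0} := by
      exact_mod_cast hc
    rw [dedekindPsi_four] at hn
    rw [genusFormula_of_four h4, hn]
    push_cast at h1' ⊢
    have hn0 : (0 : ℚ) ≤ n := Nat.cast_nonneg _
    nlinarith
  · haveI : NeZero 9 := ⟨by norm_num⟩
    obtain ⟨n, hn, h1⟩ := genus_lower_of h9 hM h0
    have h1' : (((Set.ncard {v : Place k (FF k 9) | v.ord (jF' k 9) < 0} : ℤ) : ℚ) - 2) * n
      - ((Set.ncard {v : Place k (FF k M) | v.ord (jF' k M) < 0} : ℤ) : ℚ)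
        ≤ 2 * ((rrGenus k (FF k M) : ℤ) : ℚ) - 2 := by exact_mod_cast h1
    rw [cuspCount_nine] at hc
    have hc' : (4 : ℚ) ≤ Set.ncard {v : Place k (FF k 9) | v.ord (jF' k 9) < 0} := by
      exact_mod_cast hc
    rw [dedekindPsi_nine] at hn
    rw [genusFormula_of_nine h9, hn]
    push_cast at h1' ⊢
    have hn0 : (0 : ℚ) ≤ n := Nat.cast_nonneg _
    nlinarith

end

end Fermat.Agent.RR
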