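import Fermat.Agent.RR.Approx

/-!
# The number of zeros is at most the degree
-/

set_option autoImplicit false
set_option linter.style.haveILetI false
set_option linter.unusedSectionVars false

namespace Fermat.Agent.RR

open AlgebraicCurve Fermat.Agent.Curve Polynomial IntermediateField

variable {K F : Type*} [Field K] [Field F] [Algebra K F]

/-- Criterion for linear independence over `K(t)`. -/
theorem linearIndependent_adjoin {t : F} (ht : Transcendental K t) {ι : Type*} (b : ι → F)
    (h : ∀ (s : Finset ι) (p : ι → K[X]), ∑ i ∈ s, aeval t (p i) * b i = 0 → ∀ i ∈ s, p i = 0) :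
    LinearIndependent K⟮t⟯ b := by
  let g : K⟮t⟯ := AdjoinSimple.gen K t
  letI : Algebra K[X] K⟮t⟯ := (aeval g).toRingHom.toAlgebra
  letI : Algebra K[X] F := (aeval t).toRingHom.toAlgebra
  haveI : IsScalarTower K[X] K⟮t⟯ F := by
    refine IsScalarTower.of_algebraMap_eq fun p => ?_
    change aeval t p = algebraMap K⟮t⟯ F (aeval g p)
    rw [← aeval_algebraMap_apply]
    rfl
  haveI : IsFractionRing K[X] K⟮t⟯ := by
    let e : RatFunc K ≃ₐ[K[X]] K⟮t⟯ :=
      AlgEquiv.ofRingEquiv (f := (RatFunc.algEquivOfTranscendental t ht).toRingEquiv)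
        (fun p => RatFunc.algEquivOfTranscendental_algebraMap t ht p)
    exact IsLocalization.isLocalization_of_algEquiv (nonZeroDivisors K[X]) e
  rw [← LinearIndependent.iff_fractionRing K[X] K⟮t⟯]
  rw [linearIndependent_iff']
  intro s p hp i hi
  refine h s p ?_ i hi
  rw [← hp]
  exact Finset.sum_congr rfl fun i _ => rfl

/-- Order of a polynomial expression in `t` at a zero of `t`. -/
theorem ge_aeval_of_coeff_zero {v : Place K F} {t : F} (ht : 0 < v.ord t) (p : K[X]) :
    Ge v 0 (aeval t p) := by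
  rw [aeval_eq_sum_range]
  apply Ge.sum
  intro i _
  apply Ge.smul
  right
  rw [ord_pow]
  positivity

theorem ge_aeval_of_coeff_zero' {v : Place K F} {t : F} (ht : 0 < v.ord t) {p : K[X]}
    (h0 : p.coeff 0 = 0) : Ge v (v.ord t) (aeval t p) := by
  obtain ⟨q, rfl⟩ := X_dvd_iff.2 h0
  rw [map_mul, aeval_X]
  exact ((Ge.of_le le_rfl).mul (ge_aeval_of_coeff_zero ht q)).mono (by simp)

theorem ord_aeval_of_coeff_ne_zero {v : Place K F} {t : F} (ht : 0 < v.ord t) {p : K[X]}
    (h0 : p.coeff 0 ≠ 0) : aeval t p ≠ 0 ∧ v.ord (aeval t p) = 0 := by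
  have h1 : Ge v (v.ord (algebraMap K F (p.coeff 0)) + 1) (algebraMap K F (p.coeff 0) - aeval t p) := by
    have h2 := ge_aeval_of_coeff_zero' ht (p := C (p.coeff 0) - p) (by simp)
    rw [map_sub, aeval_C] at h2
    exact h2.mono (by rw [ord_algebraMap]; omega)
  have h3 := h1.ord_eq (by rwa [ne_eq, map_eq_zero])
  rwa [ord_algebraMap] at h3

/-- The key independence statement. -/
theorem independent_aux {t : F} (S : Finset (Place K F)) (hS : ∀ v ∈ S, 0 < v.ord t)
    (b : (Σ v : S, Fin ((v : Place K F).ord t).toNat) → F)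
    (hb0 : ∀ i, b i ≠ 0) (hb : ∀ i, (i.1 : Place K F).ord (b i) = i.2)
    (hb' : ∀ i, ∀ w ∈ S, w ≠ i.1 → Ge w (w.ord t) (b i)) :
    ∀ (n : ℕ) (s : Finset (Σ v : S, Fin ((v : Place K F).ord t).toNat))
      (p : (Σ v : S, Fin ((v : Place K F).ord t).toNat) → K[X]),
      ∑ i ∈ s, (p i).natDegree ≤ n → ∑ i ∈ s, aeval t (p i) * b i = 0 → ∀ i ∈ s, p i = 0 := by
  classical
  -- constant coefficients vanish
  have key : ∀ (s : Finset (Σ v : S, Fin ((v : Place K F).ord t).toNat))
      (p : (Σ v : S, Fin ((v : Place K F).ord t).toNat) → K[X]),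
      ∑ i ∈ s, aeval t (p i) * b i = 0 → ∀ i ∈ s, (p i).coeff 0 = 0 := by
    intro s p hp i0 hi0
    by_contra hcon
    -- the indices with nonzero constant coefficient at the place `v`
    set v := i0.1 with hv
    let T := s.filter fun i => i.1 = v ∧ (p i).coeff 0 ≠ 0
    have hT : T.Nonempty := ⟨i0, by simp only [T, Finset.mem_filter]; exact ⟨hi0, rfl, hcon⟩⟩
    obtain ⟨c, hcT, hcmin⟩ := T.exists_min_image (fun i => (i.2 : ℕ)) hT
    simp only [T, Finset.mem_filter] at hcT
    obtain ⟨hcs, hcv, hc0⟩ := hcT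
    have hvt : 0 < (v : Place K F).ord t := hS v v.2
    have hclt : ((c.2 : ℕ) : ℤ) < (v : Place K F).ord t := by
      have h1 := c.2.2
      rw [← hcv]
      have h2 := hS c.1 c.1.2
      omega
    rw [← Finset.add_sum_erase s _ hcs] at hp
    -- the other terms have larger order
    have hrest : Ge (v : Place K F) ((c.2 : ℕ) + 1) (∑ i ∈ s.erase c, aeval t (p i) * b i) := by
      apply Ge.sum
      intro i hi
      rw [Finset.mem_erase] at hi
      by_cases hiv : i.1 = v
      · have hbi : (v : Place K F).ord (b i) = (i.2 : ℕ) := by rw [← hiv]; exact hb i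
        by_cases hi0 : (p i).coeff 0 = 0
        · exact ((ge_aeval_of_coeff_zero' hvt hi0).mul (Ge.of_le hbi.ge)).mono (by omega)
        · have hmin := hcmin i (by simp only [T, Finset.mem_filter]; exact ⟨hi.2, hiv, hi0⟩)
          have hne : (i.2 : ℕ) ≠ c.2 := by
            intro h
            apply hi.1
            obtain ⟨iv, ia⟩ := i
            obtain ⟨cv, ca⟩ := c
            simp only at hiv hcv h
            subst hiv
            subst hcv
            congr 1
            exact Fin.ext h
          exact ((ge_aeval_of_coeff_zero hvt (p i)).mul (Ge.of_le hbi.ge)).mono (by omega)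
      · have h1 := hb' i v v.2 (fun h => hiv (Subtype.ext h).symm)
        exact ((ge_aeval_of_coeff_zero hvt (p i)).mul h1).mono (by omega)
    have hmain := ord_aeval_of_coeff_ne_zero hvt hc0
    have hbc : (v : Place K F).ord (b c) = (c.2 : ℕ) := by rw [← hcv]; exact hb c
    have h2 : (v : Place K F).ord (aeval t (p c) * b c) = (c.2 : ℕ) := by
      rw [Place.ord_mul _ hmain.1 (hb0 c), hmain.2, hbc, zero_add]
    have h3 : aeval t (p c) * b c = -(∑ i ∈ s.erase c, aeval t (p i) * b i) :=
      eq_neg_of_add_eq_zero_left hp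
    have h4 := hrest.neg
    rw [← h3] at h4
    have h5 := h4.le_ord (mul_ne_zero hmain.1 (hb0 c))
    rw [h2] at h5
    omega
  by_cases ht0 : t = 0
  · intro n s p _ _ i _
    have h2 := hS i.1 i.1.2
    have h3 := congrArg (i.1 : Place K F).ord ht0
    rw [Place.ord_zero] at h3
    omega
  intro n
  induction n with
  | zero =>
    intro s p hdeg hp i hi
    have h0 := key s p hp i hi
    have h1 : (p i).natDegree = 0 := by
      have := Finset.single_le_sum (f := fun i => (p i).natDegree) (fun _ _ => Nat.zero_le _) hi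
      omega
    rw [natDegree_eq_zero] at h1
    obtain ⟨a, ha⟩ := h1
    rw [← ha, coeff_C_zero] at h0
    rw [← ha, h0, C_0]
  | succ n ih =>
    intro s p hdeg hp
    have h0 := key s p hp
    have h1 : ∀ i ∈ s, p i = X * (p i).divX := by
      intro i hi
      have h2 := divX_mul_X_add (p i)
      rw [h0 i hi, C_0, add_zero] at h2
      rw [mul_comm]
      exact h2.symm
    have h2 : ∑ i ∈ s, aeval t ((p i).divX) * b i = 0 := by
      have h3 : t * ∑ i ∈ s, aeval t ((p i).divX) * b i = ∑ i ∈ s, aeval t (p i) * b i := by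
        rw [Finset.mul_sum]
        apply Finset.sum_congr rfl
        intro i hi
        conv_rhs => rw [h1 i hi]
        rw [map_mul, aeval_X]
        ring
      rw [hp] at h3
      exact (mul_eq_zero.1 h3).resolve_left ht0
    by_cases hall : ∀ i ∈ s, (p i).natDegree = 0
    · exact ih s p (by rw [Finset.sum_eq_zero hall]; omega) hp
    · push Not at hall
      obtain ⟨i0, hi0, hi0d⟩ := hall
      have h4 : ∑ i ∈ s, ((p i).divX).natDegree ≤ n := by
        have h5 : ∑ i ∈ s, ((p i).divX).natDegree < ∑ i ∈ s, (p i).natDegree := by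
          apply Finset.sum_lt_sum
          · intro i _
            rw [natDegree_divX_eq_natDegree_tsub_one]
            omega
          · exact ⟨i0, hi0, by rw [natDegree_divX_eq_natDegree_tsub_one]; omega⟩
        omega
      intro i hi
      rw [h1 i hi, ih s _ h4 h2 i hi, mul_zero]

/-- The number of zeros (with multiplicity) in a finite set is at most the degree. -/
theorem sum_ord_le {t : F} (ht : Transcendental K t) [FiniteDimensional K⟮t⟯ F]
    (S : Finset (Place K F)) (hS : ∀ v ∈ S, 0 < v.ord t) :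
    ∑ v ∈ S, v.ord t ≤ Module.finrank K⟮t⟯ F := by
  classical
  have hb : ∀ i : (Σ v : S, Fin ((v : Place K F).ord t).toNat), ∃ x : F, x ≠ 0 ∧
      (i.1 : Place K F).ord x = (i.2 : ℕ) ∧ ∀ w ∈ S, w ≠ i.1 → Ge w (w.ord t) x := by
    intro i
    obtain ⟨x, h1, h2, h3⟩ := exists_ord_eq_of_finset S
      (fun w => if w = i.1 then ((i.2 : ℕ) : ℤ) else w.ord t) i.1 i.1.2
    refine ⟨x, h1, ?_, ?_⟩
    · rw [h2, if_pos rfl]
    · intro w hw hwv
      have := h3 w hw hwv
      rwa [if_neg hwv] at this
  choose b hb0 hb1 hb2 using hb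
  have hli : LinearIndependent K⟮t⟯ b := by
    apply linearIndependent_adjoin ht
    intro s p hp
    exact independent_aux S hS b hb0 hb1 hb2 _ s p le_rfl hp
  have h1 := hli.fintype_card_le_finrank
  rw [Fintype.card_sigma] at h1
  simp only [Fintype.card_fin] at h1
  have h2 : ∑ v ∈ S, v.ord t = ((∑ v : S, ((v : Place K F).ord t).toNat : ℕ) : ℤ) := by
    push_cast
    rw [← Finset.sum_coe_sort S]
    apply Finset.sum_congr rfl
    intro v _
    have := hS v v.2
    omega
  rw [h2]
  exact_mod_cast h1

theorem finite_zeros {t : F} (ht : Transcendental K t) [FiniteDimensional K⟮t⟯ F] :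
    {v : Place K F | 0 < v.ord t}.Finite := by
  classical
  by_contra hinf
  obtain ⟨S, hS, hcard⟩ := Set.Infinite.exists_subset_card_eq hinf (Module.finrank K⟮t⟯ F + 1)
  have h1 := sum_ord_le ht S (fun v hv => hS hv)
  have h2 : (S.card : ℤ) ≤ ∑ v ∈ S, v.ord t := by
    rw [Finset.card_eq_sum_ones]
    push_cast
    apply Finset.sum_le_sum
    intro v hv
    have := hS hv
    simp only [Set.mem_ofPred_eq] at this
    omega
  omega

end Fermat.Agent.RR
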