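import Mathlib.FieldTheory.PurelyInseparable.Exponent
import Mathlib.FieldTheory.PurelyInseparable.PerfectClosure
import Fermat.Agent.RR.Zeros

/-!
# Existence of zeros of transcendental elements, in any characteristic
-/

set_option autoImplicit false
set_option linter.style.haveILetI false
set_option linter.unusedSectionVars false

namespace Fermat.Agent.RR

open AlgebraicCurve Fermat.Agent.Curve Polynomial IntermediateField

variable {K F : Type*} [Field K] [IsAlgClosed K] [Field F] [Algebra K F]

/-- Existence of a zero in the separable case: a general version with a base field `L₀`. -/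
theorem exists_zero_separable {L₀ E : Type*} [Field L₀] [Field E] [Algebra K L₀] [Algebra K E]
    [Algebra L₀ E] [IsScalarTower K L₀ E] [FiniteDimensional L₀ E] [Algebra.IsSeparable L₀ E]
    (g : L₀) (hg : Transcendental K g) (htop : K⟮g⟯ = ⊤) :
    ∃ hfin : {v : Place K E | 0 < v.ord (algebraMap L₀ E g)}.Finite,
      ∑ v ∈ hfin.toFinset, v.ord (algebraMap L₀ E g) = Module.finrank L₀ E := by
  letI : Algebra K[X] L₀ := (aeval g).toRingHom.toAlgebra
  letI : Algebra K[X] E := (aeval (algebraMap L₀ E g)).toRingHom.toAlgebra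
  haveI : IsScalarTower K[X] L₀ E := by
    refine IsScalarTower.of_algebraMap_eq fun p => ?_
    change aeval (algebraMap L₀ E g) p = algebraMap L₀ E (aeval g p)
    rw [← aeval_algebraMap_apply]
  haveI : IsScalarTower K K[X] E := by
    refine IsScalarTower.of_algebraMap_eq fun a => ?_
    change algebraMap K E a = aeval (algebraMap L₀ E g) (algebraMap K K[X] a)
    simp
  haveI : IsFractionRing K[X] L₀ := by
    let e0 : RatFunc K ≃ₐ[K] K⟮g⟯ := RatFunc.algEquivOfTranscendental g hg
    let e1 : K⟮g⟯ ≃ₐ[K] L₀ := (IntermediateField.equivOfEq htop).trans IntermediateField.topEquiv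
    let e : RatFunc K ≃ₐ[K[X]] L₀ :=
      AlgEquiv.ofRingEquiv (f := (e0.trans e1).toRingEquiv)
        (fun p => by
          have h1 : e0 (algebraMap K[X] (RatFunc K) p) = aeval (AdjoinSimple.gen K g) p :=
            RatFunc.algEquivOfTranscendental_algebraMap g hg p
          change e1 (e0 (algebraMap K[X] (RatFunc K) p)) = aeval g p
          have h2 := aeval_algHom_apply e1.toAlgHom (AdjoinSimple.gen K g) p
          change aeval (e1 (AdjoinSimple.gen K g)) p = e1 (aeval (AdjoinSimple.gen K g) p) at h2
          rw [h1, ← h2]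
          rfl)
    exact IsLocalization.isLocalization_of_algEquiv (nonZeroDivisors K[X]) e
  have hmax : (Ideal.span {(X : K[X])}).IsMaximal :=
    PrincipalIdealRing.isMaximal_of_irreducible irreducible_X
  have hsurj : ∀ r : K[X], ∃ a : K, r - algebraMap K K[X] a ∈ Ideal.span {(X : K[X])} := by
    intro r
    refine ⟨r.coeff 0, ?_⟩
    rw [Ideal.mem_span_singleton, X_dvd_iff]
    simp
  obtain ⟨hfin, hsum⟩ := fiber_sum (K := K) (F := E) K[X] L₀ X X_ne_zero hmax hsurj
  have hX : algebraMap K[X] E X = algebraMap L₀ E g := by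
    change aeval (algebraMap L₀ E g) X = _
    simp
  have hset : fiberSet K (F := E) K[X] X = {v : Place K E | 0 < v.ord (algebraMap L₀ E g)} := by
    ext v
    simp only [fiberSet, Set.mem_ofPred_eq, hX]
    constructor
    · exact fun h => h.2
    · intro h
      refine ⟨fun r => ?_, h⟩
      have htv : algebraMap L₀ E g ∈ v.toValuationSubring := mem_of_ord_nonneg v h.le
      change aeval (algebraMap L₀ E g) r ∈ v.toValuationSubring
      rw [aeval_eq_sum_range]
      refine sum_mem fun i _ => ?_
      rw [Algebra.smul_def]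
      exact mul_mem (v.algebraMap_mem' _) (pow_mem htv i)
  have hfin' : {v : Place K E | 0 < v.ord (algebraMap L₀ E g)}.Finite := hset ▸ hfin
  refine ⟨hfin', ?_⟩
  rw [← hsum]
  refine Finset.sum_congr ?_ fun v _ => by rw [hX]
  ext v
  rw [Set.Finite.mem_toFinset, Set.Finite.mem_toFinset, hset]

/-- Extension of places in a finite purely inseparable extension. -/
theorem exists_place_of_purelyInseparable {E : Type*} [Field E] [Algebra K E]
    [Algebra E F] [IsScalarTower K E F] [FiniteDimensional E F] [IsPurelyInseparable E F]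
    (u : Place K E) {t : E} (hu : 0 < u.ord t) :
    ∃ v : Place K F, 0 < v.ord (algebraMap E F t) := by
  have ht0 : t ≠ 0 := by
    rintro rfl
    rw [u.ord_zero] at hu
    exact lt_irrefl _ hu
  obtain ⟨p, hp⟩ := ExpChar.exists E
  let φ : F →+* E := IsPurelyInseparable.iterateFrobenius E F p le_rfl
  have hφ : ∀ a : E, φ (algebraMap E F a) = a ^ p ^ (IsPurelyInseparable.exponent E F) :=
    fun a => IsPurelyInseparable.iterateFrobenius_algebraMap F p le_rfl a
  have hpp : 0 < p ^ (IsPurelyInseparable.exponent E F) := expChar_pow_pos E p _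
  generalize p ^ (IsPurelyInseparable.exponent E F) = q at hφ hpp
  clear_value φ
  have hne : ∀ f : F, f ≠ 0 → φ f ≠ 0 := fun f hf => by rwa [ne_eq, map_eq_zero]
  have htF : algebraMap E F t ≠ 0 := by rwa [ne_eq, map_eq_zero]
  have hpos : 0 < u.ord (φ (algebraMap E F t)) := by
    rw [hφ, ord_pow]
    positivity
  obtain ⟨v, m, hm0, hm⟩ := exists_place_of_valuation (K := K) (fun f : F => u.ord (φ f))
    (by
      intro f g hf hg
      rw [map_mul]
      exact u.ord_mul (hne f hf) (hne g hg))
    (by
      intro f g hf hg hfg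
      have h1 : φ f + φ g ≠ 0 := by
        rw [← map_add]
        exact hne _ hfg
      rw [map_add]
      exact le_ord_add u h1 (min_le_left _ _) (min_le_right _ _) (hne f hf) (hne g hg))
    (by
      intro a ha
      rw [IsScalarTower.algebraMap_apply K E F, hφ, ord_pow, ord_algebraMap, mul_zero])
    ⟨algebraMap E F t, htF, hpos.ne'⟩
  refine ⟨v, ?_⟩
  have h2 := hm _ htF
  change u.ord (φ (algebraMap E F t)) = _ at h2
  rw [h2] at hpos
  by_contra hcon
  push Not at hcon
  nlinarith

theorem adjoin_gen_eq_top (t : F) : K⟮AdjoinSimple.gen K t⟯ = ⊤ := by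
  rw [eq_top_iff]
  intro x _
  have hx := x.2
  have h2 : ∀ y ∈ K⟮t⟯, ∃ z ∈ K⟮AdjoinSimple.gen K t⟯, (z : F) = y := by
    intro y hy
    induction hy using IntermediateField.adjoin_induction with
    | mem y hy =>
      rw [Set.mem_singleton_iff] at hy
      exact ⟨AdjoinSimple.gen K t, mem_adjoin_simple_self _ _, by rw [hy]; rfl⟩
    | algebraMap a => exact ⟨algebraMap K _ a, IntermediateField.algebraMap_mem _ a, rfl⟩
    | add y z _ _ hy hz =>
      obtain ⟨a, ha, rfl⟩ := hy
      obtain ⟨b, hb, rfl⟩ := hz
      exact ⟨a + b, add_mem ha hb, rfl⟩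
    | inv y _ hy =>
      obtain ⟨a, ha, rfl⟩ := hy
      exact ⟨a⁻¹, inv_mem ha, rfl⟩
    | mul y z _ _ hy hz =>
      obtain ⟨a, ha, rfl⟩ := hy
      obtain ⟨b, hb, rfl⟩ := hz
      exact ⟨a * b, mul_mem ha hb, rfl⟩
  obtain ⟨z, hz, hzx⟩ := h2 x hx
  have : z = x := Subtype.ext hzx
  rwa [← this]

theorem transcendental_gen {t : F} (ht : Transcendental K t) :
    Transcendental K (AdjoinSimple.gen K t) := by
  rw [← transcendental_algebraMap_iff (R := K) (S := K⟮t⟯) (A := F)
    (algebraMap K⟮t⟯ F).injective]
  exact ht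

theorem exists_zero_aux {L₀ E : Type*} [Field L₀] [Field E] [Algebra K L₀] [Algebra K E]
    [Algebra L₀ E] [IsScalarTower K L₀ E] [FiniteDimensional L₀ E] [Algebra.IsSeparable L₀ E]
    [Algebra E F] [IsScalarTower K E F] [FiniteDimensional E F] [IsPurelyInseparable E F]
    (g : L₀) (hg : Transcendental K g) (htop : K⟮g⟯ = ⊤) :
    ∃ v : Place K F, 0 < v.ord (algebraMap E F (algebraMap L₀ E g)) := by
  obtain ⟨hfin, hsum⟩ := exists_zero_separable (K := K) (L₀ := L₀) (E := E) g hg htop
  have hpos : 0 < Module.finrank L₀ E := Module.finrank_pos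
  obtain ⟨u, hu⟩ : ∃ u : Place K E, 0 < u.ord (algebraMap L₀ E g) := by
    by_contra hcon
    push Not at hcon
    have h1 : hfin.toFinset = ∅ := by
      ext v
      rw [Set.Finite.mem_toFinset]
      simp only [Set.mem_ofPred_eq, Finset.notMem_empty, iff_false, not_lt]
      exact hcon v
    rw [h1, Finset.sum_empty] at hsum
    omega
  exact exists_place_of_purelyInseparable (F := F) u hu

/-- Any transcendental element has a zero. -/
theorem exists_zero {t : F} (ht : Transcendental K t) [FiniteDimensional K⟮t⟯ F] :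
    ∃ v : Place K F, 0 < v.ord t := by
  haveI : IsScalarTower K (separableClosure K⟮t⟯ F) F := by
    refine IsScalarTower.of_algebraMap_eq fun a => ?_
    rfl
  have h := exists_zero_aux (K := K) (F := F) (L₀ := K⟮t⟯) (E := separableClosure K⟮t⟯ F)
    (AdjoinSimple.gen K t) (transcendental_gen ht) (adjoin_gen_eq_top t)
  exact h

end Fermat.Agent.RR
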