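import Fermat.Prelude.Def_AlgebraicCurve_Repartitions
import Fermat.Agent.RR.Existence

/-!
# Riemann-Roch spaces over an algebraically closed field of any characteristic
-/

set_option autoImplicit false
set_option linter.style.haveILetI false
set_option linter.unusedSectionVars false

namespace Fermat.Agent.RR

open AlgebraicCurve Fermat.Agent.Curve Polynomial IntermediateField

/-- Function fields in one variable. -/
class FunField (K F : Type*) [Field K] [Field F] [Algebra K F] : Prop where
  out : ∃ t : F, Transcendental K t ∧ FiniteDimensional K⟮t⟯ F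

variable {K F : Type*} [Field K] [IsAlgClosed K] [Field F] [Algebra K F]

theorem FunField.of {t : F} (ht : Transcendental K t) [FiniteDimensional K⟮t⟯ F] : FunField K F :=
  ⟨t, ht, inferInstance⟩

section

variable [hF : FunField K F]

omit [IsAlgClosed K] in
theorem fd {f : F} (hf : Transcendental K f) : FiniteDimensional K⟮f⟯ F := by
  obtain ⟨t, ht, h⟩ := hF.out
  haveI := h
  exact finiteDimensional_of_transcendental (t := t) hf

theorem exists_const' (v : Place K F) {f : F} (hf : f ∈ v.toValuationSubring) :
    ∃ a : K, Ge v 1 (f - algebraMap K F a) := by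
  obtain ⟨t, ht, h⟩ := hF.out
  haveI := h
  obtain ⟨a, ha⟩ := exists_const t v hf
  exact ⟨a, ha.imp id fun h => by omega⟩

theorem place_deg (v : Place K F) : v.deg = 1 := by
  obtain ⟨t, ht, h⟩ := hF.out
  haveI := h
  exact deg_eq_one t v

theorem exists_zero' {f : F} (hf : Transcendental K f) : ∃ v : Place K F, 0 < v.ord f := by
  haveI := fd (K := K) hf
  exact exists_zero hf

omit hF [IsAlgClosed K] in
theorem transcendental_inv {f : F} (hf : Transcendental K f) : Transcendental K f⁻¹ :=
  fun h => hf (by simpa using h.inv)

theorem exists_pole {f : F} (hf : Transcendental K f) : ∃ v : Place K F, v.ord f < 0 := by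
  obtain ⟨v, hv⟩ := exists_zero' (transcendental_inv hf)
  rw [v.ord_inv] at hv
  exact ⟨v, by omega⟩

theorem finite_pos {f : F} (hf : f ≠ 0) : {v : Place K F | 0 < v.ord f}.Finite := by
  by_cases halg : IsAlgebraic K f
  · obtain ⟨a, rfl⟩ := mem_range_of_isAlgebraic halg
    refine Set.Finite.subset Set.finite_empty ?_
    intro v hv
    simp [ord_algebraMap] at hv
  · have hf' : Transcendental K f := halg
    haveI := fd (K := K) hf'
    exact finite_zeros hf'

theorem finite_ord {f : F} (hf : f ≠ 0) : {v : Place K F | v.ord f ≠ 0}.Finite := by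
  refine ((finite_pos (K := K) hf).union (finite_pos (K := K) (inv_ne_zero hf))).subset ?_
  intro v hv
  simp only [Set.mem_ofPred_eq, Set.mem_union, v.ord_inv] at hv ⊢
  omega

/-- Elements without poles are constant. -/
theorem const_of_no_pole {f : F} (h : ∀ v : Place K F, 0 ≤ v.ord f) :
    ∃ a : K, algebraMap K F a = f := by
  by_cases halg : IsAlgebraic K f
  · exact mem_range_of_isAlgebraic halg
  · obtain ⟨v, hv⟩ := exists_pole (K := K) (f := f) halg
    exact absurd (h v) (not_le.2 hv)

theorem degree_eq (D : Divisor K F) : Divisor.degree D = ∑ v ∈ D.support, D v := by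
  simp only [Divisor.degree, Finsupp.liftAddHom_apply, Finsupp.sum]
  apply Finset.sum_congr rfl
  intro v _
  simp [place_deg (K := K) v]

theorem degree_single' (v : Place K F) (n : ℤ) :
    Divisor.degree (Finsupp.single v n : Divisor K F) = n := by
  rw [Divisor.degree_single, place_deg, Nat.cast_one, mul_one]

theorem degree_nonneg {D : Divisor K F} (hD : 0 ≤ D) : 0 ≤ Divisor.degree D := by
  rw [degree_eq]
  exact Finset.sum_nonneg fun v _ => hD v

theorem degree_mono {D E : Divisor K F} (h : D ≤ E) : Divisor.degree D ≤ Divisor.degree E := by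
  have := degree_nonneg (sub_nonneg.2 h)
  rw [map_sub] at this
  linarith

end

section L

theorem mem_L {D : Divisor K F} {f : F} :
    f ∈ riemannRochSpace D ↔ ∀ v : Place K F, Ge v (-D v) f := mem_riemannRochSpace_iff

theorem L_mono {D E : Divisor K F} (h : D ≤ E) : riemannRochSpace D ≤ riemannRochSpace E := by
  intro f hf
  rw [mem_L] at hf ⊢
  intro v
  exact (hf v).mono (neg_le_neg (h v))

/-- The dimension of `L(D)`. -/
noncomputable def ell (D : Divisor K F) : ℕ := Module.finrank K (riemannRochSpace D)

variable [hF : FunField K F]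

theorem L_zero : riemannRochSpace (0 : Divisor K F) = Submodule.span K {(1 : F)} := by
  apply le_antisymm
  · intro f hf
    rw [mem_L] at hf
    obtain ⟨a, ha⟩ := const_of_no_pole (K := K) (f := f) (by
      intro v
      rcases hf v with h | h
      · rw [h, v.ord_zero]
      · simpa using h)
    rw [Submodule.mem_span_singleton]
    exact ⟨a, by rw [← ha, Algebra.smul_def, mul_one]⟩
  · rw [Submodule.span_le, Set.singleton_subset_iff]
    change (1 : F) ∈ riemannRochSpace (0 : Divisor K F)
    rw [mem_L]
    intro v
    exact (Ge.one v).mono (by simp)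

theorem ell_zero : ell (0 : Divisor K F) = 1 := by
  rw [ell, L_zero]
  exact finrank_span_singleton one_ne_zero

/-- Adding a point increases the dimension by at most one. -/
theorem L_add_single_le (D : Divisor K F) (v : Place K F) :
    ∃ g : F, riemannRochSpace (D + Finsupp.single v 1) ≤
      riemannRochSpace D ⊔ Submodule.span K {g} := by
  classical
  have hval : ∀ w, w ≠ v → (D + Finsupp.single v 1 : Divisor K F) w = D w := by
    intro w hw
    rw [Finsupp.add_apply, Finsupp.single_eq_of_ne hw, add_zero]
  have hvalv : (D + Finsupp.single v 1 : Divisor K F) v = D v + 1 := by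
    rw [Finsupp.add_apply, Finsupp.single_eq_same]
  by_cases hle : riemannRochSpace (D + Finsupp.single v 1) ≤ riemannRochSpace D
  · exact ⟨0, hle.trans le_sup_left⟩
  · obtain ⟨g, hg, hgD⟩ := SetLike.not_le_iff_exists.1 hle
    refine ⟨g, ?_⟩
    rw [mem_L] at hg
    have hg0 : g ≠ 0 := by
      rintro rfl
      exact hgD (zero_mem _)
    have hgv : v.ord g = -(D v + 1) := by
      have h1 := (hg v).le_ord hg0
      rw [hvalv] at h1
      by_contra hne
      apply hgD
      rw [mem_L]
      intro w
      by_cases hw : w = v
      · rw [hw]; exact Or.inr (by omega)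
      · rw [← hval w hw]; exact hg w
    intro f hf
    rw [mem_L] at hf
    have hq : Ge v 0 (f / g) := by
      have h1 := hf v
      rw [hvalv] at h1
      rcases h1 with h1 | h1
      · rw [h1, zero_div]; exact Ge.zero v 0
      · by_cases hf0 : f = 0
        · rw [hf0, zero_div]; exact Ge.zero v 0
        · right
          rw [ord_div v hf0 hg0, hgv]
          omega
    obtain ⟨a, ha⟩ := exists_const' v hq.mem
    have h2 : f - a • g ∈ riemannRochSpace D := by
      rw [mem_L]
      intro w
      by_cases hw : w = v
      · rw [hw]
        have e : f - a • g = (f / g - algebraMap K F a) * g := by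
          rw [Algebra.smul_def]
          field_simp
        rw [e]
        exact (ha.mul (Ge.of_le hgv.ge)).mono (by omega)
      · rw [← hval w hw]
        exact (hf w).sub ((hg w).smul a)
    rw [Submodule.mem_sup]
    exact ⟨f - a • g, h2, a • g, Submodule.smul_mem _ _ (Submodule.mem_span_singleton_self g),
      by ring⟩

theorem finite_add_single (D : Divisor K F) (v : Place K F)
    (h : Module.Finite K (riemannRochSpace D)) :
    Module.Finite K (riemannRochSpace (D + Finsupp.single v 1)) ∧
      ell (D + Finsupp.single v 1) ≤ ell D + 1 := by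
  obtain ⟨g, hg⟩ := L_add_single_le D v
  haveI := h
  haveI h2 : Module.Finite K (riemannRochSpace D ⊔ Submodule.span K {g} : Submodule K F) :=
    inferInstance
  refine ⟨Submodule.finiteDimensional_of_le hg, ?_⟩
  have h3 := Submodule.finrank_mono hg
  have h4 := Submodule.finrank_add_le_finrank_add_finrank (riemannRochSpace D)
    (Submodule.span K {g})
  have h5 : Module.finrank K (Submodule.span K {g}) ≤ 1 := finrank_span_le_card _ |>.trans (by simp)
  rw [ell, ell]
  omega

theorem finite_add_of_nonneg (D : Divisor K F) (h : Module.Finite K (riemannRochSpace D)) :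
    ∀ (n : ℕ) (E : Divisor K F), 0 ≤ E → Divisor.degree E = n →
      Module.Finite K (riemannRochSpace (D + E)) ∧ (ell (D + E) : ℤ) ≤ ell D + n := by
  classical
  intro n
  induction n with
  | zero =>
    intro E hE hdeg
    have hE0 : E = 0 := by
      ext v
      rw [degree_eq] at hdeg
      by_cases hv : v ∈ E.support
      · have := (Finset.sum_eq_zero_iff_of_nonneg (fun v _ => hE v)).1
          (by simpa using hdeg) v hv
        exact this
      · rwa [Finsupp.notMem_support_iff] at hv
    rw [hE0, add_zero]
    exact ⟨h, by simp⟩
  | succ n ih =>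
    intro E hE hdeg
    obtain ⟨v, hv⟩ : ∃ v, 1 ≤ E v := by
      by_contra hcon
      push Not at hcon
      have h0 : E = 0 := by
        ext v
        have h1 := hE v
        have h2 := hcon v
        simp only [Finsupp.coe_zero, Pi.zero_apply] at h1 ⊢
        omega
      rw [h0, map_zero] at hdeg
      omega
    have hE' : 0 ≤ E - Finsupp.single v 1 := by
      intro w
      by_cases hw : w = v
      · rw [hw, Finsupp.sub_apply, Finsupp.single_eq_same]
        simp only [Finsupp.coe_zero, Pi.zero_apply]
        omega
      · rw [Finsupp.sub_apply, Finsupp.single_eq_of_ne hw, sub_zero]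
        exact hE w
    obtain ⟨h1, h2⟩ := ih (E - Finsupp.single v 1) hE' (by
      rw [map_sub, degree_single', hdeg]; push_cast; ring)
    obtain ⟨h3, h4⟩ := finite_add_single (D + (E - Finsupp.single v 1)) v h1
    have e : D + (E - Finsupp.single v 1) + Finsupp.single v 1 = D + E := by abel
    rw [e] at h3 h4
    refine ⟨h3, ?_⟩
    push_cast
    omega

theorem finite_L_zero : Module.Finite K (riemannRochSpace (0 : Divisor K F)) := by
  rw [L_zero]
  infer_instance

/-- The positive part of a divisor. -/
noncomputable def posPart (D : Divisor K F) : Divisor K F := D ⊔ 0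

omit [IsAlgClosed K] hF in
theorem le_posPart (D : Divisor K F) : D ≤ posPart D := le_sup_left

omit [IsAlgClosed K] hF in
theorem posPart_nonneg (D : Divisor K F) : 0 ≤ posPart D := le_sup_right

/-- `L(D)` is finite dimensional. -/
instance finite_L (D : Divisor K F) : Module.Finite K (riemannRochSpace D) := by
  have h1 := posPart_nonneg D
  obtain ⟨h2, -⟩ := finite_add_of_nonneg 0 finite_L_zero (Divisor.degree (posPart D)).toNat
    (posPart D) h1 (Int.toNat_of_nonneg (degree_nonneg h1)).symm
  rw [zero_add] at h2
  exact Submodule.finiteDimensional_of_le (L_mono (le_posPart D))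

theorem ell_le_of_le {D E : Divisor K F} (h : D ≤ E) :
    (ell E : ℤ) ≤ ell D + (Divisor.degree E - Divisor.degree D) := by
  have h1 := sub_nonneg.2 h
  obtain ⟨-, h2⟩ := finite_add_of_nonneg D inferInstance (Divisor.degree (E - D)).toNat
    (E - D) h1 (Int.toNat_of_nonneg (degree_nonneg h1)).symm
  rw [add_sub_cancel, Int.toNat_of_nonneg (degree_nonneg h1), map_sub] at h2
  exact h2

theorem ell_mono {D E : Divisor K F} (h : D ≤ E) : ell D ≤ ell E :=
  Submodule.finrank_mono (L_mono h)

theorem ell_le_degree_add_one {D : Divisor K F} (h : 0 ≤ D) :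
    (ell D : ℤ) ≤ Divisor.degree D + 1 := by
  have := ell_le_of_le h
  rw [ell_zero, map_zero] at this
  push_cast at this
  linarith

end L

end Fermat.Agent.RR
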