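import Mathlib.Algebra.Polynomial.Basis
import Mathlib.RingTheory.AlgebraTower
import Fermat.Agent.RR.LSpace

/-!
# The degree of the divisor of poles is the degree of the field extension
-/

set_option autoImplicit false
set_option linter.style.haveILetI false
set_option linter.unusedSectionVars false

namespace Fermat.Agent.RR

open AlgebraicCurve Fermat.Agent.Curve Polynomial IntermediateField

variable {K F : Type*} [Field K] [IsAlgClosed K] [Field F] [Algebra K F]

section

variable [hF : FunField K F]

open Classical in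
/-- The divisor of a nonzero function (zero if `f = 0`). -/
noncomputable def divisor (K : Type*) {F : Type*} [Field K] [IsAlgClosed K] [Field F] [Algebra K F]
    [FunField K F] (f : F) : Divisor K F :=
  if h : f = 0 then 0 else
    Finsupp.onFinset (finite_ord (K := K) h).toFinset (fun v => v.ord f) (fun v hv => by
      rw [Set.Finite.mem_toFinset]; exact hv)

@[simp] theorem divisor_apply (f : F) (v : Place K F) : divisor K f v = v.ord f := by
  rw [divisor]
  split_ifs with h
  · rw [h, v.ord_zero]; rfl
  · rfl

/-- The divisor of poles. -/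
noncomputable def poleDiv (K : Type*) {F : Type*} [Field K] [IsAlgClosed K] [Field F] [Algebra K F]
    [FunField K F] (f : F) : Divisor K F := (-divisor K f) ⊔ 0

/-- The divisor of zeros. -/
noncomputable def zeroDiv (K : Type*) {F : Type*} [Field K] [IsAlgClosed K] [Field F] [Algebra K F]
    [FunField K F] (f : F) : Divisor K F := (divisor K f) ⊔ 0

theorem poleDiv_apply (f : F) (v : Place K F) : poleDiv K f v = max (-v.ord f) 0 := by
  rw [poleDiv, Finsupp.sup_apply, Finsupp.neg_apply, divisor_apply]
  rfl

theorem zeroDiv_apply (f : F) (v : Place K F) : zeroDiv K f v = max (v.ord f) 0 := by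
  rw [zeroDiv, Finsupp.sup_apply, divisor_apply]
  rfl

theorem poleDiv_nonneg (f : F) : 0 ≤ poleDiv K f := le_sup_right

theorem zeroDiv_nonneg (f : F) : 0 ≤ zeroDiv K f := le_sup_right

theorem divisor_eq_sub (f : F) : divisor K f = zeroDiv K f - poleDiv K f := by
  ext v
  rw [Finsupp.sub_apply, zeroDiv_apply, poleDiv_apply, divisor_apply]
  omega

theorem zeroDiv_eq_poleDiv_inv (f : F) : zeroDiv K f = poleDiv K f⁻¹ := by
  ext v
  rw [zeroDiv_apply, poleDiv_apply, v.ord_inv, neg_neg]

theorem degree_zeroDiv_le {f : F} (hf : Transcendental K f) :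
    haveI := fd (K := K) hf
    Divisor.degree (zeroDiv K f) ≤ Module.finrank K⟮f⟯ F := by
  haveI := fd (K := K) hf
  have h1 := sum_ord_le hf (zeroDiv K f).support (by
    intro v hv
    rw [Finsupp.mem_support_iff, zeroDiv_apply] at hv
    omega)
  rw [degree_eq]
  refine le_trans (le_of_eq ?_) h1
  apply Finset.sum_congr rfl
  intro v hv
  rw [Finsupp.mem_support_iff, zeroDiv_apply] at hv
  rw [zeroDiv_apply]
  omega

theorem mem_L_poleDiv (f : F) : f ∈ riemannRochSpace (poleDiv K f) := by
  rw [mem_L]
  intro v
  right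
  rw [poleDiv_apply]
  omega

omit hF in
theorem L_mul_mem {D E : Divisor K F} {f g : F} (hf : f ∈ riemannRochSpace D)
    (hg : g ∈ riemannRochSpace E) : f * g ∈ riemannRochSpace (D + E) := by
  rw [mem_L] at hf hg ⊢
  intro v
  exact ((hf v).mul (hg v)).mono (by rw [Finsupp.add_apply]; omega)

omit hF in
theorem L_pow_mem {D : Divisor K F} {f : F} (hf : f ∈ riemannRochSpace D) (n : ℕ) :
    f ^ n ∈ riemannRochSpace (n • D) := by
  rw [mem_L] at hf ⊢
  intro v
  refine ((hf v).pow n).mono ?_
  rw [Finsupp.smul_apply, nsmul_eq_mul]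
  linarith

/-- Powers of a transcendental element are linearly independent. -/
theorem linearIndependent_pow {A : Type*} [CommRing A] [Algebra K A] {t : A}
    (ht : Transcendental K t) (m : ℕ) :
    LinearIndependent K (fun j : Fin m => t ^ (j : ℕ)) := by
  have h1 : LinearIndependent K (fun n : ℕ => t ^ n) := by
    have h2 := (Polynomial.basisMonomials K).linearIndependent.map' (aeval t : K[X] →ₐ[K] A).toLinearMap
      (by
        rw [LinearMap.ker_eq_bot]
        exact transcendental_iff_injective.1 ht)
    have h3 : (fun n : ℕ => t ^ n) = (aeval t : K[X] →ₐ[K] A).toLinearMap ∘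
        (Polynomial.basisMonomials K) := by
      funext n
      simp
    rw [h3]
    exact h2
  exact h1.comp _ Fin.val_injective

theorem degree_poleDiv_ge {f : F} (hf : Transcendental K f) :
    haveI := fd (K := K) hf
    (Module.finrank K⟮f⟯ F : ℤ) ≤ Divisor.degree (poleDiv K f) := by
  haveI := fd (K := K) hf
  let n := Module.finrank K⟮f⟯ F
  let u := Module.finBasis K⟮f⟯ F
  -- a divisor bounding the poles of the basis
  let C : Divisor K F := ∑ i, poleDiv K (u i)
  have hC : ∀ i, u i ∈ riemannRochSpace C := by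
    intro i
    refine L_mono ?_ (mem_L_poleDiv (u i))
    exact Finset.single_le_sum (f := fun i => poleDiv K (u i)) (fun i _ => poleDiv_nonneg _)
      (Finset.mem_univ i)
  have hC0 : 0 ≤ C := Finset.sum_nonneg fun i _ => poleDiv_nonneg _
  have key : ∀ m : ℕ, (n : ℤ) * m ≤ (m : ℤ) * Divisor.degree (poleDiv K f) +
      (Divisor.degree C + 1) := by
    intro m
    have hgen : Transcendental K (AdjoinSimple.gen K f) := transcendental_gen hf
    have hli := linearIndependent_smul (linearIndependent_pow hgen m) u.linearIndependent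
    have hmem : ∀ p : Fin m × Fin n, (AdjoinSimple.gen K f ^ (p.1 : ℕ)) • u p.2 ∈
        riemannRochSpace (m • poleDiv K f + C) := by
      intro p
      have h1 : (AdjoinSimple.gen K f ^ (p.1 : ℕ)) • u p.2 = f ^ (p.1 : ℕ) * u p.2 := by
        rw [Algebra.smul_def, map_pow]
        rfl
      rw [h1]
      apply L_mul_mem _ (hC _)
      refine L_mono ?_ (L_pow_mem (mem_L_poleDiv f) _)
      exact nsmul_le_nsmul_left (poleDiv_nonneg f) p.1.2.le
    let w : Fin m × Fin n → riemannRochSpace (m • poleDiv K f + C) :=
      fun p => ⟨(AdjoinSimple.gen K f ^ (p.1 : ℕ)) • u p.2, hmem p⟩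
    have hw : LinearIndependent K w := by
      apply LinearIndependent.of_comp (riemannRochSpace (m • poleDiv K f + C)).subtype
      exact hli
    have h2 := hw.fintype_card_le_finrank
    rw [Fintype.card_prod, Fintype.card_fin, Fintype.card_fin] at h2
    have h3 : 0 ≤ m • poleDiv K f + C := add_nonneg (nsmul_nonneg (poleDiv_nonneg f) m) hC0
    have h4 := ell_le_degree_add_one h3
    rw [map_add, map_nsmul, nsmul_eq_mul] at h4
    have h5 : ((m * n : ℕ) : ℤ) ≤ ell (m • poleDiv K f + C) := by exact_mod_cast h2
    push_cast at h5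
    linarith
  by_contra hcon
  push Not at hcon
  have h1 := key (Divisor.degree C + 2).toNat
  have h2 := degree_nonneg hC0
  rw [Int.toNat_of_nonneg (by omega)] at h1
  change Divisor.degree (poleDiv K f) < (n : ℤ) at hcon
  nlinarith

theorem degree_poleDiv_le {f : F} (hf : Transcendental K f) :
    haveI := fd (K := K) hf
    Divisor.degree (poleDiv K f) ≤ Module.finrank K⟮f⟯ F := by
  haveI := fd (K := K) hf
  have hf' := transcendental_inv hf
  haveI := fd (K := K) hf'
  have h1 := degree_zeroDiv_le hf'
  rw [zeroDiv_eq_poleDiv_inv, inv_inv] at h1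
  have h2 : K⟮f⁻¹⟯ = K⟮f⟯ := by
    apply le_antisymm
    · rw [adjoin_simple_le_iff]
      exact inv_mem (mem_adjoin_simple_self K f)
    · rw [adjoin_simple_le_iff]
      have := inv_mem (mem_adjoin_simple_self K f⁻¹)
      rwa [inv_inv] at this
  rwa [h2] at h1

/-- `deg (f)_∞ = [F : K(f)]`. -/
theorem degree_poleDiv {f : F} (hf : Transcendental K f) :
    haveI := fd (K := K) hf
    Divisor.degree (poleDiv K f) = Module.finrank K⟮f⟯ F :=
  le_antisymm (degree_poleDiv_le hf) (degree_poleDiv_ge hf)

/-- `deg (f)_0 = [F : K(f)]`. -/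
theorem degree_zeroDiv {f : F} (hf : Transcendental K f) :
    haveI := fd (K := K) hf
    Divisor.degree (zeroDiv K f) = Module.finrank K⟮f⟯ F := by
  haveI := fd (K := K) hf
  have hf' := transcendental_inv hf
  haveI := fd (K := K) hf'
  have h1 := degree_poleDiv hf'
  rw [← zeroDiv_eq_poleDiv_inv] at h1
  have h2 : K⟮f⁻¹⟯ = K⟮f⟯ := by
    apply le_antisymm
    · rw [adjoin_simple_le_iff]
      exact inv_mem (mem_adjoin_simple_self K f)
    · rw [adjoin_simple_le_iff]
      have := inv_mem (mem_adjoin_simple_self K f⁻¹)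
      rwa [inv_inv] at this
  rwa [h2] at h1

/-- Principal divisors have degree zero. -/
theorem degree_divisor (f : F) : Divisor.degree (divisor K f) = 0 := by
  by_cases halg : IsAlgebraic K f
  · obtain ⟨a, rfl⟩ := mem_range_of_isAlgebraic halg
    have : divisor K (algebraMap K F a) = 0 := by
      ext v
      rw [divisor_apply, ord_algebraMap]
      rfl
    rw [this, map_zero]
  · rw [divisor_eq_sub, map_sub, degree_poleDiv halg, degree_zeroDiv halg, sub_self]

theorem hasPrincipalDivisors' : HasPrincipalDivisors K F := by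
  constructor
  intro f _
  exact ⟨divisor K f, divisor_apply f, degree_divisor f⟩

/-- Multiplication by `f` identifies `L(D)` and `L(D - div f)`. -/
theorem mul_mem_L_iff {f : F} (hf : f ≠ 0) (D : Divisor K F) (g : F) :
    f * g ∈ riemannRochSpace (D - divisor K f) ↔ g ∈ riemannRochSpace D := by
  rw [mem_L, mem_L]
  apply forall_congr'
  intro v
  rw [Finsupp.sub_apply, divisor_apply]
  constructor
  · intro h
    have h1 := (Ge.of_le (v := v) (f := f⁻¹) (n := -v.ord f) (by rw [v.ord_inv])).mul h
    rw [← mul_assoc, inv_mul_cancel₀ hf, one_mul] at h1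
    exact h1.mono (by omega)
  · intro h
    exact ((Ge.of_le (v := v) le_rfl).mul h).mono (by omega)

theorem ell_sub_divisor {f : F} (hf : f ≠ 0) (D : Divisor K F) :
    ell (D - divisor K f) = ell D := by
  symm
  rw [ell, ell]
  refine LinearEquiv.finrank_eq ?_
  refine LinearEquiv.ofBijective
    (((LinearMap.mulLeft K f).comp (riemannRochSpace D).subtype).codRestrict
      (riemannRochSpace (D - divisor K f)) (fun g => (mul_mem_L_iff hf D _).2 g.2)) ⟨?_, ?_⟩
  · intro g g' h
    have h1 := congrArg Subtype.val h
    apply Subtype.ext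
    exact mul_left_cancel₀ hf h1
  · intro g
    refine ⟨⟨f⁻¹ * g, ?_⟩, ?_⟩
    · rw [← mul_mem_L_iff hf, ← mul_assoc, mul_inv_cancel₀ hf, one_mul]
      exact g.2
    · apply Subtype.ext
      change f * (f⁻¹ * (g : F)) = g
      rw [← mul_assoc, mul_inv_cancel₀ hf, one_mul]

/-- `L(D) = 0` if `deg D < 0`. -/
theorem L_eq_bot {D : Divisor K F} (h : Divisor.degree D < 0) :
    riemannRochSpace D = ⊥ := by
  rw [eq_bot_iff]
  intro f hf
  rw [Submodule.mem_bot]
  by_contra hf0
  rw [mem_L] at hf
  have h1 : 0 ≤ D + divisor K f := by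
    intro v
    have := (hf v).le_ord hf0
    rw [Finsupp.add_apply, divisor_apply]
    simp only [Finsupp.coe_zero, Pi.zero_apply]
    omega
  have h2 := degree_nonneg h1
  rw [map_add, degree_divisor] at h2
  omega

theorem ell_eq_zero {D : Divisor K F} (h : Divisor.degree D < 0) : ell D = 0 := by
  rw [ell, L_eq_bot h, finrank_bot]

end

end Fermat.Agent.RR
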