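import Fermat.Agent.RR.TraceP

/-!
# The Hurwitz inequality
-/

set_option autoImplicit false
set_option linter.style.haveILetI false
set_option linter.unusedSectionVars false

namespace Fermat.Agent.RR

open AlgebraicCurve Fermat.Agent.Curve Polynomial IntermediateField

variable {K F : Type*} [Field K] [IsAlgClosed K] [Field F] [Algebra K F]

variable [hF : FunField K F]

/-- Hurwitz inequality, all places of `S` lie over finite values of `t`. -/
theorem hurwitz_finite {t : F} (ht : Transcendental K t) [FiniteDimensional K⟮t⟯ F]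
    [Algebra.IsSeparable K⟮t⟯ F]
    (S : Finset (Place K F)) (e : Place K F → ℤ) (α : Place K F → K)
    (hS : ∀ v ∈ S, v.ord (t - algebraMap K F (α v)) = e v ∧ 0 < e v) :
    ∑ v ∈ S, (e v - 1) ≤ 2 * (rrGenus K F : ℤ) - 2 + 2 * Module.finrank K⟮t⟯ F := by
  classical
  obtain ⟨B⟩ := exists_homogBasis (K := K) ht
  have hsum := B.sum_a ht
  let E : Divisor K F := ∑ v ∈ S, Finsupp.single v (e v - 1)
  have hEdeg : Divisor.degree E = ∑ v ∈ S, (e v - 1) := by
    simp only [E]
    rw [map_sum]
    exact Finset.sum_congr rfl fun v _ => degree_single' v _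
  have hEv : ∀ v, E v = if v ∈ S then e v - 1 else 0 := by
    intro v
    simp only [E]
    rw [Finsupp.finsetSum_apply]
    by_cases hv : v ∈ S
    · rw [if_pos hv, ← Finset.add_sum_erase S _ hv, Finsupp.single_eq_same]
      rw [Finset.sum_eq_zero, add_zero]
      intro w hw
      exact Finsupp.single_eq_of_ne (Finset.ne_of_mem_erase hw).symm
    · rw [if_neg hv]
      apply Finset.sum_eq_zero
      intro w hw
      exact Finsupp.single_eq_of_ne (fun h => hv (h ▸ hw))
  set n := Module.finrank K⟮t⟯ F with hn
  -- take `m = 0`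
  let D : Divisor K F := E
  have hDmem : ∀ (f : F), f ∈ riemannRochSpace D → ∀ i, ∃ P : K[X],
      P ∈ degreeLT K (B.a i + 1) ∧
        aeval (AdjoinSimple.gen K t) P = Algebra.trace K⟮t⟯ F (B.y i * f) := by
    intro f hf i
    rw [mem_L] at hf
    have hSt : ∀ v ∈ S, 0 ≤ v.ord t := by
      intro v hv
      have h1 := hS v hv
      have h3 : Ge v 0 t := by
        have h4 : Ge v 0 ((t - algebraMap K F (α v)) + algebraMap K F (α v)) :=
          (Ge.of_le (by omega)).add (Ge.algebraMap v _)
        rwa [sub_add_cancel] at h4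
      refine h3.le_ord ?_
      rintro rfl
      exact ht isAlgebraic_zero
    have hy := B.mem i
    rw [mem_Lm] at hy
    refine trace_mem_degreeLT ht S e α hS (B.a i) ?_ ?_ ?_
    · intro v hv
      have h1 := hy v
      rw [min_eq_left hv.le] at h1
      have hvS : v ∉ S := fun h => absurd (hSt v h) (not_le.2 hv)
      have h2 := hf v
      rw [hEv, if_neg hvS] at h2
      exact (h1.mul h2).mono (by simp)
    · intro v hv hvS
      have h1 := hy v
      rw [min_eq_right hv, mul_zero] at h1
      have h2 := hf v
      rw [hEv, if_neg hvS] at h2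
      exact (h1.mul h2).mono (by simp)
    · intro v hvS
      have h1 := hy v
      rw [min_eq_right (hSt v hvS), mul_zero] at h1
      have h2 := hf v
      rw [hEv, if_pos hvS] at h2
      exact (h1.mul h2).mono (by omega)
  -- the trace map
  let U : Fin n → Submodule K K⟮t⟯ := fun i =>
    (degreeLT K (B.a i + 1)).map (aeval (AdjoinSimple.gen K t) : K[X] →ₐ[K] K⟮t⟯).toLinearMap
  have hU : ∀ i, Module.finrank K (U i) ≤ B.a i + 1 := by
    intro i
    refine (Submodule.finrank_map_le _ _).trans ?_
    rw [finrank_degreeLT]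
  let τ : Fin n → (F →ₗ[K] K⟮t⟯) := fun i =>
    ((Algebra.trace K⟮t⟯ F).restrictScalars K).comp (LinearMap.mulLeft K (B.y i))
  have hτ : ∀ i (f : riemannRochSpace D), τ i (f : F) ∈ U i := by
    intro i f
    obtain ⟨P, hP, hP2⟩ := hDmem f f.2 i
    exact ⟨P, hP, hP2⟩
  let Φ : riemannRochSpace D →ₗ[K] (∀ i, U i) := LinearMap.pi fun i =>
    ((τ i).comp (riemannRochSpace D).subtype).codRestrict (U i) (hτ i)
  have hΦ : Function.Injective Φ := by
    rw [injective_iff_map_eq_zero]
    intro f hf
    have h1 : ∀ i, Algebra.trace K⟮t⟯ F (B.y i * f) = 0 := by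
      intro i
      have := congrFun hf i
      exact congrArg Subtype.val this
    have hspan : Submodule.span K⟮t⟯ (Set.range B.y) = ⊤ :=
      B.li.span_eq_top_of_card_eq_finrank' (by simp)
    have h2 : ∀ y : F, Algebra.trace K⟮t⟯ F (y * f) = 0 := by
      intro y
      have hy : y ∈ Submodule.span K⟮t⟯ (Set.range B.y) := by rw [hspan]; trivial
      induction hy using Submodule.span_induction with
      | mem y hy =>
        obtain ⟨i, rfl⟩ := hy
        exact h1 i
      | zero => rw [zero_mul, map_zero]
      | add y z _ _ hy hz => rw [add_mul, map_add, hy, hz, add_zero]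
      | smul c y _ hy => rw [smul_mul_assoc, map_smul, hy, smul_zero]
    apply Subtype.ext
    by_contra hne
    have h3 := traceForm_nondegenerate K⟮t⟯ F
    have h4 := h3.1 (f : F) (by
      intro y
      rw [Algebra.traceForm_apply, mul_comm]
      exact h2 y)
    exact hne h4
  haveI : ∀ i, Module.Finite K (U i) := fun i => inferInstance
  have hle := LinearMap.finrank_le_finrank_of_injective hΦ
  rw [Module.finrank_pi_fintype] at hle
  have hle2 : ell D ≤ ∑ i, (B.a i + 1) := hle.trans (Finset.sum_le_sum fun i _ => hU i)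
  have hr := riemann D
  have h3 : ((∑ i, (B.a i + 1) : ℕ) : ℤ) = (∑ i, B.a i : ℕ) + n := by
    rw [Finset.sum_add_distrib]
    simp [hn]
  have h4 : (ell D : ℤ) ≤ ((∑ i, (B.a i + 1) : ℕ) : ℤ) := by exact_mod_cast hle2
  rw [h3, hsum] at h4
  change Divisor.degree E + 1 ≤ _ at hr
  rw [hEdeg] at hr
  linarith

omit [IsAlgClosed K] hF in
theorem adjoin_inv_sub (t : F) (β : K) : K⟮(t - algebraMap K F β)⁻¹⟯ = K⟮t⟯ := by
  apply le_antisymm
  · rw [adjoin_simple_le_iff]
    exact inv_mem (sub_mem (mem_adjoin_simple_self K t) (IntermediateField.algebraMap_mem _ β))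
  · rw [adjoin_simple_le_iff]
    have h1 := inv_mem (mem_adjoin_simple_self K (t - algebraMap K F β)⁻¹)
    rw [inv_inv] at h1
    have h2 := add_mem h1 (IntermediateField.algebraMap_mem _ β)
    rwa [sub_add_cancel] at h2

/-- `e` is the ramification index of the place `v` over `K(t)`. -/
def IsRam (t : F) (v : Place K F) (e : ℤ) : Prop :=
  0 < e ∧ (v.ord t = -e ∨ ∃ a : K, v.ord (t - algebraMap K F a) = e)

omit hF in
theorem ord_sub_eq_of_neg {v : Place K F} {t : F} (hv : v.ord t < 0) (β : K) :
    t - algebraMap K F β ≠ 0 ∧ v.ord (t - algebraMap K F β) = v.ord t := by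
  have ht0 : t ≠ 0 := by
    rintro rfl
    rw [v.ord_zero] at hv
    exact lt_irrefl _ hv
  have h2 : Ge v (v.ord t + 1) (t - (t - algebraMap K F β)) := by
    rw [sub_sub_cancel]
    exact (Ge.algebraMap v β).mono (by omega)
  exact h2.ord_eq ht0

/-- **Hurwitz inequality**, in any characteristic. -/
theorem hurwitz_le {t : F} (ht : Transcendental K t) [FiniteDimensional K⟮t⟯ F]
    [hsep : Algebra.IsSeparable K⟮t⟯ F]
    (S : Finset (Place K F)) (e : Place K F → ℤ) (hS : ∀ v ∈ S, IsRam t v (e v)) :
    -2 * (Module.finrank K⟮t⟯ F : ℤ) + ∑ v ∈ S, (e v - 1) ≤ 2 * (rrGenus K F : ℤ) - 2 := by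
  classical
  have hval : ∀ v : Place K F, ∃ a : K, v ∈ S → (v.ord t = -(e v) ∨
      v.ord (t - algebraMap K F a) = e v) := by
    intro v
    by_cases hv : v ∈ S
    · rcases (hS v hv).2 with h | ⟨a, ha⟩
      · exact ⟨0, fun _ => Or.inl h⟩
      · exact ⟨a, fun _ => Or.inr ha⟩
    · exact ⟨0, fun h => absurd h hv⟩
  choose a ha using hval
  haveI : Infinite K := IsAlgClosed.instInfinite
  obtain ⟨β, hβ⟩ := Infinite.exists_notMem_finset (S.image a)
  have hne : ∀ b : K, t - algebraMap K F b ≠ 0 := by
    intro b h
    apply ht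
    rw [sub_eq_zero.1 h]
    exact isAlgebraic_algebraMap b
  have ht' : Transcendental K (t - algebraMap K F β)⁻¹ := by
    apply transcendental_inv
    intro h
    apply ht
    have := h.add (isAlgebraic_algebraMap β)
    simpa using this
  have hadj := adjoin_inv_sub (K := K) t β
  haveI : FiniteDimensional K⟮(t - algebraMap K F β)⁻¹⟯ F := by rw [hadj]; infer_instance
  haveI : Algebra.IsSeparable K⟮(t - algebraMap K F β)⁻¹⟯ F := by rw [hadj]; exact hsep
  have h1 := hurwitz_finite ht' S e
    (fun v => if v.ord t < 0 then 0 else (a v - β)⁻¹) (by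
      intro v hv
      have hpos := (hS v hv).1
      refine ⟨?_, hpos⟩
      by_cases hneg : v.ord t < 0
      · rw [if_pos hneg, map_zero, sub_zero, v.ord_inv, (ord_sub_eq_of_neg hneg β).2]
        rcases ha v hv with h | h
        · omega
        · have := (ord_sub_eq_of_neg hneg (a v)).2
          omega
      · rw [if_neg hneg]
        have hav : v.ord (t - algebraMap K F (a v)) = e v := by
          rcases ha v hv with h | h
          · omega
          · exact h
        have hab : a v - β ≠ 0 := by
          rw [sub_ne_zero]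
          intro h
          exact hβ (by rw [← h]; exact Finset.mem_image_of_mem a hv)
        have hab' : algebraMap K F (a v - β) ≠ 0 := by rwa [ne_eq, map_eq_zero]
        -- `ord (t - β) = 0`
        have hβ0 : v.ord (t - algebraMap K F β) = 0 := by
          have e1 : t - algebraMap K F β = algebraMap K F (a v - β) +
              (t - algebraMap K F (a v)) := by
            rw [map_sub]; ring
          rw [e1, ord_add_eq_of_lt v hab' (hne _) (by rw [ord_algebraMap, hav]; exact hpos),
            ord_algebraMap]
        have e2 : (t - algebraMap K F β)⁻¹ - algebraMap K F (a v - β)⁻¹ =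
            -((t - algebraMap K F (a v)) * ((t - algebraMap K F β)⁻¹ *
              (algebraMap K F (a v - β))⁻¹)) := by
          rw [map_inv₀]
          have h1 := hne β
          field_simp
          rw [map_sub]
          ring
        rw [e2, ord_neg, v.ord_mul (hne _) (mul_ne_zero (inv_ne_zero (hne _)) (inv_ne_zero hab')),
          v.ord_mul (inv_ne_zero (hne _)) (inv_ne_zero hab'), v.ord_inv, v.ord_inv, hβ0,
          ord_algebraMap, hav]
        ring)
  rw [hadj] at h1
  linarith

end Fermat.Agent.RR
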