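import Fermat.Agent.RR.Degree

/-!
# Riemann's theorem
-/

set_option autoImplicit false
set_option linter.style.haveILetI false
set_option linter.unusedSectionVars false

namespace Fermat.Agent.RR

open AlgebraicCurve Fermat.Agent.Curve Polynomial IntermediateField

variable {K F : Type*} [Field K] [IsAlgClosed K] [Field F] [Algebra K F]

variable [hF : FunField K F]

/-- The spaces `L(m (f)_∞)` grow as fast as possible. -/
theorem exists_bound_poleDiv {f : F} (hf : Transcendental K f) :
    ∃ γ : ℤ, ∀ m : ℕ, (m : ℤ) * Divisor.degree (poleDiv K f) ≤ ell (m • poleDiv K f) + γ := by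
  haveI := fd (K := K) hf
  let n := Module.finrank K⟮f⟯ F
  let u := Module.finBasis K⟮f⟯ F
  let C : Divisor K F := ∑ i, poleDiv K (u i)
  have hC : ∀ i, u i ∈ riemannRochSpace C := by
    intro i
    refine L_mono ?_ (mem_L_poleDiv (u i))
    exact Finset.single_le_sum (f := fun i => poleDiv K (u i)) (fun i _ => poleDiv_nonneg _)
      (Finset.mem_univ i)
  have hC0 : 0 ≤ C := Finset.sum_nonneg fun i _ => poleDiv_nonneg _
  refine ⟨Divisor.degree C, fun m => ?_⟩
  have hgen : Transcendental K (AdjoinSimple.gen K f) := transcendental_gen hf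
  have hli := linearIndependent_smul (linearIndependent_pow hgen m) u.linearIndependent
  have hmem : ∀ p : Fin m × Fin n, (AdjoinSimple.gen K f ^ (p.1 : ℕ)) • u p.2 ∈
      riemannRochSpace (m • poleDiv K f + C) := by
    intro p
    have h1 : (AdjoinSimple.gen K f ^ (p.1 : ℕ)) • u p.2 = f ^ (p.1 : ℕ) * u p.2 := by
      rw [Algebra.smul_def, map_pow]
      rfl
    rw [h1]
    apply L_mul_mem _ (hC _)
    refine L_mono ?_ (L_pow_mem (mem_L_poleDiv f) _)
    exact nsmul_le_nsmul_left (poleDiv_nonneg f) p.1.2.le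
  let w : Fin m × Fin n → riemannRochSpace (m • poleDiv K f + C) :=
    fun p => ⟨(AdjoinSimple.gen K f ^ (p.1 : ℕ)) • u p.2, hmem p⟩
  have hw : LinearIndependent K w := by
    apply LinearIndependent.of_comp (riemannRochSpace (m • poleDiv K f + C)).subtype
    exact hli
  have h2 := hw.fintype_card_le_finrank
  rw [Fintype.card_prod, Fintype.card_fin, Fintype.card_fin] at h2
  have h5 : ((m * n : ℕ) : ℤ) ≤ ell (m • poleDiv K f + C) := by exact_mod_cast h2
  have h6 : m • poleDiv K f ≤ m • poleDiv K f + C := le_add_of_nonneg_right hC0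
  have h7 := ell_le_of_le h6
  rw [map_add] at h7
  rw [degree_poleDiv hf]
  push_cast at h5
  linarith

theorem exists_ne_zero_of_ell_pos {D : Divisor K F} (h : 0 < (ell D : ℤ)) :
    ∃ z : F, z ≠ 0 ∧ z ∈ riemannRochSpace D := by
  have h1 : 0 < Module.finrank K (riemannRochSpace D) := by exact_mod_cast h
  obtain ⟨z, hz⟩ := Module.finrank_pos_iff_exists_ne_zero.1 h1
  exact ⟨z, fun h0 => hz (Subtype.ext h0), z.2⟩

theorem degree_sub_divisor (D : Divisor K F) (z : F) :
    Divisor.degree (D - divisor K z) = Divisor.degree D := by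
  rw [map_sub, degree_divisor, sub_zero]

theorem exists_bound : ∃ γ : ℤ, ∀ D : Divisor K F, Divisor.degree D ≤ ell D + γ := by
  obtain ⟨t, ht, _⟩ := hF.out
  obtain ⟨γ, hγ⟩ := exists_bound_poleDiv ht
  refine ⟨γ, fun D => ?_⟩
  have hn : 1 ≤ Divisor.degree (poleDiv K t) := by
    rw [degree_poleDiv ht]
    haveI := fd (K := K) ht
    have : 0 < Module.finrank K⟮t⟯ F := Module.finrank_pos
    omega
  set D1 := posPart D with hD1
  -- a large multiple
  obtain ⟨m, hm⟩ : ∃ m : ℕ, γ + Divisor.degree D1 < m := by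
    refine ⟨(γ + Divisor.degree D1).toNat + 1, ?_⟩
    push_cast
    have := Int.self_le_toNat (γ + Divisor.degree D1)
    linarith
  have h1 : (ell (m • poleDiv K t) : ℤ) ≤ ell (m • poleDiv K t - D1) + Divisor.degree D1 := by
    have h2 : m • poleDiv K t - D1 ≤ m • poleDiv K t :=
      sub_le_self _ (posPart_nonneg D)
    have h3 := ell_le_of_le h2
    rw [map_sub] at h3
    linarith
  have h2 := hγ m
  have h3 : 0 < (ell (m • poleDiv K t - D1) : ℤ) := by
    have h4 : (m : ℤ) ≤ (m : ℤ) * Divisor.degree (poleDiv K t) := by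
      have : (0 : ℤ) ≤ m := by positivity
      nlinarith
    linarith
  obtain ⟨z, hz0, hz⟩ := exists_ne_zero_of_ell_pos h3
  have h4 : D1 - divisor K z ≤ m • poleDiv K t := by
    intro v
    have h5 := (mem_L.1 hz v).le_ord hz0
    rw [Finsupp.sub_apply] at h5 ⊢
    rw [divisor_apply]
    omega
  have h5 := ell_le_of_le h4
  rw [degree_sub_divisor, ell_sub_divisor hz0] at h5
  have h6 := ell_le_of_le (le_posPart D)
  rw [← hD1] at h6
  have h7 : Divisor.degree (m • poleDiv K t) = m * Divisor.degree (poleDiv K t) := by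
    rw [map_nsmul, nsmul_eq_mul]
  linarith

variable (K F) in
/-- **Riemann's theorem**. -/
theorem exists_genus : ∃ g : ℕ, (∀ D : Divisor K F, Divisor.degree D + 1 ≤ ell D + g) ∧
    ∃ c : ℤ, ∀ D : Divisor K F, c ≤ Divisor.degree D → (ell D : ℤ) = Divisor.degree D + 1 - g := by
  obtain ⟨γ, hγ⟩ := exists_bound (K := K) (F := F)
  obtain ⟨G, ⟨D0, hD0⟩, hG⟩ := Int.exists_greatest_of_bdd
    (P := fun n => ∃ D : Divisor K F, Divisor.degree D - ell D = n)
    ⟨γ, by rintro n ⟨D, rfl⟩; have := hγ D; linarith⟩ ⟨_, 0, rfl⟩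
  have hG0 : -1 ≤ G := by
    have := hG _ ⟨0, rfl⟩
    rw [map_zero, ell_zero] at this
    simpa using this
  obtain ⟨g, hg⟩ := Int.eq_ofNat_of_zero_le (show 0 ≤ G + 1 by linarith)
  have hle : ∀ D : Divisor K F, Divisor.degree D + 1 ≤ ell D + g := by
    intro D
    have := hG _ ⟨D, rfl⟩
    linarith
  refine ⟨g, hle, Divisor.degree D0 + g, fun D hD => ?_⟩
  have h1 := hle (D - D0)
  rw [map_sub] at h1
  obtain ⟨z, hz0, hz⟩ := exists_ne_zero_of_ell_pos (D := D - D0) (by linarith)
  have h4 : D0 ≤ D - divisor K z⁻¹ := by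
    intro v
    have h5 := (mem_L.1 hz v).le_ord hz0
    rw [Finsupp.sub_apply] at h5 ⊢
    rw [divisor_apply, v.ord_inv]
    omega
  have h5 := ell_le_of_le h4
  rw [degree_sub_divisor, ell_sub_divisor (inv_ne_zero hz0)] at h5
  have h6 := hle D
  linarith

/-- The genus of a function field. -/
noncomputable def rrGenus (K F : Type*) [Field K] [IsAlgClosed K] [Field F] [Algebra K F]
    [FunField K F] : ℕ := (exists_genus K F).choose

theorem riemann (D : Divisor K F) : Divisor.degree D + 1 ≤ ell D + rrGenus K F :=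
  (exists_genus K F).choose_spec.1 D

theorem exists_riemann : ∃ c : ℤ, ∀ D : Divisor K F, c ≤ Divisor.degree D →
    (ell D : ℤ) = Divisor.degree D + 1 - rrGenus K F :=
  (exists_genus K F).choose_spec.2

/-- The genus is characterised by the dimensions of `L(D)` for large multiples of a divisor. -/
theorem rrGenus_unique {g : ℤ} (h : ∃ c : ℤ, ∀ D : Divisor K F, c ≤ Divisor.degree D →
    (ell D : ℤ) = Divisor.degree D + 1 - g) : g = rrGenus K F := by
  obtain ⟨c, hc⟩ := h
  obtain ⟨c', hc'⟩ := exists_riemann (K := K) (F := F)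
  obtain ⟨t, ht, _⟩ := hF.out
  obtain ⟨v, hv⟩ := exists_pole ht
  have hdeg : Divisor.degree (Finsupp.single v (max c c') : Divisor K F) = max c c' :=
    degree_single' v _
  have h1 := hc (Finsupp.single v (max c c')) (by rw [hdeg]; exact le_max_left _ _)
  have h2 := hc' (Finsupp.single v (max c c')) (by rw [hdeg]; exact le_max_right _ _)
  linarith

/-- The genus from one sequence of divisors. -/
theorem rrGenus_unique' {g : ℤ} {D : Divisor K F} (hD : 0 < Divisor.degree D)
    (h : ∃ m₀ : ℕ, ∀ m : ℕ, m₀ ≤ m →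
      (ell (m • D) : ℤ) = m * Divisor.degree D + 1 - g) : g = rrGenus K F := by
  obtain ⟨m₀, hm₀⟩ := h
  obtain ⟨c', hc'⟩ := exists_riemann (K := K) (F := F)
  let m := m₀ + c'.toNat
  have h1 := hm₀ m (by omega)
  have h3 : Divisor.degree (m • D) = m * Divisor.degree D := by
    rw [map_nsmul, nsmul_eq_mul]
  have h2 := hc' (m • D) (by
    rw [h3]
    have h4 := Int.self_le_toNat c'
    have h5 : c' ≤ (m : ℤ) := by
      simp only [m]; push_cast; linarith
    have h6 : (0 : ℤ) ≤ m := by positivity
    nlinarith)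
  rw [h3] at h2
  linarith

/-- A function field of genus zero is rational. -/
theorem exists_generator_of_genus_zero (h : rrGenus K F = 0) (v : Place K F) :
    ∃ x : F, Transcendental K x ∧ poleDiv K x = Finsupp.single v 1 ∧ K⟮x⟯ = ⊤ := by
  have h1 := riemann (Finsupp.single v 1 : Divisor K F)
  rw [degree_single', h] at h1
  -- a nonconstant element of `L(v)`
  obtain ⟨x, hx, hx0⟩ : ∃ x ∈ riemannRochSpace (Finsupp.single v 1 : Divisor K F),
      x ∉ riemannRochSpace (0 : Divisor K F) := by
    by_contra hcon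
    push Not at hcon
    have h2 : ell (Finsupp.single v 1 : Divisor K F) ≤ ell (0 : Divisor K F) :=
      Submodule.finrank_mono hcon
    rw [ell_zero] at h2
    omega
  have hxt : Transcendental K x := by
    intro halg
    obtain ⟨a, rfl⟩ := mem_range_of_isAlgebraic halg
    apply hx0
    rw [mem_L]
    intro w
    right
    rw [ord_algebraMap]
    simp
  have hxne : x ≠ 0 := by
    rintro rfl
    exact hx0 (zero_mem _)
  rw [mem_L] at hx
  have hle : poleDiv K x ≤ Finsupp.single v 1 := by
    intro w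
    have := (hx w).le_ord hxne
    rw [poleDiv_apply]
    have h3 : 0 ≤ (Finsupp.single v 1 : Divisor K F) w := by
      by_cases hw : w = v
      · rw [hw, Finsupp.single_eq_same]; norm_num
      · rw [Finsupp.single_eq_of_ne hw]
    omega
  have hdeg := degree_poleDiv hxt
  haveI := fd (K := K) hxt
  have hpos : 0 < Module.finrank K⟮x⟯ F := Module.finrank_pos
  have heq : poleDiv K x = Finsupp.single v 1 := by
    have h4 : Divisor.degree (Finsupp.single v 1 - poleDiv K x) = 0 := by
      have h5 := degree_nonneg (sub_nonneg.2 hle)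
      rw [map_sub, degree_single'] at h5 ⊢
      omega
    have h5 := (sub_nonneg.2 hle)
    ext w
    rw [degree_eq] at h4
    have h6 : (Finsupp.single v 1 - poleDiv K x : Divisor K F) w = 0 := by
      by_cases hw : w ∈ (Finsupp.single v 1 - poleDiv K x : Divisor K F).support
      · exact (Finset.sum_eq_zero_iff_of_nonneg (fun w _ => h5 w)).1 h4 w hw
      · rwa [Finsupp.notMem_support_iff] at hw
    rw [Finsupp.sub_apply] at h6
    omega
  refine ⟨x, hxt, heq, ?_⟩
  rw [heq, degree_single'] at hdeg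
  rw [← IntermediateField.finrank_eq_one_iff_eq_top]
  exact_mod_cast hdeg.symm

end Fermat.Agent.RR
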