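import Fermat.Agent.Curve.Residue

/-!
# Weak approximation for places
-/

set_option autoImplicit false
set_option linter.style.haveILetI false
set_option linter.unusedSectionVars false

namespace Fermat.Agent.RR

open AlgebraicCurve Fermat.Agent.Curve

variable {K F : Type*} [Field K] [Field F] [Algebra K F]

/-- `f` vanishes to order at least `n` at `v`. -/
def Ge (v : Place K F) (n : ℤ) (f : F) : Prop := f = 0 ∨ n ≤ v.ord f

namespace Ge

variable {v : Place K F} {n m : ℤ} {f g : F}

theorem zero (v : Place K F) (n : ℤ) : Ge v n 0 := Or.inl rfl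

theorem of_le (h : n ≤ v.ord f) : Ge v n f := Or.inr h

theorem mono (h : Ge v n f) (hmn : m ≤ n) : Ge v m f := h.imp id (fun h => hmn.trans h)

theorem add (hf : Ge v n f) (hg : Ge v n g) : Ge v n (f + g) := by
  rcases hf with rfl | hf
  · rwa [zero_add]
  rcases hg with rfl | hg
  · rw [add_zero]; exact Or.inr hf
  by_cases hfg : f + g = 0
  · exact Or.inl hfg
  by_cases hf0 : f = 0
  · rw [hf0, zero_add]; exact Or.inr hg
  by_cases hg0 : g = 0
  · rw [hg0, add_zero]; exact Or.inr hf
  exact Or.inr (le_ord_add v hfg hf hg hf0 hg0)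

theorem neg (hf : Ge v n f) : Ge v n (-f) := by
  rcases hf with rfl | hf
  · rw [neg_zero]; exact zero v n
  · exact Or.inr (by rwa [ord_neg])

theorem sub (hf : Ge v n f) (hg : Ge v n g) : Ge v n (f - g) := by
  rw [sub_eq_add_neg]
  exact hf.add hg.neg

theorem mul (hf : Ge v n f) (hg : Ge v m g) : Ge v (n + m) (f * g) := by
  rcases hf with rfl | hf
  · rw [zero_mul]; exact zero v _
  rcases hg with rfl | hg
  · rw [mul_zero]; exact zero v _
  by_cases hf0 : f = 0
  · rw [hf0, zero_mul]; exact zero v _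
  by_cases hg0 : g = 0
  · rw [hg0, mul_zero]; exact zero v _
  · right
    rw [v.ord_mul hf0 hg0]
    omega

theorem algebraMap (v : Place K F) (a : K) : Ge v 0 (algebraMap K F a) :=
  Or.inr (ord_algebraMap v a).ge

theorem one (v : Place K F) : Ge v 0 (1 : F) := Or.inr (by simp)

theorem sum {ι : Type*} (s : Finset ι) {f : ι → F} (h : ∀ i ∈ s, Ge v n (f i)) :
    Ge v n (∑ i ∈ s, f i) := by
  classical
  induction s using Finset.induction_on with
  | empty => rw [Finset.sum_empty]; exact zero v n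
  | insert i s hi ih =>
    rw [Finset.sum_insert hi]
    exact (h i (Finset.mem_insert_self i s)).add
      (ih fun j hj => h j (Finset.mem_insert_of_mem hj))

theorem pow (hf : Ge v n f) (k : ℕ) : Ge v (k * n) (f ^ k) := by
  induction k with
  | zero => rw [pow_zero]; exact (one v).mono (by simp)
  | succ k ih =>
    rw [pow_succ]
    exact (ih.mul hf).mono (by push_cast; linarith)

theorem smul (a : K) (hf : Ge v n f) : Ge v n (a • f) := by
  rw [Algebra.smul_def]
  exact ((Ge.algebraMap v a).mul hf).mono (by simp)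

theorem mem (hf : Ge v 0 f) : f ∈ v.toValuationSubring := by
  rcases hf with rfl | hf
  · exact zero_mem _
  · exact mem_of_ord_nonneg v hf

theorem of_mem (hf : f ∈ v.toValuationSubring) : Ge v 0 f := Or.inr (ord_nonneg_of_mem v hf)

theorem le_ord (hf : Ge v n f) (h0 : f ≠ 0) : n ≤ v.ord f := hf.resolve_left h0

/-- If `f - g` has larger order than `f` then `ord f = ord g`. -/
theorem ord_eq (h : Ge v (v.ord f + 1) (f - g)) (hf : f ≠ 0) : g ≠ 0 ∧ v.ord g = v.ord f := by
  have hg : g ≠ 0 := by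
    rintro rfl
    rw [sub_zero] at h
    have := h.le_ord hf
    omega
  refine ⟨hg, ?_⟩
  rcases h with h | h
  · rw [sub_eq_zero.1 h]
  · by_cases h0 : f - g = 0
    · rw [sub_eq_zero.1 h0]
    have e : g = f + -(f - g) := by ring
    have h2 := ord_add_eq_of_lt v hf (neg_ne_zero.2 h0) (by rw [ord_neg]; omega)
    rw [← e] at h2
    exact h2

end Ge

/-- Two distinct places are independent. -/
theorem exists_pos_neg_pair {v w : Place K F} (h : v ≠ w) :
    ∃ u : F, u ≠ 0 ∧ 0 < v.ord u ∧ w.ord u < 0 := by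
  obtain ⟨y1, hy1, hy1'⟩ : ∃ y ∈ v.toValuationSubring, y ∉ w.toValuationSubring := by
    by_contra hcon
    push Not at hcon
    exact h (place_eq_of_le fun x hx => hcon x hx)
  obtain ⟨y2, hy2, hy2'⟩ : ∃ y ∈ w.toValuationSubring, y ∉ v.toValuationSubring := by
    by_contra hcon
    push Not at hcon
    exact h (place_eq_of_le fun x hx => hcon x hx).symm
  have h1 : y1 ≠ 0 := fun h0 => hy1' (h0 ▸ zero_mem _)
  have h2 : y2 ≠ 0 := fun h0 => hy2' (h0 ▸ zero_mem _)
  have a1 := ord_nonneg_of_mem v hy1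
  have a2 := ord_nonneg_of_mem w hy2
  have b1 : w.ord y1 < 0 := by
    by_contra hcon
    exact hy1' (mem_of_ord_nonneg w (not_lt.1 hcon))
  have b2 : v.ord y2 < 0 := by
    by_contra hcon
    exact hy2' (mem_of_ord_nonneg v (not_lt.1 hcon))
  refine ⟨y1 / y2, div_ne_zero h1 h2, ?_, ?_⟩
  · rw [ord_div v h1 h2]; omega
  · rw [ord_div w h1 h2]; omega

theorem exists_pos_neg (v : Place K F) (S : Finset (Place K F)) (hv : v ∉ S) :
    ∃ u : F, u ≠ 0 ∧ 0 < v.ord u ∧ ∀ w ∈ S, w.ord u < 0 := by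
  classical
  induction S using Finset.induction_on with
  | empty =>
    obtain ⟨u, hu0, hu⟩ := exists_ord_eq v 1
    exact ⟨u, hu0, by omega, by simp⟩
  | insert w S hw ih =>
    rw [Finset.mem_insert, not_or] at hv
    obtain ⟨y, hy0, hyv, hyS⟩ := ih hv.2
    obtain ⟨z, hz0, hzv, hzw⟩ := exists_pos_neg_pair hv.1
    by_cases hwy : w.ord y < 0
    · refine ⟨y, hy0, hyv, ?_⟩
      intro x hx
      rcases Finset.mem_insert.1 hx with rfl | hx
      · exact hwy
      · exact hyS x hx
    push Not at hwy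
    -- choose `r` large
    obtain ⟨r, hr1, hr⟩ : ∃ r : ℕ, 1 ≤ r ∧ ∀ x ∈ insert v (insert w S), x.ord z ≠ 0 →
        (r : ℤ) * x.ord z ≠ x.ord y := by
      let B : ℕ := ∑ x ∈ insert v (insert w S), (x.ord y).natAbs
      refine ⟨B + 1, by omega, ?_⟩
      intro x hx h0 heq
      have h1 : (x.ord y).natAbs ≤ B := Finset.single_le_sum (f := fun x : Place K F =>
        (x.ord y).natAbs) (fun _ _ => Nat.zero_le _) hx
      have h2 := congrArg Int.natAbs heq
      rw [Int.natAbs_mul, Int.natAbs_natCast] at h2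
      have h3 : 1 ≤ (x.ord z).natAbs := by omega
      nlinarith
    have hzr : z ^ r ≠ 0 := pow_ne_zero _ hz0
    -- the sum `y + z^r`
    have key : ∀ x : Place K F, x.ord y ≠ x.ord (z ^ r) →
        y + z ^ r ≠ 0 ∧ x.ord (y + z ^ r) = min (x.ord y) (x.ord (z ^ r)) := by
      intro x hx
      have hne : y + z ^ r ≠ 0 := by
        intro h0
        apply hx
        rw [eq_neg_of_add_eq_zero_left h0, ord_neg]
      refine ⟨hne, ?_⟩
      rcases lt_or_gt_of_ne hx with h | h
      · rw [ord_add_eq_of_lt x hy0 hzr h, min_eq_left h.le]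
      · rw [add_comm, ord_add_eq_of_lt x hzr hy0 h, min_eq_right h.le]
    have hrZ : (1 : ℤ) ≤ r := by exact_mod_cast hr1
    have hv1 := key v (by
      rw [ord_pow]
      exact (hr v (Finset.mem_insert_self _ _) hzv.ne').symm)
    refine ⟨y + z ^ r, hv1.1, ?_, ?_⟩
    · rw [hv1.2, ord_pow]
      exact lt_min hyv (by nlinarith)
    · intro x hx
      rcases Finset.mem_insert.1 hx with rfl | hxS
      · have h1 : x.ord (z ^ r) < 0 := by
          rw [ord_pow]; nlinarith
        rw [(key x (by omega)).2]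
        exact (min_le_right _ _).trans_lt h1
      · have h1 := hyS x hxS
        have h2 : x.ord y ≠ x.ord (z ^ r) := by
          rw [ord_pow]
          by_cases h0 : x.ord z = 0
          · rw [h0, mul_zero]; omega
          · exact (hr x (Finset.mem_insert_of_mem (Finset.mem_insert_of_mem hxS)) h0).symm
        rw [(key x h2).2]
        exact (min_le_left _ _).trans_lt h1

/-- An element close to `1` at `v` and close to `0` at the places of `S`. -/
theorem exists_one_zero (v : Place K F) (S : Finset (Place K F)) (hv : v ∉ S) (n : ℤ) :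
    ∃ x : F, Ge v n (x - 1) ∧ ∀ w ∈ S, Ge w n x := by
  obtain ⟨u, hu0, huv, huS⟩ := exists_pos_neg v S hv
  let s : ℕ := n.natAbs + 1
  have hs : n ≤ (s : ℤ) := by
    have := Int.le_natAbs (a := n)
    simp only [s]; omega
  have hs1 : (1 : ℤ) ≤ s := by
    simp only [s]; omega
  have hus : u ^ s ≠ 0 := pow_ne_zero _ hu0
  have hne : 1 + u ^ s ≠ 0 := by
    intro h0
    have h1 : u ^ s = -1 := eq_neg_of_add_eq_zero_right h0
    have h2 := congrArg v.ord h1
    rw [ord_neg, v.ord_one, ord_pow] at h2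
    nlinarith
  have hv1 : v.ord (1 + u ^ s) = 0 := by
    rw [ord_add_eq_of_lt v one_ne_zero hus (by rw [v.ord_one, ord_pow]; nlinarith), v.ord_one]
  refine ⟨(1 + u ^ s)⁻¹, ?_, ?_⟩
  · have e : (1 + u ^ s)⁻¹ - 1 = -(u ^ s / (1 + u ^ s)) := by
      field_simp
      ring
    rw [e]
    apply Ge.neg
    right
    rw [ord_div v hus hne, hv1, ord_pow]
    nlinarith
  · intro w hw
    right
    have h1 := huS w hw
    rw [w.ord_inv, add_comm, ord_add_eq_of_lt w hus one_ne_zero (by
      rw [w.ord_one, ord_pow]; nlinarith), ord_pow]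
    nlinarith

/-- **Weak approximation**. -/
theorem exists_approx (S : Finset (Place K F)) (y : Place K F → F) (n : ℤ) :
    ∃ x : F, ∀ v ∈ S, Ge v n (x - y v) := by
  classical
  -- a lower bound for the orders of the `y v`
  obtain ⟨s, hs⟩ : ∃ s : ℤ, ∀ v ∈ S, ∀ w ∈ S, s ≤ v.ord (y w) := by
    refine ⟨-∑ v ∈ S, ∑ w ∈ S, |v.ord (y w)|, ?_⟩
    intro v hv w hw
    have h1 : |v.ord (y w)| ≤ ∑ v ∈ S, ∑ w ∈ S, |v.ord (y w)| := by
      refine le_trans ?_ (Finset.single_le_sum (f := fun v : Place K F => ∑ w ∈ S, |v.ord (y w)|)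
        (fun _ _ => Finset.sum_nonneg fun _ _ => abs_nonneg _) hv)
      exact Finset.single_le_sum (f := fun w => |v.ord (y w)|) (fun _ _ => abs_nonneg _) hw
    have := neg_abs_le (v.ord (y w))
    linarith
  have hw : ∀ v : Place K F, ∃ x : F, v ∈ S → (Ge v (n - s) (x - 1) ∧
      ∀ w ∈ S.erase v, Ge w (n - s) x) := by
    intro v
    obtain ⟨x, h1, h2⟩ := exists_one_zero v (S.erase v) (Finset.notMem_erase v S) (n - s)
    exact ⟨x, fun _ => ⟨h1, h2⟩⟩
  choose w hw using hw
  refine ⟨∑ v ∈ S, y v * w v, ?_⟩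
  intro v hv
  have e : ∑ u ∈ S, y u * w u - y v = y v * (w v - 1) + ∑ u ∈ S.erase v, y u * w u := by
    rw [← Finset.add_sum_erase S _ hv]
    ring
  rw [e]
  apply Ge.add
  · have h1 : Ge v s (y v) := Or.inr (hs v hv v hv)
    exact (h1.mul (hw v hv).1).mono (by linarith)
  · apply Ge.sum
    intro u hu
    have hu' := Finset.mem_of_mem_erase hu
    have h1 : Ge v s (y u) := Or.inr (hs v hv u hu')
    have h2 : Ge v (n - s) (w u) := (hw u hu').2 v (Finset.mem_erase.2
      ⟨(Finset.ne_of_mem_erase hu).symm, hv⟩)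
    exact (h1.mul h2).mono (by linarith)

/-- Weak approximation with prescribed orders. -/
theorem exists_ord_eq_of_finset (S : Finset (Place K F)) (n : Place K F → ℤ) (v : Place K F)
    (hv : v ∈ S) : ∃ x : F, x ≠ 0 ∧ v.ord x = n v ∧ ∀ w ∈ S, w ≠ v → Ge w (n w) x := by
  classical
  obtain ⟨π, hπ0, hπ⟩ := exists_ord_eq v (n v)
  obtain ⟨m, hm⟩ : ∃ m : ℤ, ∀ w ∈ S, n w + 1 ≤ m := by
    refine ⟨∑ w ∈ S, |n w| + 1, ?_⟩
    intro w hw
    have h1 : |n w| ≤ ∑ w ∈ S, |n w| := Finset.single_le_sum (f := fun w => |n w|)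
      (fun _ _ => abs_nonneg _) hw
    have := le_abs_self (n w)
    linarith
  obtain ⟨x, hx⟩ := exists_approx S (fun w => if w = v then π else 0) m
  have h1 := hx v hv
  rw [if_pos rfl] at h1
  have h2 : Ge v (v.ord π + 1) (π - x) := by
    have := h1.neg.mono (m := v.ord π + 1) (by rw [hπ]; exact hm v hv)
    rwa [neg_sub] at this
  obtain ⟨h3, h4⟩ := h2.ord_eq hπ0
  refine ⟨x, h3, h4.trans hπ, ?_⟩
  intro w hw hwv
  have h5 := hx w hw
  rw [if_neg hwv, sub_zero] at h5
  have := hm w hw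
  exact h5.mono (by linarith)

end Fermat.Agent.RR
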