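import Fermat.Agent.RR.ModularGenus
import Fermat.Agent.FF.Along
import Fermat.Prelude.Def_ModularCurve_HeckeOperatorTotal

/-!
# The Hecke correspondences act on `Pic⁰` of the modular function fields
-/

set_option autoImplicit false
set_option linter.style.haveILetI false
set_option linter.unusedSectionVars false

namespace Fermat.Agent.RR

open AlgebraicCurve Fermat.Agent.Curve Polynomial IntermediateField ModularCurve
open Fermat.Agent.X0Genus

variable {K : Type*} [Field K] [IsAlgClosed K] [CharZero K] [Algebra ℚ K]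

/-- A finite map of function fields is finite "along". -/
theorem finiteAlong_of {F F' : Type*} [Field F] [Field F'] [Algebra K F] [Algebra K F']
    [FunField K F'] (φ : F →ₐ[K] F') {t : F} (ht : Transcendental K t) : FiniteAlong K φ := by
  have h1 : Transcendental K (φ t) := by
    intro h
    exact ht ((isAlgebraic_algHom_iff φ φ.toRingHom.injective).1 h)
  haveI := fd (K := K) h1
  exact Fermat.Agent.FF.finiteAlong φ t

theorem isIntegral_of_finiteAlong {F F' : Type*} [Field F] [Field F'] [Algebra K F] [Algebra K F']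
    (φ : F →ₐ[K] F') (h : FiniteAlong K φ) : φ.toRingHom.IsIntegral := by
  letI := algebraAlong φ
  haveI : Module.Finite F F' := h
  have h2 : Algebra.IsIntegral F F' := inferInstance
  intro x
  exact h2.isIntegral x

variable (K) (N : ℕ) [NeZero N]

instance hasPrincipalDivisors_modular :
    HasPrincipalDivisors K (laurentBaseChange K (modularFunctionFieldFull N)) :=
  hasPrincipalDivisors'

section

variable (ℓ : ℕ) [NeZero ℓ]

theorem finiteAlong_heckeAlphaBar : FiniteAlong K (heckeAlphaBar K N ℓ) :=
  finiteAlong_of (heckeAlphaBar K N ℓ) (transcendental_jj (K := K) N)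

theorem finiteAlong_heckeBetaBar : FiniteAlong K (heckeBetaBar K N ℓ) :=
  finiteAlong_of (heckeBetaBar K N ℓ) (transcendental_jj (K := K) N)

theorem heckeAlphaBarIntegral : HeckeAlphaBarIntegral K N ℓ :=
  isIntegral_of_finiteAlong _ (finiteAlong_heckeAlphaBar K N ℓ)

theorem heckeBetaBarIntegral : HeckeBetaBarIntegral K N ℓ :=
  isIntegral_of_finiteAlong _ (finiteAlong_heckeBetaBar K N ℓ)

theorem fundamentalIdentityAlong_beta :
    FundamentalIdentityAlong K (heckeBetaBar K N ℓ) (heckeBetaBarIntegral K N ℓ) :=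
  Fermat.Agent.FF.fundamentalIdentityAlong _ _ (finiteAlong_heckeBetaBar K N ℓ) (jj K N)

theorem fundamentalIdentityAlong_alpha :
    FundamentalIdentityAlong K (heckeAlphaBar K N ℓ) (heckeAlphaBarIntegral K N ℓ) :=
  Fermat.Agent.FF.fundamentalIdentityAlong _ _ (finiteAlong_heckeAlphaBar K N ℓ) (jj K N)

theorem normFormulaAlong_alpha :
    NormFormulaAlong K (heckeAlphaBar K N ℓ) (finiteAlong_heckeAlphaBar K N ℓ) :=
  Fermat.Agent.FF.normFormulaAlong _ _ (jj K N)

theorem normFormulaAlong_beta :
    NormFormulaAlong K (heckeBetaBar K N ℓ) (finiteAlong_heckeBetaBar K N ℓ) :=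
  Fermat.Agent.FF.normFormulaAlong _ _ (jj K N)

theorem heckeInputsAlong : HeckeInputsAlong K N ℓ :=
  heckeInputsAlong_intro (heckeAlphaBarIntegral K N ℓ) (heckeBetaBarIntegral K N ℓ)
    (fundamentalIdentityAlong_beta K N ℓ) (finiteAlong_heckeAlphaBar K N ℓ)
    (normFormulaAlong_alpha K N ℓ)

theorem heckeOperatorAlong_eq' : heckeOperatorAlong K N ℓ =
    heckePic0Bar (heckeAlphaBarIntegral K N ℓ) (heckeBetaBarIntegral K N ℓ)
      (fundamentalIdentityAlong_beta K N ℓ) (finiteAlong_heckeAlphaBar K N ℓ)
      (normFormulaAlong_alpha K N ℓ) :=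
  heckeOperatorAlong_eq _ _ _ _ _

end

end Fermat.Agent.RR
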