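import Mathlib.RingTheory.Polynomial.DegreeLT
import Fermat.Agent.RR.Riemann

/-!
# Homogeneous bases of a function field over `K(t)`
-/

set_option autoImplicit false
set_option linter.style.haveILetI false
set_option linter.unusedSectionVars false

namespace Fermat.Agent.RR

open AlgebraicCurve Fermat.Agent.Curve Polynomial IntermediateField

variable {K F : Type*} [Field K] [IsAlgClosed K] [Field F] [Algebra K F]

variable [hF : FunField K F]

/-- `L(m (t)_∞)`. -/
noncomputable def Lm (K : Type*) {F : Type*} [Field K] [IsAlgClosed K] [Field F] [Algebra K F]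
    [FunField K F] (t : F) (m : ℤ) : Submodule K F := riemannRochSpace (m • poleDiv K t)

/-- Elements without poles at the places where `t` is regular. -/
def RegFin (K : Type*) {F : Type*} [Field K] [Field F] [Algebra K F] (t f : F) : Prop :=
  ∀ v : Place K F, 0 ≤ v.ord t → Ge v 0 f

theorem mem_Lm {t f : F} {m : ℤ} : f ∈ Lm K t m ↔
    ∀ v : Place K F, Ge v (m * min (v.ord t) 0) f := by
  rw [Lm, mem_L]
  apply forall_congr'
  intro v
  have e : -(m • poleDiv K t) v = m * min (v.ord t) 0 := by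
    rw [Finsupp.smul_apply, poleDiv_apply, smul_eq_mul]
    rcases le_total (v.ord t) 0 with h | h
    · rw [min_eq_left h, max_eq_left (by omega)]; ring
    · rw [min_eq_right h, max_eq_right (by omega)]; ring
  rw [e]

theorem Lm_mono (t : F) {m m' : ℤ} (h : m ≤ m') : Lm K t m ≤ Lm K t m' := by
  intro f hf
  rw [mem_Lm] at hf ⊢
  intro v
  refine (hf v).mono ?_
  have : min (v.ord t) 0 ≤ 0 := min_le_right _ _
  nlinarith

theorem Lm_regFin {t f : F} {m : ℤ} (h : f ∈ Lm K t m) : RegFin K t f := by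
  intro v hv
  rw [mem_Lm] at h
  refine (h v).mono ?_
  rw [min_eq_right hv, mul_zero]

theorem mul_mem_Lm {t f g : F} {m m' : ℤ} (hf : f ∈ Lm K t m) (hg : g ∈ Lm K t m') :
    f * g ∈ Lm K t (m + m') := by
  rw [mem_Lm] at hf hg ⊢
  intro v
  exact ((hf v).mul (hg v)).mono (by linarith)

theorem self_mem_Lm (t : F) : t ∈ Lm K t 1 := by
  rw [mem_Lm]
  intro v
  right
  rw [one_mul]
  exact min_le_left _ _

theorem one_mem_Lm (t : F) {m : ℤ} (hm : 0 ≤ m) : (1 : F) ∈ Lm K t m := by
  rw [mem_Lm]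
  intro v
  refine (Ge.one v).mono ?_
  have : min (v.ord t) 0 ≤ 0 := min_le_right _ _
  nlinarith

theorem pow_mem_Lm (t : F) (j : ℕ) : t ^ j ∈ Lm K t j := by
  induction j with
  | zero => rw [pow_zero]; exact one_mem_Lm t le_rfl
  | succ j ih =>
    rw [pow_succ]
    have := mul_mem_Lm ih (self_mem_Lm t)
    push_cast
    exact this

theorem aeval_mem_Lm (t : F) (p : K[X]) {m : ℤ} (hp : ∀ j : ℕ, p.coeff j ≠ 0 → (j : ℤ) ≤ m) :
    aeval t p ∈ Lm K t m := by
  rw [aeval_eq_sum_range]
  refine Submodule.sum_mem _ fun j _ => ?_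
  by_cases hj : p.coeff j = 0
  · rw [hj, zero_smul]; exact zero_mem _
  · exact Submodule.smul_mem _ _ (Lm_mono t (hp j hj) (pow_mem_Lm t j))

theorem regFin_sub {t f g : F} (hf : RegFin K t f) (hg : RegFin K t g) : RegFin K t (f - g) :=
  fun v hv => (hf v hv).sub (hg v hv)

theorem regFin_mul {t f g : F} (hf : RegFin K t f) (hg : RegFin K t g) : RegFin K t (f * g) :=
  fun v hv => ((hf v hv).mul (hg v hv)).mono (by simp)

theorem regFin_aeval (t : F) (p : K[X]) : RegFin K t (aeval t p) :=
  Lm_regFin (aeval_mem_Lm t p (m := p.natDegree) (fun j hj => by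
    exact_mod_cast le_natDegree_of_ne_zero hj))

theorem regFin_sum {t : F} {ι : Type*} (s : Finset ι) {f : ι → F} (h : ∀ i ∈ s, RegFin K t (f i)) :
    RegFin K t (∑ i ∈ s, f i) :=
  fun v hv => Ge.sum s fun i hi => h i hi v hv

/-- Division by `t - α`. -/
theorem mem_Lm_of_sub_mul {t : F} {α : K} {f : F} {m : ℤ} (hf : RegFin K t f)
    (h : (t - algebraMap K F α) * f ∈ Lm K t (m + 1)) : f ∈ Lm K t m := by
  rw [mem_Lm] at h ⊢
  intro v
  rcases le_or_gt 0 (v.ord t) with hv | hv
  · rw [min_eq_right hv, mul_zero]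
    exact hf v hv
  · have h1 := h v
    rw [min_eq_left hv.le] at h1 ⊢
    have ht0 : t ≠ 0 := by
      rintro rfl
      rw [v.ord_zero] at hv
      exact lt_irrefl _ hv
    have hne : t - algebraMap K F α ≠ 0 ∧ v.ord (t - algebraMap K F α) = v.ord t := by
      have h2 : Ge v (v.ord t + 1) (t - (t - algebraMap K F α)) := by
        rw [sub_sub_cancel]
        exact (Ge.algebraMap v α).mono (by omega)
      exact h2.ord_eq ht0
    have h3 := (Ge.of_le (v := v) (f := (t - algebraMap K F α)⁻¹) (n := -v.ord t)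
      (by rw [v.ord_inv, hne.2])).mul h1
    rw [← mul_assoc, inv_mul_cancel₀ hne.1, one_mul] at h3
    exact h3.mono (by linarith)

theorem mem_Lm_of_pow_mul {t : F} {f : F} (hf : RegFin K t f) :
    ∀ (j : ℕ) {m : ℤ}, t ^ j * f ∈ Lm K t (m + j) → f ∈ Lm K t m := by
  intro j
  induction j with
  | zero =>
    intro m h
    simpa using h
  | succ j ih =>
    intro m h
    apply ih
    apply mem_Lm_of_sub_mul (α := 0)
    · refine regFin_mul ?_ hf
      have := regFin_aeval (K := K) t (X ^ j)
      simpa using this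
    · rw [map_zero, sub_zero, ← mul_assoc, ← pow_succ']
      push_cast at h
      rwa [← add_assoc] at h

theorem Lm_neg {t : F} (ht : Transcendental K t) {m : ℤ} (hm : m < 0) : Lm K t m = ⊥ := by
  apply L_eq_bot
  rw [map_zsmul, degree_poleDiv ht, smul_eq_mul]
  haveI := fd (K := K) ht
  have : 0 < Module.finrank K⟮t⟯ F := Module.finrank_pos
  have h1 : (0 : ℤ) < Module.finrank K⟮t⟯ F := by exact_mod_cast this
  nlinarith

/-- Elements regular at finite places lie in some `L(m (t)_∞)`. -/
theorem exists_mem_Lm {t f : F} (hf : RegFin K t f) : ∃ m : ℕ, f ∈ Lm K t m := by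
  classical
  by_cases hf0 : f = 0
  · exact ⟨0, by rw [hf0]; exact zero_mem _⟩
  let S := (finite_ord (K := K) hf0).toFinset
  obtain ⟨M, hM⟩ : ∃ M : ℕ, ∀ v : Place K F, (v.ord f).natAbs ≤ M := by
    refine ⟨∑ v ∈ S, (v.ord f).natAbs, fun v => ?_⟩
    by_cases hvS : v ∈ S
    · exact Finset.single_le_sum (f := fun v : Place K F => (v.ord f).natAbs)
          (fun _ _ => Nat.zero_le _) hvS
    · have h0 : v.ord f = 0 := by
        by_contra hne
        apply hvS
        rw [Set.Finite.mem_toFinset]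
        exact hne
      rw [h0]
      exact Nat.zero_le _
  refine ⟨M, ?_⟩
  rw [mem_Lm]
  intro v
  rcases le_or_gt 0 (v.ord t) with hv | hv
  · rw [min_eq_right hv, mul_zero]
    exact hf v hv
  · rw [min_eq_left hv.le]
    right
    have h1 := hM v
    have h2 : -(M : ℤ) ≤ v.ord f := by omega
    have h4 : v.ord t ≤ -1 := by omega
    have h5 : (0 : ℤ) ≤ M := by positivity
    nlinarith

/-- Value of `t` at a place where it is regular. -/
theorem exists_sub_ord_pos {t : F} (ht : Transcendental K t) {v : Place K F} (hv : 0 ≤ v.ord t) :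
    ∃ a : K, 0 < v.ord (t - algebraMap K F a) := by
  obtain ⟨a, ha⟩ := exists_const' v (mem_of_ord_nonneg v hv)
  refine ⟨a, ?_⟩
  rcases ha with h | h
  · exfalso
    apply ht
    rw [sub_eq_zero.1 h]
    exact isAlgebraic_algebraMap a
  · omega

/-- Clearing finite poles. -/
theorem exists_aeval_mul_regFin {t : F} (ht : Transcendental K t) (f : F) :
    ∃ q : K[X], q ≠ 0 ∧ RegFin K t (aeval t q * f) := by
  classical
  by_cases hf0 : f = 0
  · exact ⟨1, one_ne_zero, fun v _ => by rw [hf0, mul_zero]; exact Ge.zero v 0⟩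
  let S := (finite_ord (K := K) hf0).toFinset
  have hα : ∀ v : Place K F, ∃ a : K, 0 ≤ v.ord t → 0 < v.ord (t - algebraMap K F a) := by
    intro v
    by_cases hv : 0 ≤ v.ord t
    · obtain ⟨a, ha⟩ := exists_sub_ord_pos ht hv
      exact ⟨a, fun _ => ha⟩
    · exact ⟨0, fun h => absurd h hv⟩
  choose α hα using hα
  have hne : ∀ a : K, t - algebraMap K F a ≠ 0 := by
    intro a h
    apply ht
    rw [sub_eq_zero.1 h]
    exact isAlgebraic_algebraMap a
  refine ⟨∏ v ∈ S, (X - C (α v)) ^ (v.ord f).natAbs, ?_, ?_⟩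
  · exact Finset.prod_ne_zero_iff.2 fun v _ => pow_ne_zero _ (X_sub_C_ne_zero _)
  · intro v hv
    by_cases hvS : v ∈ S
    · rw [← Finset.mul_prod_erase S _ hvS, map_mul, map_pow, map_sub, aeval_X, aeval_C]
      have h1 := (Ge.of_le (v := v) (f := t - algebraMap K F (α v)) (n := 1)
        (by have := hα v hv; omega)).pow (v.ord f).natAbs
      have h2 := regFin_aeval (K := K) t (∏ w ∈ S.erase v, (X - C (α w)) ^ (w.ord f).natAbs) v hv
      refine ((h1.mul h2).mul (Ge.of_le (v := v) (f := f) le_rfl)).mono ?_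
      omega
    · have h0 : v.ord f = 0 := by
        by_contra h
        apply hvS
        rw [Set.Finite.mem_toFinset]
        exact h
      exact ((regFin_aeval (K := K) t _ v hv).mul (Ge.of_le (v := v) (f := f) h0.ge)).mono (by simp)

/-- A family of elements of minimal total degree. -/
structure HomogBasis (K : Type*) {F : Type*} [Field K] [IsAlgClosed K] [Field F] [Algebra K F]
    [FunField K F] (t : F) where
  /-- the basis elements -/
  y : Fin (Module.finrank K⟮t⟯ F) → F
  /-- the degrees -/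
  a : Fin (Module.finrank K⟮t⟯ F) → ℕ
  li : LinearIndependent K⟮t⟯ y
  mem : ∀ i, y i ∈ Lm K t (a i)
  min : ∀ (y' : Fin (Module.finrank K⟮t⟯ F) → F) (a' : Fin (Module.finrank K⟮t⟯ F) → ℕ),
    LinearIndependent K⟮t⟯ y' → (∀ i, y' i ∈ Lm K t (a' i)) → ∑ i, a i ≤ ∑ i, a' i

theorem exists_homogBasis {t : F} (ht : Transcendental K t) : Nonempty (HomogBasis K t) := by
  classical
  haveI := fd (K := K) ht
  let P : ℕ → Prop := fun s => ∃ (y : Fin (Module.finrank K⟮t⟯ F) → F)
    (a : Fin (Module.finrank K⟮t⟯ F) → ℕ), LinearIndependent K⟮t⟯ y ∧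
      (∀ i, y i ∈ Lm K t (a i)) ∧ ∑ i, a i = s
  have hP : ∃ s, P s := by
    let u := Module.finBasis K⟮t⟯ F
    choose q hq0 hq using fun i => exists_aeval_mul_regFin ht (u i)
    choose a ha using fun i => exists_mem_Lm (hq i)
    refine ⟨_, fun i => aeval t (q i) * u i, a, ?_, ha, rfl⟩
    have hne : ∀ i, aeval (AdjoinSimple.gen K t) (q i) ≠ 0 := by
      intro i h
      exact hq0 i ((transcendental_iff.1 (transcendental_gen ht)) _ h)
    have h1 := u.linearIndependent.units_smul (fun i => Units.mk0 _ (hne i))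
    have h2 : (fun i => aeval t (q i) * u i) = (fun i => Units.mk0 _ (hne i)) • (u : _ → F) := by
      funext i
      change aeval t (q i) * u i = (Units.mk0 _ (hne i)) • u i
      rw [Units.smul_def, Units.val_mk0, Algebra.smul_def, ← aeval_algebraMap_apply]
      rfl
    rw [h2]
    exact h1
  obtain ⟨y, a, h1, h2, h3⟩ := Nat.find_spec hP
  refine ⟨⟨y, a, h1, h2, ?_⟩⟩
  intro y' a' h1' h2'
  rw [h3]
  exact Nat.find_min' hP ⟨y', a', h1', h2', rfl⟩

end Fermat.Agent.RR
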