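import Fermat.Agent.RR.Homog

/-!
# Homogeneous bases: the spaces `L(m (t)_∞)`
-/

set_option autoImplicit false
set_option linter.style.haveILetI false
set_option linter.unusedSectionVars false

namespace Fermat.Agent.RR

open AlgebraicCurve Fermat.Agent.Curve Polynomial IntermediateField

variable {K F : Type*} [Field K] [IsAlgClosed K] [Field F] [Algebra K F]

omit [IsAlgClosed K] in
theorem aeval_mul_eq_smul (t : F) (p : K[X]) (x : F) :
    aeval t p * x = (aeval (AdjoinSimple.gen K t) p : K⟮t⟯) • x := by
  rw [Algebra.smul_def, ← aeval_algebraMap_apply]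
  rfl

theorem aeval_gen_ne_zero {t : F} (ht : Transcendental K t) {p : K[X]} (hp : p ≠ 0) :
    (aeval (AdjoinSimple.gen K t) p : K⟮t⟯) ≠ 0 :=
  fun h => hp ((transcendental_iff.1 (transcendental_gen ht)) _ h)

omit [IsAlgClosed K] in
theorem aeval_ne_zero {t : F} (ht : Transcendental K t) {p : K[X]} (hp : p ≠ 0) :
    aeval t p ≠ 0 :=
  fun h => hp ((transcendental_iff.1 ht) _ h)

variable [hF : FunField K F]

namespace HomogBasis

variable {t : F} (ht : Transcendental K t) (B : HomogBasis K t)

include ht

theorem exchange (r : Fin (Module.finrank K⟮t⟯ F)) (q : K[X]) (hq : q ≠ 0)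
    (c : Fin (Module.finrank K⟮t⟯ F) → K[X]) (hc : c r ≠ 0) {g : F}
    (hg : aeval t q * g = ∑ i, aeval t (c i) * B.y i)
    (hm : g ∈ Lm K t ((B.a r : ℤ) - 1)) : False := by
  classical
  have hg' : (aeval (AdjoinSimple.gen K t) q : K⟮t⟯) • g =
      ∑ i, (aeval (AdjoinSimple.gen K t) (c i) : K⟮t⟯) • B.y i := by
    rw [← aeval_mul_eq_smul, hg]
    exact Finset.sum_congr rfl fun i _ => aeval_mul_eq_smul t _ _
  rcases Nat.eq_zero_or_pos (B.a r) with h0 | hpos
  · rw [h0, Lm_neg ht (by norm_num)] at hm
    rw [Submodule.mem_bot] at hm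
    rw [hm, smul_zero] at hg'
    have := Fintype.linearIndependent_iff.1 B.li _ hg'.symm r
    exact aeval_gen_ne_zero ht hc this
  · have hli : LinearIndependent K⟮t⟯ (Function.update B.y r g) := by
      apply B.li.update
      refine ⟨aeval (AdjoinSimple.gen K t) q, mem_nonZeroDivisors_of_ne_zero
        (aeval_gen_ne_zero ht hq), Finsupp.equivFunOnFinite.symm
          (fun i => (aeval (AdjoinSimple.gen K t) (c i) : K⟮t⟯)),
        mem_nonZeroDivisors_of_ne_zero ?_, ?_⟩
      · exact aeval_gen_ne_zero ht hc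
      · rw [hg', Finsupp.linearCombination_apply, Finsupp.sum_fintype _ _ (by simp)]
        rfl
    have h2 := B.min (Function.update B.y r g) (Function.update B.a r (B.a r - 1)) hli (by
      intro i
      by_cases hi : i = r
      · rw [hi, Function.update_self, Function.update_self]
        have e : (((B.a r - 1 : ℕ) : ℤ)) = (B.a r : ℤ) - 1 := by omega
        rw [e]
        exact hm
      · rw [Function.update_of_ne hi, Function.update_of_ne hi]
        exact B.mem i)
    rw [← Finset.add_sum_erase _ _ (Finset.mem_univ r), ← Finset.add_sum_erase Finset.univ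
      (Function.update B.a r (B.a r - 1)) (Finset.mem_univ r), Function.update_self] at h2
    have h3 : ∑ x ∈ Finset.univ.erase r, Function.update B.a r (B.a r - 1) x =
        ∑ x ∈ Finset.univ.erase r, B.a x := by
      apply Finset.sum_congr rfl
      intro x hx
      rw [Function.update_of_ne (Finset.ne_of_mem_erase hx)]
    rw [h3] at h2
    omega

/-- Step A: division by `t - α`. -/
theorem coeff_eq_zero_of_regFin {α : K} {g : F} (hg : RegFin K t g)
    (b : Fin (Module.finrank K⟮t⟯ F) → K)
    (h : (t - algebraMap K F α) * g = ∑ i, algebraMap K F (b i) * B.y i) : ∀ i, b i = 0 := by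
  classical
  by_contra hcon
  push Not at hcon
  obtain ⟨i0, hi0⟩ := hcon
  let T := Finset.univ.filter fun i => b i ≠ 0
  obtain ⟨r, hrT, hrmax⟩ := T.exists_max_image B.a ⟨i0, by simp [T, hi0]⟩
  simp only [T, Finset.mem_filter, Finset.mem_univ, true_and] at hrT hrmax
  have h1 : g ∈ Lm K t ((B.a r : ℤ) - 1) := by
    apply mem_Lm_of_sub_mul hg (α := α)
    rw [h, sub_add_cancel]
    refine Submodule.sum_mem _ fun i _ => ?_
    by_cases hi : b i = 0
    · rw [hi, map_zero, zero_mul]; exact zero_mem _
    · rw [← Algebra.smul_def]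
      exact Submodule.smul_mem _ _ (Lm_mono t (by exact_mod_cast hrmax i hi) (B.mem i))
  refine B.exchange ht r (X - C α) (X_sub_C_ne_zero α) (fun i => C (b i)) ?_ ?_ h1
  · rwa [ne_eq, C_eq_zero]
  · rw [map_sub, aeval_X, aeval_C, h]
    exact Finset.sum_congr rfl fun i _ => by rw [aeval_C]

/-- Elements regular at finite places are `K[t]`-combinations of the basis. -/
theorem exists_repr_aux : ∀ (n : ℕ) (q : K[X]), q.natDegree = n → q ≠ 0 → ∀ (f : F),
    RegFin K t f → ∀ p : Fin (Module.finrank K⟮t⟯ F) → K[X],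
    aeval t q * f = ∑ i, aeval t (p i) * B.y i →
    ∃ p' : Fin (Module.finrank K⟮t⟯ F) → K[X], f = ∑ i, aeval t (p' i) * B.y i := by
  intro n
  induction n with
  | zero =>
    intro q hq hq0 f hf p h
    rw [natDegree_eq_zero] at hq
    obtain ⟨a, rfl⟩ := hq
    have ha : a ≠ 0 := by simpa using hq0
    refine ⟨fun i => C a⁻¹ * p i, ?_⟩
    rw [aeval_C] at h
    have h2 : f = algebraMap K F a⁻¹ * (algebraMap K F a * f) := by
      rw [← mul_assoc, ← map_mul, inv_mul_cancel₀ ha, map_one, one_mul]
    rw [h2, h, Finset.mul_sum]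
    apply Finset.sum_congr rfl
    intro i _
    rw [map_mul, aeval_C, mul_assoc]
  | succ n ih =>
    intro q hq hq0 f hf p h
    obtain ⟨α, hα⟩ := IsAlgClosed.exists_root q (by
      rw [degree_eq_natDegree hq0, hq]
      exact_mod_cast Nat.succ_ne_zero n)
    obtain ⟨q', rfl⟩ := dvd_iff_isRoot.2 hα
    have hq'0 : q' ≠ 0 := right_ne_zero_of_mul hq0
    have hq'd : q'.natDegree = n := by
      rw [natDegree_mul (X_sub_C_ne_zero α) hq'0, natDegree_X_sub_C] at hq
      omega
    -- divide the coefficients by `X - α`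
    have hp : ∀ i, p i = (X - C α) * (p i /ₘ (X - C α)) + C ((p i).eval α) := by
      intro i
      have := modByMonic_add_div (p i) (X - C α)
      rw [modByMonic_X_sub_C_eq_C_eval] at this
      rw [add_comm]
      exact this.symm
    have hg : RegFin K t (aeval t q' * f - ∑ i, aeval t (p i /ₘ (X - C α)) * B.y i) := by
      apply regFin_sub
      · exact regFin_mul (regFin_aeval t q') hf
      · exact regFin_sum _ fun i _ => regFin_mul (regFin_aeval t _) (Lm_regFin (B.mem i))
    have heq : (t - algebraMap K F α) *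
        (aeval t q' * f - ∑ i, aeval t (p i /ₘ (X - C α)) * B.y i) =
        ∑ i, algebraMap K F ((p i).eval α) * B.y i := by
      have h1 : (t - algebraMap K F α) * (aeval t q' * f) = ∑ i, aeval t (p i) * B.y i := by
        rw [← h, map_mul, map_sub, aeval_X, aeval_C]
        ring
      rw [mul_sub, h1, Finset.mul_sum, ← Finset.sum_sub_distrib]
      apply Finset.sum_congr rfl
      intro i _
      have h2 : aeval t (p i) = (t - algebraMap K F α) * aeval t (p i /ₘ (X - C α)) +
          algebraMap K F ((p i).eval α) := by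
        conv_lhs => rw [hp i]
        rw [map_add, map_mul, map_sub, aeval_X, aeval_C, aeval_C]
      rw [h2]
      ring
    have hb := B.coeff_eq_zero_of_regFin ht hg _ heq
    apply ih q' hq'd hq'0 f hf (fun i => p i /ₘ (X - C α))
    have h3 : (t - algebraMap K F α) *
        (aeval t q' * f - ∑ i, aeval t (p i /ₘ (X - C α)) * B.y i) = 0 := by
      rw [heq]
      apply Finset.sum_eq_zero
      intro i _
      rw [hb i, map_zero, zero_mul]
    have h4 : t - algebraMap K F α ≠ 0 := by
      have := aeval_ne_zero ht (X_sub_C_ne_zero α)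
      rwa [map_sub, aeval_X, aeval_C] at this
    exact sub_eq_zero.1 ((mul_eq_zero.1 h3).resolve_left h4)

theorem exists_repr {f : F} (hf : RegFin K t f) :
    ∃ p : Fin (Module.finrank K⟮t⟯ F) → K[X], f = ∑ i, aeval t (p i) * B.y i := by
  haveI := fd (K := K) ht
  -- coordinates with respect to the basis
  let b : Module.Basis (Fin (Module.finrank K⟮t⟯ F)) K⟮t⟯ F :=
    basisOfLinearIndependentOfCardEqFinrank' B.y B.li (by simp)
  have hb : ⇑b = B.y := coe_basisOfLinearIndependentOfCardEqFinrank' _ _ _
  have h1 := b.sum_repr f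
  -- common denominator
  have hden : ∀ x : K⟮t⟯, ∃ q p : K[X], q ≠ 0 ∧
      aeval (AdjoinSimple.gen K t) q * x = aeval (AdjoinSimple.gen K t) p := by
    intro x
    have hx := adjoin_gen_eq_top (K := K) t
    have hx2 : x ∈ K⟮AdjoinSimple.gen K t⟯ := by rw [hx]; trivial
    obtain ⟨y, z, hyz⟩ := (mem_adjoin_simple_iff K x).1 hx2
    by_cases hz : z = 0
    · refine ⟨1, 0, one_ne_zero, ?_⟩
      rw [hyz, hz]
      simp
    · refine ⟨z, y, hz, ?_⟩
      rw [hyz]
      field_simp [aeval_gen_ne_zero ht hz]
  choose q p hq hqp using hden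
  have h2 : ∀ i, ∃ p' : K[X], aeval (AdjoinSimple.gen K t) (∏ j, q (b.repr f j)) * b.repr f i =
      aeval (AdjoinSimple.gen K t) p' := by
    intro i
    rw [← Finset.mul_prod_erase Finset.univ _ (Finset.mem_univ i)]
    refine ⟨p (b.repr f i) * ∏ j ∈ Finset.univ.erase i, q (b.repr f j), ?_⟩
    rw [map_mul, map_mul, ← hqp]
    ring
  choose p' hp' using h2
  refine B.exists_repr_aux ht _ (∏ j, q (b.repr f j)) rfl
    (Finset.prod_ne_zero_iff.2 fun j _ => hq _) f hf p' ?_
  rw [aeval_mul_eq_smul]
  have h3 : (aeval (AdjoinSimple.gen K t) (∏ j, q (b.repr f j)) : K⟮t⟯) • f =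
      (aeval (AdjoinSimple.gen K t) (∏ j, q (b.repr f j)) : K⟮t⟯) • ∑ i, b.repr f i • b i := by
    rw [h1]
  rw [h3, Finset.smul_sum]
  apply Finset.sum_congr rfl
  intro i _
  rw [smul_smul, hp', aeval_mul_eq_smul, hb]

/-- Step B: the degrees. -/
theorem natDegree_add_le {m : ℤ} (p : Fin (Module.finrank K⟮t⟯ F) → K[X])
    (hf : ∑ i, aeval t (p i) * B.y i ∈ Lm K t m) (i : Fin (Module.finrank K⟮t⟯ F))
    (hi : p i ≠ 0) : ((p i).natDegree : ℤ) + B.a i ≤ m := by
  classical
  by_contra hcon
  push Not at hcon
  let T := Finset.univ.filter fun j => p j ≠ 0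
  obtain ⟨k, hkT, hkmax⟩ := T.exists_max_image (fun j => (p j).natDegree + B.a j)
    ⟨i, by simp [T, hi]⟩
  simp only [T, Finset.mem_filter, Finset.mem_univ, true_and] at hkT hkmax
  set M := (p k).natDegree + B.a k with hM
  have hMm : m < M := by
    have := hkmax i hi
    omega
  let I := Finset.univ.filter fun j => p j ≠ 0 ∧ (p j).natDegree + B.a j = M
  obtain ⟨r, hrI, hrmax⟩ := I.exists_max_image B.a ⟨k, by simp [I, hkT, hM]⟩
  simp only [I, Finset.mem_filter, Finset.mem_univ, true_and] at hrI hrmax
  obtain ⟨hr0, hrM⟩ := hrI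
  -- the leading part
  let c : Fin (Module.finrank K⟮t⟯ F) → K[X] := fun j =>
    if j ∈ I then C (p j).leadingCoeff * X ^ (B.a r - B.a j) else 0
  let g : F := ∑ j, aeval t (c j) * B.y j
  have hreg : RegFin K t g :=
    regFin_sum _ fun j _ => regFin_mul (regFin_aeval t _) (Lm_regFin (B.mem j))
  have hI : ∀ j, j ∈ I ↔ p j ≠ 0 ∧ (p j).natDegree + B.a j = M := by
    intro j; simp [I]
  have key : t ^ (M - B.a r) * g ∈ Lm K t ((M : ℤ) - 1) := by
    have e : t ^ (M - B.a r) * g = ∑ j, aeval t (p j) * B.y j -
        ∑ j, (aeval t (p j) - t ^ (M - B.a r) * aeval t (c j)) * B.y j := by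
      rw [← Finset.sum_sub_distrib, Finset.mul_sum]
      apply Finset.sum_congr rfl
      intro j _
      ring
    rw [e]
    apply Submodule.sub_mem
    · exact Lm_mono t (by omega) hf
    · refine Submodule.sum_mem _ fun j _ => ?_
      by_cases hj : j ∈ I
      · have hj' := (hI j).1 hj
        have h1 : B.a j ≤ B.a r := hrmax j hj'
        have e2 : aeval t (p j) - t ^ (M - B.a r) * aeval t (c j) = aeval t (p j).eraseLead := by
          simp only [c, if_pos hj]
          have h2 : (p j).eraseLead = p j - C (p j).leadingCoeff * X ^ (p j).natDegree := by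
            rw [← self_sub_monomial_natDegree_leadingCoeff, C_mul_X_pow_eq_monomial]
          rw [h2, map_sub, map_mul, map_mul, map_pow, map_pow, aeval_X]
          have h3 : (p j).natDegree = (M - B.a r) + (B.a r - B.a j) := by omega
          rw [h3, pow_add]
          ring
        rw [e2]
        by_cases hel : (p j).eraseLead = 0
        · rw [hel, map_zero, zero_mul]; exact zero_mem _
        · have h4 : aeval t (p j).eraseLead ∈ Lm K t ((p j).natDegree - 1) := by
            apply aeval_mem_Lm
            intro l hl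
            have h5 := le_natDegree_of_ne_zero hl
            have h6 := eraseLead_natDegree_lt_or_eraseLead_eq_zero (p j)
            rcases h6 with h6 | h6
            · omega
            · exact absurd h6 hel
          refine Lm_mono t ?_ (mul_mem_Lm h4 (B.mem j))
          have := hj'.2
          omega
      · have e2 : aeval t (p j) - t ^ (M - B.a r) * aeval t (c j) = aeval t (p j) := by
          simp only [c, if_neg hj]
          rw [map_zero, mul_zero, sub_zero]
        rw [e2]
        by_cases hpj : p j = 0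
        · rw [hpj, map_zero, zero_mul]; exact zero_mem _
        · have h4 : aeval t (p j) ∈ Lm K t ((p j).natDegree) := by
            apply aeval_mem_Lm
            intro l hl
            exact_mod_cast le_natDegree_of_ne_zero hl
          refine Lm_mono t ?_ (mul_mem_Lm h4 (B.mem j))
          have h5 := hkmax j hpj
          have h6 : (p j).natDegree + B.a j ≠ M := fun h => hj ((hI j).2 ⟨hpj, h⟩)
          omega
  have hg : g ∈ Lm K t ((B.a r : ℤ) - 1) := by
    refine mem_Lm_of_pow_mul hreg (M - B.a r) ?_
    have : (B.a r : ℤ) - 1 + ((M - B.a r : ℕ) : ℤ) = (M : ℤ) - 1 := by omega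
    rw [this]
    exact key
  refine B.exchange ht r 1 one_ne_zero c ?_ ?_ hg
  · have hrI' : r ∈ I := (hI r).2 ⟨hr0, hrM⟩
    simp only [c, if_pos hrI', Nat.sub_self, pow_zero, mul_one]
    rw [ne_eq, C_eq_zero, leadingCoeff_eq_zero]
    exact hr0
  · rw [map_one, one_mul]

end HomogBasis

end Fermat.Agent.RR
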