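import Fermat.Agent.RR.Homog2

/-!
# The sum of the degrees of a homogeneous basis is `n + g - 1`
-/

set_option autoImplicit false
set_option linter.style.haveILetI false
set_option linter.unusedSectionVars false

namespace Fermat.Agent.RR

open AlgebraicCurve Fermat.Agent.Curve Polynomial IntermediateField

variable {K F : Type*} [Field K] [IsAlgClosed K] [Field F] [Algebra K F]

theorem finrank_degreeLT (n : ℕ) : Module.finrank K (degreeLT K n) = n := by
  rw [(degreeLTEquiv K n).finrank_eq]
  simp

instance finite_degreeLT (n : ℕ) : Module.Finite K (degreeLT K n) :=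
  Module.Finite.equiv (degreeLTEquiv K n).symm

theorem mem_degreeLT_iff {p : K[X]} {n : ℕ} : p ∈ degreeLT K n ↔ p = 0 ∨ p.natDegree < n := by
  rw [mem_degreeLT]
  by_cases hp : p = 0
  · rw [hp, degree_zero]
    simp [WithBot.bot_lt_coe]
  · rw [degree_eq_natDegree hp]
    simp [hp]

theorem aeval_mul_mem_Lm [FunField K F] {t y : F} {p : K[X]} {k : ℕ} {a m : ℤ}
    (hy : y ∈ Lm K t a) (hp : p ∈ degreeLT K k) (hk : (k : ℤ) + a ≤ m + 1) :
    aeval t p * y ∈ Lm K t m := by
  by_cases hp0 : p = 0
  · rw [hp0, map_zero, zero_mul]; exact zero_mem _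
  rw [mem_degreeLT_iff] at hp
  have hp' := hp.resolve_left hp0
  have h1 : aeval t p ∈ Lm K t p.natDegree := by
    apply aeval_mem_Lm
    intro l hl
    exact_mod_cast le_natDegree_of_ne_zero hl
  exact Lm_mono t (by omega) (mul_mem_Lm h1 hy)

variable [hF : FunField K F]

namespace HomogBasis

variable {t : F} (ht : Transcendental K t) (B : HomogBasis K t)

/-- The parametrisation of `L(m (t)_∞)`. -/
noncomputable def param (m : ℕ) :
    (∀ i, degreeLT K (m + 1 - B.a i)) →ₗ[K] F :=
  ∑ i, (LinearMap.mulRight K (B.y i)).comp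
    ((aeval t : K[X] →ₐ[K] F).toLinearMap.comp
      ((degreeLT K (m + 1 - B.a i)).subtype.comp (LinearMap.proj i)))

theorem param_apply (m : ℕ) (p : ∀ i, degreeLT K (m + 1 - B.a i)) :
    B.param m p = ∑ i, aeval t (p i : K[X]) * B.y i := by
  rw [param, LinearMap.sum_apply]
  rfl

include ht in
theorem param_injective (m : ℕ) : Function.Injective (B.param m) := by
  rw [injective_iff_map_eq_zero]
  intro p hp
  rw [param_apply] at hp
  have h1 : ∑ i, (aeval (AdjoinSimple.gen K t) (p i : K[X]) : K⟮t⟯) • B.y i = 0 := by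
    rw [← hp]
    exact Finset.sum_congr rfl fun i _ => (aeval_mul_eq_smul t _ _).symm
  have h2 := Fintype.linearIndependent_iff.1 B.li _ h1
  funext i
  apply Subtype.ext
  by_contra hne
  exact aeval_gen_ne_zero ht hne (h2 i)

include ht in
theorem range_param (m : ℕ) : LinearMap.range (B.param m) = Lm K t m := by
  apply le_antisymm
  · rintro _ ⟨p, rfl⟩
    rw [param_apply]
    refine Submodule.sum_mem _ fun i _ => ?_
    by_cases hp : (p i : K[X]) = 0
    · rw [hp, map_zero, zero_mul]; exact zero_mem _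
    have h1 := (mem_degreeLT_iff.1 (p i).2).resolve_left hp
    refine aeval_mul_mem_Lm (B.mem i) (p i).2 ?_
    omega
  · intro f hf
    obtain ⟨p, hp⟩ := B.exists_repr ht (Lm_regFin hf)
    rw [hp] at hf
    have h1 := B.natDegree_add_le ht p hf
    refine ⟨fun i => ⟨p i, ?_⟩, ?_⟩
    · rw [mem_degreeLT_iff]
      by_cases hi : p i = 0
      · exact Or.inl hi
      · right
        have := h1 i hi
        omega
    · rw [param_apply, hp]

include ht in
theorem ell_eq (m : ℕ) : ell (m • poleDiv K t) = ∑ i, (m + 1 - B.a i) := by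
  have h1 : ell (m • poleDiv K t) = Module.finrank K (Lm K t m) := by
    rw [ell, Lm, natCast_zsmul]
  rw [h1, ← B.range_param ht m, LinearMap.finrank_range_of_inj (B.param_injective ht m),
    Module.finrank_pi_fintype]
  exact Finset.sum_congr rfl fun i _ => finrank_degreeLT _

include ht in
/-- The sum of the degrees. -/
theorem sum_a : ((∑ i, B.a i : ℕ) : ℤ) = Module.finrank K⟮t⟯ F + rrGenus K F - 1 := by
  obtain ⟨c, hc⟩ := exists_riemann (K := K) (F := F)
  haveI := fd (K := K) ht
  have hn : 0 < Module.finrank K⟮t⟯ F := Module.finrank_pos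
  set n := Module.finrank K⟮t⟯ F with hn'
  let m : ℕ := c.toNat + ∑ i, B.a i
  have hm : ∀ i, B.a i ≤ m := by
    intro i
    have := Finset.single_le_sum (f := B.a) (fun _ _ => Nat.zero_le _) (Finset.mem_univ i)
    omega
  have hdeg : Divisor.degree (m • poleDiv K t) = m * n := by
    rw [map_nsmul, degree_poleDiv ht, nsmul_eq_mul]
  have h1 := hc (m • poleDiv K t) (by
    rw [hdeg]
    have h2 := Int.self_le_toNat c
    have h3 : (c.toNat : ℤ) ≤ m := by
      have : c.toNat ≤ m := Nat.le_add_right _ _
      exact_mod_cast this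
    have h4 : (1 : ℤ) ≤ n := by exact_mod_cast hn
    have h5 : (0 : ℤ) ≤ m := by positivity
    nlinarith)
  rw [B.ell_eq ht m, hdeg] at h1
  have h2 : ((∑ i, (m + 1 - B.a i) : ℕ) : ℤ) = n * (m + 1) - (∑ i, B.a i : ℕ) := by
    push_cast
    rw [Finset.sum_congr rfl (g := fun i => ((m : ℤ) + 1 - B.a i))]
    · rw [Finset.sum_sub_distrib, Finset.sum_const, Finset.card_univ, Fintype.card_fin,
        nsmul_eq_mul]
    · intro i _
      have := hm i
      omega
  rw [h2] at h1
  linarith

end HomogBasis

end Fermat.Agent.RR
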