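import Fermat.Agent.RR.Hurwitz

/-!
# The Hurwitz inequality with three branch values
-/

set_option autoImplicit false
set_option linter.style.haveILetI false
set_option linter.unusedSectionVars false

namespace Fermat.Agent.RR

open AlgebraicCurve Fermat.Agent.Curve Polynomial IntermediateField

variable {K F : Type*} [Field K] [IsAlgClosed K] [Field F] [Algebra K F]

theorem adjoin_sub (t : F) (a : K) : K⟮t - algebraMap K F a⟯ = K⟮t⟯ := by
  apply le_antisymm
  · rw [adjoin_simple_le_iff]
    exact sub_mem (mem_adjoin_simple_self K t) (IntermediateField.algebraMap_mem _ a)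
  · rw [adjoin_simple_le_iff]
    have := add_mem (mem_adjoin_simple_self K (t - algebraMap K F a))
      (IntermediateField.algebraMap_mem _ a)
    rwa [sub_add_cancel] at this

theorem transcendental_sub' {t : F} (ht : Transcendental K t) (a : K) :
    Transcendental K (t - algebraMap K F a) := by
  intro h
  apply ht
  have := h.add (isAlgebraic_algebraMap a)
  simpa using this

variable [hF : FunField K F]

/-- Sum of the ramification indices above a finite value. -/
theorem sum_zeros {t : F} (ht : Transcendental K t) (a : K) :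
    ∃ hfin : {v : Place K F | 0 < v.ord (t - algebraMap K F a)}.Finite,
      ∑ v ∈ hfin.toFinset, v.ord (t - algebraMap K F a) = Module.finrank K⟮t⟯ F := by
  have ht' := transcendental_sub' ht a
  haveI := fd (K := K) ht'
  have hfin := finite_zeros ht'
  refine ⟨hfin, ?_⟩
  have h1 := degree_zeroDiv ht'
  rw [degree_eq, adjoin_sub] at h1
  rw [← h1]
  have hs : hfin.toFinset = (zeroDiv K (t - algebraMap K F a)).support := by
    ext v
    rw [Set.Finite.mem_toFinset, Finsupp.mem_support_iff, zeroDiv_apply]
    simp only [Set.mem_ofPred_eq]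
    omega
  rw [hs]
  apply Finset.sum_congr rfl
  intro v hv
  rw [Finsupp.mem_support_iff, zeroDiv_apply] at hv
  rw [zeroDiv_apply]
  omega

/-- Sum of the ramification indices above infinity. -/
theorem sum_poles {t : F} (ht : Transcendental K t) :
    ∃ hfin : {v : Place K F | v.ord t < 0}.Finite,
      ∑ v ∈ hfin.toFinset, -v.ord t = Module.finrank K⟮t⟯ F := by
  have ht' := transcendental_inv ht
  haveI := fd (K := K) ht'
  have hfin0 := finite_zeros ht'
  have hset : {v : Place K F | 0 < v.ord t⁻¹} = {v : Place K F | v.ord t < 0} := by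
    ext v
    simp only [Set.mem_ofPred_eq, v.ord_inv]
    omega
  have hfin : {v : Place K F | v.ord t < 0}.Finite := hset ▸ hfin0
  refine ⟨hfin, ?_⟩
  have h1 := degree_poleDiv ht
  rw [degree_eq] at h1
  rw [← h1]
  have hs : hfin.toFinset = (poleDiv K t).support := by
    ext v
    rw [Set.Finite.mem_toFinset, Finsupp.mem_support_iff, poleDiv_apply]
    simp only [Set.mem_ofPred_eq]
    omega
  rw [hs]
  apply Finset.sum_congr rfl
  intro v hv
  rw [Finsupp.mem_support_iff, poleDiv_apply] at hv
  rw [poleDiv_apply]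
  omega

/-- Hurwitz inequality, with the places above `∞` and a finite set `A` of values. -/
theorem hurwitz_values {t : F} (ht : Transcendental K t) [FiniteDimensional K⟮t⟯ F]
    [Algebra.IsSeparable K⟮t⟯ F] (A : Finset K) :
    ((A.card : ℤ) - 1) * Module.finrank K⟮t⟯ F
      - ∑ a ∈ A, (Set.ncard {v : Place K F | 0 < v.ord (t - algebraMap K F a)} : ℤ)
      - (Set.ncard {v : Place K F | v.ord t < 0} : ℤ) ≤ 2 * (rrGenus K F : ℤ) - 2 := by
  classical
  choose hz hzs using fun a => sum_zeros (K := K) ht a
  obtain ⟨hp, hps⟩ := sum_poles (K := K) ht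
  let e : Place K F → ℤ := fun v => if v.ord t < 0 then -v.ord t else
    if h : ∃ a : K, 0 < v.ord (t - algebraMap K F a) then
      v.ord (t - algebraMap K F h.choose) else 1
  have huniq : ∀ (v : Place K F) (a b : K), 0 < v.ord (t - algebraMap K F a) →
      0 < v.ord (t - algebraMap K F b) → a = b := by
    intro v a b h1 h2
    by_contra hab
    have h3 : Ge v 1 ((t - algebraMap K F a) - (t - algebraMap K F b)) :=
      (Ge.of_le (by omega)).sub (Ge.of_le (by omega))
    rw [sub_sub_sub_cancel_left, ← map_sub] at h3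
    have h4 : algebraMap K F (b - a) ≠ 0 := by
      rw [ne_eq, map_eq_zero]
      exact sub_ne_zero.2 (Ne.symm hab)
    have h5 := h3.le_ord h4
    rw [ord_algebraMap] at h5
    omega
  have hnonneg : ∀ (v : Place K F) (a : K), 0 < v.ord (t - algebraMap K F a) → 0 ≤ v.ord t := by
    intro v a h
    have h4 : Ge v 0 ((t - algebraMap K F a) + algebraMap K F a) :=
      (Ge.of_le (by omega)).add (Ge.algebraMap v _)
    rw [sub_add_cancel] at h4
    refine h4.le_ord ?_
    rintro rfl
    exact ht isAlgebraic_zero
  have heneg : ∀ v : Place K F, v.ord t < 0 → e v = -v.ord t := by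
    intro v hv
    simp only [e, if_pos hv]
  have hepos : ∀ (v : Place K F) (a : K), 0 < v.ord (t - algebraMap K F a) →
      e v = v.ord (t - algebraMap K F a) := by
    intro v a h
    have h0 : ¬ v.ord t < 0 := not_lt.2 (hnonneg v a h)
    have hex : ∃ a : K, 0 < v.ord (t - algebraMap K F a) := ⟨a, h⟩
    simp only [e, if_neg h0, dif_pos hex]
    rw [huniq v _ _ hex.choose_spec h]
  let S : Finset (Place K F) := (A.biUnion fun a => (hz a).toFinset) ∪ hp.toFinset
  have hS : ∀ v ∈ S, IsRam t v (e v) := by
    intro v hv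
    simp only [S, Finset.mem_union, Finset.mem_biUnion, Set.Finite.mem_toFinset,
      Set.mem_ofPred_eq] at hv
    rcases hv with ⟨a, -, ha⟩ | hv
    · exact ⟨by rw [hepos v a ha]; exact ha, Or.inr ⟨a, (hepos v a ha).symm⟩⟩
    · exact ⟨by rw [heneg v hv]; omega, Or.inl (by rw [heneg v hv]; ring)⟩
  have h1 := hurwitz_le ht S e hS
  have hdisj : Disjoint (A.biUnion fun a => (hz a).toFinset) hp.toFinset := by
    rw [Finset.disjoint_left]
    intro v hv hv'
    rw [Set.Finite.mem_toFinset] at hv'
    rw [Finset.mem_biUnion] at hv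
    obtain ⟨a, -, ha⟩ := hv
    rw [Set.Finite.mem_toFinset] at ha
    exact absurd (hnonneg v a ha) (not_le.2 hv')
  have hdisj2 : (A : Set K).PairwiseDisjoint fun a => (hz a).toFinset := by
    intro a _ b _ hab
    change Disjoint (hz a).toFinset (hz b).toFinset
    rw [Finset.disjoint_left]
    intro v hv hv'
    rw [Set.Finite.mem_toFinset] at hv hv'
    exact hab (huniq v a b hv hv')
  rw [Finset.sum_union hdisj, Finset.sum_biUnion hdisj2] at h1
  have h2 : ∑ v ∈ hp.toFinset, (e v - 1) = Module.finrank K⟮t⟯ F - hp.toFinset.card := by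
    rw [Finset.sum_sub_distrib, Finset.sum_congr rfl (g := fun v => -v.ord t), hps]
    · simp
    · intro v hv
      exact heneg v ((Set.Finite.mem_toFinset hp).1 hv)
  have h3 : ∀ a ∈ A, ∑ v ∈ (hz a).toFinset, (e v - 1) =
      Module.finrank K⟮t⟯ F - (hz a).toFinset.card := by
    intro a _
    rw [Finset.sum_sub_distrib, Finset.sum_congr rfl (g := fun v => v.ord (t - algebraMap K F a)),
      hzs]
    · simp
    · intro v hv
      exact hepos v a ((Set.Finite.mem_toFinset (hz a)).1 hv)
  rw [h2, Finset.sum_congr rfl h3, Finset.sum_sub_distrib, Finset.sum_const, nsmul_eq_mul] at h1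
  rw [Set.ncard_eq_toFinset_card _ hp, Finset.sum_congr rfl (g := fun a => ((hz a).toFinset.card : ℤ))
    (fun a _ => by rw [Set.ncard_eq_toFinset_card _ (hz a)])]
  linarith

end Fermat.Agent.RR
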