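import Mathlib.RingTheory.Trace.Quotient
import Mathlib.RingTheory.IntegralClosure.IntegralRestrict
import Fermat.Agent.RR.Existence

/-!
# Traces of elements regular over a Dedekind domain
-/

set_option autoImplicit false
set_option linter.style.haveILetI false
set_option linter.unusedSectionVars false

namespace Fermat.Agent.RR

open AlgebraicCurve Fermat.Agent.Curve IsDedekindDomain

variable {K F : Type*} [Field K] [Field F] [Algebra K F]
variable (R L₀ : Type*) [CommRing R] [IsDedekindDomain R] [Field L₀] [Algebra R L₀]
  [IsFractionRing R L₀] [Algebra L₀ F] [Algebra R F] [IsScalarTower R L₀ F]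
  [FiniteDimensional L₀ F] [Algebra.IsSeparable L₀ F] [Algebra K R] [IsScalarTower K R F]

include L₀ in
/-- Elements regular at all places containing `R` are integral over `R`. -/
theorem isIntegral_of_places {f : F} (hf : ∀ v : Place K F,
    (∀ r : R, algebraMap R F r ∈ v.toValuationSubring) → Ge v 0 f) : IsIntegral R f := by
  let B := integralClosure R F
  haveI : IsFractionRing B F := integralClosure.isFractionRing_of_finite_extension L₀ F
  haveI : IsDedekindDomain B := integralClosure.isDedekindDomain R L₀ F
  haveI : IsScalarTower K B F := by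
    refine IsScalarTower.of_algebraMap_eq fun a => ?_
    rfl
  obtain ⟨b, hb⟩ := HeightOneSpectrum.mem_integers_of_valuation_le_one (R := B) F f (by
    intro P
    have h1 := (hf (Place.ofHeightOneSpectrum (K := K) (F := F) P) (by
      intro r
      rw [Place.ofHeightOneSpectrum_toValuationSubring, Valuation.mem_valuationSubring_iff,
        IsScalarTower.algebraMap_apply R B F]
      exact HeightOneSpectrum.valuation_le_one _ _)).mem
    rw [Place.ofHeightOneSpectrum_toValuationSubring, Valuation.mem_valuationSubring_iff] at h1
    exact h1)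
  rw [← hb]
  exact b.2

/-- The trace of an element regular at all places containing `R` is in `R`, and it lies in the
prime `p` if the element vanishes at all places above `p`. -/
theorem trace_mem {f : F} (hf : ∀ v : Place K F,
    (∀ r : R, algebraMap R F r ∈ v.toValuationSubring) → Ge v 0 f) :
    ∃ r : R, algebraMap R L₀ r = Algebra.trace L₀ F f ∧
      ∀ p : Ideal R, p.IsMaximal → p ≠ ⊥ → (∀ v : Place K F,
        (∀ r : R, algebraMap R F r ∈ v.toValuationSubring) →
        (∀ r ∈ p, Ge v 1 (algebraMap R F r)) → Ge v 1 f) → r ∈ p := by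
  have hint := isIntegral_of_places R L₀ hf
  let B := integralClosure R F
  haveI : IsFractionRing B F := integralClosure.isFractionRing_of_finite_extension L₀ F
  haveI : IsDedekindDomain B := integralClosure.isDedekindDomain R L₀ F
  haveI : Module.Finite R B := IsIntegralClosure.finite R L₀ F B
  haveI : IsScalarTower K B F := by
    refine IsScalarTower.of_algebraMap_eq fun a => ?_
    rfl
  have hinjRF : Function.Injective (algebraMap R F) := by
    rw [IsScalarTower.algebraMap_eq R L₀ F]
    exact (algebraMap L₀ F).injective.comp (IsFractionRing.injective R L₀)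
  have hinjRB : Function.Injective (algebraMap R B) := by
    intro a b hab
    apply hinjRF
    rw [IsScalarTower.algebraMap_apply R B F, IsScalarTower.algebraMap_apply R B F, hab]
  haveI : FaithfulSMul R B := (faithfulSMul_iff_algebraMap_injective R B).2 hinjRB
  haveI : Module.IsTorsionFree R B := inferInstance
  let h : B := ⟨f, hint⟩
  refine ⟨Algebra.intTrace R B h, Algebra.algebraMap_intTrace (A := R) (K := L₀) (L := F) (B := B) h, ?_⟩
  intro p hp hp0 hv
  haveI := hp
  letI : Field (R ⧸ p) := Ideal.Quotient.field p
  rw [← Ideal.Quotient.eq_zero_iff_mem, ← Algebra.trace_quotient_eq_of_isDedekindDomain B p h]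
  -- `h` is nilpotent modulo `p`
  have hrad : h ∈ (Ideal.map (algebraMap R B) p).radical := by
    rw [Ideal.radical_eq_sInf, Ideal.mem_sInf]
    rintro Q ⟨hQp, hQ⟩
    have hQ0 : Q ≠ ⊥ := by
      rintro rfl
      obtain ⟨a, ha, ha0⟩ := Submodule.exists_mem_ne_zero_of_ne_bot hp0
      have h1 := hQp (Ideal.mem_map_of_mem _ ha)
      rw [Ideal.mem_bot] at h1
      exact ha0 (hinjRB (by rw [h1, map_zero]))
    let P : HeightOneSpectrum B := ⟨Q, hQ, hQ0⟩
    have hord : ∀ b : B, b ≠ 0 → (Place.ofHeightOneSpectrum (K := K) (F := F) P).ord
        (algebraMap B F b) = -WithZero.log (P.intValuation b) := by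
      intro b hb
      have hb' : algebraMap B F b ≠ 0 := by
        rw [ne_eq, map_eq_zero_iff _ (IsFractionRing.injective B F)]
        exact hb
      rw [ord_ofHeightOneSpectrum _ hb', HeightOneSpectrum.valuation_of_algebraMap]
    have hpos : ∀ b : B, b ≠ 0 → (0 < (Place.ofHeightOneSpectrum (K := K) (F := F) P).ord
        (algebraMap B F b) ↔ b ∈ Q) := by
      intro b hb
      rw [hord b hb]
      have h1 := HeightOneSpectrum.intValuation_lt_one_iff_mem P b
      change _ ↔ b ∈ P.asIdeal
      rw [← h1, neg_pos, ← WithZero.log_one,
        WithZero.log_lt_log (HeightOneSpectrum.intValuation_ne_zero _ b hb) one_ne_zero]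
    have h2 := hv (Place.ofHeightOneSpectrum (K := K) (F := F) P) (by
      intro r
      rw [Place.ofHeightOneSpectrum_toValuationSubring, Valuation.mem_valuationSubring_iff,
        IsScalarTower.algebraMap_apply R B F]
      exact HeightOneSpectrum.valuation_le_one _ _) (by
      intro r hr
      by_cases hr0 : r = 0
      · rw [hr0, map_zero]; exact Ge.zero _ 1
      · right
        have h3 : algebraMap R B r ∈ Q := hQp (Ideal.mem_map_of_mem _ hr)
        have h4 : algebraMap R B r ≠ 0 := by
          rw [ne_eq, map_eq_zero_iff _ hinjRB]; exact hr0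
        have h5 := (hpos _ h4).2 h3
        rw [← IsScalarTower.algebraMap_apply] at h5
        omega)
    by_cases hh0 : h = 0
    · rw [hh0]; exact Q.zero_mem
    · rw [← hpos h hh0]
      have h6 : algebraMap B F h = f := rfl
      have h7 : f ≠ 0 := by
        intro h8
        apply hh0
        apply Subtype.ext
        exact h8
      rw [h6]
      have := h2.le_ord h7
      omega
  obtain ⟨k, hk⟩ := hrad
  have hnil : IsNilpotent (Ideal.Quotient.mk (Ideal.map (algebraMap R B) p) h) := by
    refine ⟨k, ?_⟩
    rw [← map_pow, Ideal.Quotient.eq_zero_iff_mem]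
    exact hk
  haveI : Module.Finite (R ⧸ p) (B ⧸ Ideal.map (algebraMap R B) p) := by
    exact Module.Finite.of_restrictScalars_finite R (R ⧸ p) _
  have h9 : IsNilpotent (Algebra.lmul (R ⧸ p) (B ⧸ Ideal.map (algebraMap R B) p)
      (Ideal.Quotient.mk (Ideal.map (algebraMap R B) p) h)) := hnil.map _
  exact (LinearMap.isNilpotent_trace_of_isNilpotent h9).eq_zero

end Fermat.Agent.RR
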