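import Fermat.Agent.RR.Trace
import Fermat.Agent.RR.Homog3

/-!
# Traces and poles
-/

set_option autoImplicit false
set_option linter.style.haveILetI false
set_option linter.unusedSectionVars false

namespace Fermat.Agent.RR

open AlgebraicCurve Fermat.Agent.Curve Polynomial IntermediateField

variable {K F : Type*} [Field K] [IsAlgClosed K] [Field F] [Algebra K F]

/-- Trace of an element regular at the places where `g` is regular. -/
theorem trace_poly {L₀ : Type*} [Field L₀] [Algebra K L₀] [Algebra L₀ F] [IsScalarTower K L₀ F]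
    [FiniteDimensional L₀ F] [Algebra.IsSeparable L₀ F] (g : L₀) (hg : Transcendental K g)
    (htop : K⟮g⟯ = ⊤) {f : F} (hf : RegFin K (algebraMap L₀ F g) f) :
    ∃ p : K[X], aeval g p = Algebra.trace L₀ F f ∧ ∀ α : K,
      (∀ v : Place K F, 0 < v.ord (algebraMap L₀ F g - algebraMap K F α) → Ge v 1 f) →
        p.eval α = 0 := by
  letI : Algebra K[X] L₀ := (aeval g).toRingHom.toAlgebra
  letI : Algebra K[X] F := (aeval (algebraMap L₀ F g)).toRingHom.toAlgebra
  haveI : IsScalarTower K[X] L₀ F := by
    refine IsScalarTower.of_algebraMap_eq fun p => ?_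
    change aeval (algebraMap L₀ F g) p = algebraMap L₀ F (aeval g p)
    rw [← aeval_algebraMap_apply]
  haveI : IsScalarTower K K[X] F := by
    refine IsScalarTower.of_algebraMap_eq fun a => ?_
    change algebraMap K F a = aeval (algebraMap L₀ F g) (algebraMap K K[X] a)
    simp
  haveI : IsFractionRing K[X] L₀ := by
    let e0 : RatFunc K ≃ₐ[K] K⟮g⟯ := RatFunc.algEquivOfTranscendental g hg
    let e1 : K⟮g⟯ ≃ₐ[K] L₀ := (IntermediateField.equivOfEq htop).trans IntermediateField.topEquiv
    let e : RatFunc K ≃ₐ[K[X]] L₀ :=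
      AlgEquiv.ofRingEquiv (f := (e0.trans e1).toRingEquiv)
        (fun p => by
          have h1 : e0 (algebraMap K[X] (RatFunc K) p) = aeval (AdjoinSimple.gen K g) p :=
            RatFunc.algEquivOfTranscendental_algebraMap g hg p
          change e1 (e0 (algebraMap K[X] (RatFunc K) p)) = aeval g p
          have h2 := aeval_algHom_apply e1.toAlgHom (AdjoinSimple.gen K g) p
          change aeval (e1 (AdjoinSimple.gen K g)) p = e1 (aeval (AdjoinSimple.gen K g) p) at h2
          rw [h1, ← h2]
          rfl)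
    exact IsLocalization.isLocalization_of_algEquiv (nonZeroDivisors K[X]) e
  have hX : algebraMap K[X] F X = algebraMap L₀ F g := by
    change aeval (algebraMap L₀ F g) X = _
    simp
  have hord : ∀ v : Place K F, (∀ r : K[X], algebraMap K[X] F r ∈ v.toValuationSubring) →
      0 ≤ v.ord (algebraMap L₀ F g) := by
    intro v hv
    rw [← hX]
    exact ord_nonneg_of_mem v (hv X)
  obtain ⟨p, hp, hp2⟩ := trace_mem (K := K) K[X] L₀ (f := f) (fun v hv => hf v (hord v hv))
  refine ⟨p, hp, ?_⟩
  intro α hα
  have h1 := hp2 (Ideal.span {(X - C α : K[X])})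
    (PrincipalIdealRing.isMaximal_of_irreducible (irreducible_X_sub_C α))
    (by rw [ne_eq, Ideal.span_singleton_eq_bot]; exact X_sub_C_ne_zero α)
    (by
      intro v _ hv2
      apply hα
      have h2 := hv2 (X - C α) (Ideal.mem_span_singleton_self _)
      have h3 : algebraMap K[X] F (X - C α) = algebraMap L₀ F g - algebraMap K F α := by
        rw [map_sub, hX]
        congr 1
        change aeval (algebraMap L₀ F g) (C α) = _
        simp
      rw [h3] at h2
      have h4 : algebraMap L₀ F g - algebraMap K F α ≠ 0 := by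
        intro h
        apply hg
        have h5 : algebraMap L₀ F g = algebraMap L₀ F (algebraMap K L₀ α) := by
          rw [← IsScalarTower.algebraMap_apply]
          exact sub_eq_zero.1 h
        rw [(algebraMap L₀ F).injective h5]
        exact isAlgebraic_algebraMap α
      have := h2.le_ord h4
      omega)
  rw [Ideal.mem_span_singleton] at h1
  exact dvd_iff_isRoot.1 h1

omit [IsAlgClosed K] in
/-- Order of a polynomial in `t` at a pole of `t`. -/
theorem ord_aeval_of_neg {v : Place K F} {t : F} (hv : v.ord t < 0) {P : K[X]} (hP : P ≠ 0) :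
    aeval t P ≠ 0 ∧ v.ord (aeval t P) = P.natDegree * v.ord t := by
  have ht0 : t ≠ 0 := by
    rintro rfl
    rw [v.ord_zero] at hv
    exact lt_irrefl _ hv
  have hlc : algebraMap K F P.leadingCoeff ≠ 0 := by
    rw [ne_eq, map_eq_zero]
    exact leadingCoeff_ne_zero.2 hP
  have hlead : algebraMap K F P.leadingCoeff * t ^ P.natDegree ≠ 0 :=
    mul_ne_zero hlc (pow_ne_zero _ ht0)
  have hord : v.ord (algebraMap K F P.leadingCoeff * t ^ P.natDegree) =
      P.natDegree * v.ord t := by
    rw [v.ord_mul hlc (pow_ne_zero _ ht0), ord_algebraMap, ord_pow, zero_add]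
  have h1 : Ge v (v.ord (algebraMap K F P.leadingCoeff * t ^ P.natDegree) + 1)
      (algebraMap K F P.leadingCoeff * t ^ P.natDegree - aeval t P) := by
    have e : algebraMap K F P.leadingCoeff * t ^ P.natDegree - aeval t P =
        -aeval t P.eraseLead := by
      rw [← self_sub_monomial_natDegree_leadingCoeff, map_sub, ← C_mul_X_pow_eq_monomial,
        map_mul, map_pow, aeval_C, aeval_X]
      ring
    rw [e, hord]
    apply Ge.neg
    rw [aeval_eq_sum_range]
    apply Ge.sum
    intro j hj
    by_cases hel : P.eraseLead = 0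
    · rw [hel]
      simp only [coeff_zero, zero_smul]
      exact Ge.zero v _
    have hj' : j ≤ P.eraseLead.natDegree := by
      have := Finset.mem_range.1 hj
      omega
    have hlt := (eraseLead_natDegree_lt_or_eraseLead_eq_zero P).resolve_right hel
    apply Ge.smul
    right
    rw [ord_pow]
    have h2 : (j : ℤ) + 1 ≤ P.natDegree := by omega
    nlinarith
  have h2 := h1.ord_eq hlead
  rw [hord] at h2
  exact h2

variable [hF : FunField K F]

/-- Trace of functions with bounded poles at infinity and mild poles at finite places. -/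
theorem trace_mem_degreeLT {t : F} (ht : Transcendental K t) [FiniteDimensional K⟮t⟯ F]
    [Algebra.IsSeparable K⟮t⟯ F]
    (S : Finset (Place K F)) (e : Place K F → ℤ) (α : Place K F → K)
    (hS : ∀ v ∈ S, v.ord (t - algebraMap K F (α v)) = e v ∧ 0 < e v)
    (m : ℕ) {f : F} (hinf : ∀ v : Place K F, v.ord t < 0 → Ge v (m * v.ord t) f)
    (hfin : ∀ v : Place K F, 0 ≤ v.ord t → v ∉ S → Ge v 0 f)
    (hfS : ∀ v ∈ S, Ge v (-(e v - 1)) f) :
    ∃ P : K[X], P ∈ degreeLT K (m + 1) ∧
      aeval (AdjoinSimple.gen K t) P = Algebra.trace K⟮t⟯ F f := by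
  classical
  have hneα : ∀ a : K, t - algebraMap K F a ≠ 0 := by
    intro a h
    apply ht
    rw [sub_eq_zero.1 h]
    exact isAlgebraic_algebraMap a
  have hSt : ∀ v ∈ S, 0 ≤ v.ord t := by
    intro v hv
    have h1 := (hS v hv).1
    have h2 := (hS v hv).2
    have h3 : Ge v 0 t := by
      have h4 : Ge v 0 ((t - algebraMap K F (α v)) + algebraMap K F (α v)) :=
        (Ge.of_le (by omega)).add (Ge.algebraMap v _)
      rwa [sub_add_cancel] at h4
    refine h3.le_ord ?_
    rintro rfl
    exact ht isAlgebraic_zero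
  -- Step 1: the trace is a polynomial
  set A : Finset K := S.image α with hA
  let q : K[X] := ∏ a ∈ A, (X - C a)
  have hq0 : q ≠ 0 := Finset.prod_ne_zero_iff.2 fun a _ => X_sub_C_ne_zero a
  have hqa : ∀ (v : Place K F) (a : K), a ∈ A → 0 < v.ord (t - algebraMap K F a) →
      Ge v (v.ord (t - algebraMap K F a)) (aeval t q) := by
    intro v a ha hpos
    have hvt : 0 ≤ v.ord t := by
      have h4 : Ge v 0 ((t - algebraMap K F a) + algebraMap K F a) :=
        (Ge.of_le (by omega)).add (Ge.algebraMap v _)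
      rw [sub_add_cancel] at h4
      refine h4.le_ord ?_
      rintro rfl
      exact ht isAlgebraic_zero
    simp only [q]
    rw [← Finset.mul_prod_erase A _ ha, map_mul, map_sub, aeval_X, aeval_C]
    exact ((Ge.of_le le_rfl).mul (regFin_aeval (K := K) t _ v hvt)).mono (by simp)
  -- uniqueness of the value of `t`
  have huniq : ∀ (v : Place K F) (a b : K), 0 < v.ord (t - algebraMap K F a) →
      0 < v.ord (t - algebraMap K F b) → a = b := by
    intro v a b h1 h2
    by_contra hab
    have h3 : Ge v 1 ((t - algebraMap K F a) - (t - algebraMap K F b)) :=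
      (Ge.of_le (by omega)).sub (Ge.of_le (by omega))
    rw [sub_sub_sub_cancel_left, ← map_sub] at h3
    have h4 : algebraMap K F (b - a) ≠ 0 := by
      rw [ne_eq, map_eq_zero]
      exact sub_ne_zero.2 (Ne.symm hab)
    have h5 := h3.le_ord h4
    rw [ord_algebraMap] at h5
    omega
  have hgen : algebraMap K⟮t⟯ F (AdjoinSimple.gen K t) = t := rfl
  have hreg : RegFin K t (aeval t q * f) := by
    intro v hv
    by_cases hvS : v ∈ S
    · have h1 := hqa v (α v) (Finset.mem_image_of_mem α hvS) (by rw [(hS v hvS).1]; exact (hS v hvS).2)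
      rw [(hS v hvS).1] at h1
      exact (h1.mul (hfS v hvS)).mono (by omega)
    · exact ((regFin_aeval (K := K) t q v hv).mul (hfin v hv hvS)).mono (by simp)
  obtain ⟨p, hp, hp2⟩ := trace_poly (K := K) (L₀ := K⟮t⟯) (AdjoinSimple.gen K t)
    (transcendental_gen ht) (adjoin_gen_eq_top t) (f := aeval t q * f) hreg
  rw [hgen] at hp2
  have hroot : ∀ a ∈ A, p.eval a = 0 := by
    intro a ha
    apply hp2
    intro v hv
    by_cases hvS : v ∈ S
    · have ha' : α v = a := huniq v _ _ (by rw [(hS v hvS).1]; exact (hS v hvS).2) hv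
      have h1 := hqa v a ha hv
      rw [← ha', (hS v hvS).1] at h1
      exact (h1.mul (hfS v hvS)).mono (by omega)
    · have hvt : 0 ≤ v.ord t := by
        have h4 : Ge v 0 ((t - algebraMap K F a) + algebraMap K F a) :=
          (Ge.of_le (by omega)).add (Ge.algebraMap v _)
        rw [sub_add_cancel] at h4
        refine h4.le_ord ?_
        rintro rfl
        exact ht isAlgebraic_zero
      exact ((hqa v a ha hv).mul (hfin v hvt hvS)).mono (by omega)
  have hdvd : q ∣ p := by
    apply Finset.prod_dvd_of_coprime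
    · intro a _ b _ hab
      exact isCoprime_X_sub_C_of_isUnit_sub (sub_ne_zero.2 hab).isUnit
    · intro a ha
      exact dvd_iff_isRoot.2 (hroot a ha)
  obtain ⟨P, rfl⟩ := hdvd
  have hP : aeval (AdjoinSimple.gen K t) P = Algebra.trace K⟮t⟯ F f := by
    have h1 : Algebra.trace K⟮t⟯ F (aeval t q * f) =
        aeval (AdjoinSimple.gen K t) q * Algebra.trace K⟮t⟯ F f := by
      rw [aeval_mul_eq_smul, map_smul, smul_eq_mul]
    rw [h1, map_mul] at hp
    exact mul_left_cancel₀ (aeval_gen_ne_zero ht hq0) hp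
  refine ⟨P, ?_, hP⟩
  -- Step 2: the degree
  rw [mem_degreeLT_iff]
  by_cases hP0 : P = 0
  · exact Or.inl hP0
  right
  -- the element `s = 1/t`
  have ht0 : t ≠ 0 := by
    rintro rfl
    exact ht isAlgebraic_zero
  have hg0 : (AdjoinSimple.gen K t) ≠ 0 := by
    intro h
    apply ht0
    rw [← hgen, h, map_zero]
  have hgs : Transcendental K (AdjoinSimple.gen K t)⁻¹ := transcendental_inv (transcendental_gen ht)
  have htops : K⟮(AdjoinSimple.gen K t)⁻¹⟯ = ⊤ := by
    rw [← adjoin_gen_eq_top t]
    apply le_antisymm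
    · rw [adjoin_simple_le_iff]
      exact inv_mem (mem_adjoin_simple_self K _)
    · rw [adjoin_simple_le_iff]
      have := inv_mem (mem_adjoin_simple_self K (AdjoinSimple.gen K t)⁻¹)
      rwa [inv_inv] at this
  have hts : algebraMap K⟮t⟯ F (AdjoinSimple.gen K t)⁻¹ = t⁻¹ := by
    rw [map_inv₀, hgen]
  -- clearing the poles
  let S' := S.filter fun v => α v ≠ 0
  let u : K[X] := ∏ v ∈ S', (X - C (α v)⁻¹) ^ (e v).toNat
  have hu0 : u.coeff 0 ≠ 0 := by
    rw [coeff_zero_eq_eval_zero, eval_prod]
    apply Finset.prod_ne_zero_iff.2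
    intro v hv
    rw [eval_pow, eval_sub, eval_X, eval_C, zero_sub]
    apply pow_ne_zero
    rw [neg_ne_zero]
    exact inv_ne_zero (Finset.mem_filter.1 hv).2
  have hregs : RegFin K t⁻¹ (aeval t⁻¹ u * (t⁻¹ ^ m * f)) := by
    intro v hv
    rw [v.ord_inv] at hv
    have hureg := regFin_aeval (K := K) t⁻¹ u v (by rw [v.ord_inv]; exact hv)
    rcases lt_or_eq_of_le (show v.ord t ≤ 0 by omega) with hneg | hzero
    · have h1 := (Ge.of_le (v := v) (f := t⁻¹) (n := -v.ord t) (by rw [v.ord_inv])).pow m
      exact (hureg.mul (h1.mul (hinf v hneg))).mono (by linarith)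
    · have htm : Ge v 0 (t⁻¹ ^ m) := by
        have h1 := (Ge.of_le (v := v) (f := t⁻¹) (n := 0) (by rw [v.ord_inv, hzero]; simp)).pow m
        exact h1.mono (by simp)
      by_cases hvS : v ∈ S
      · have hα0 : α v ≠ 0 := by
          intro h
          have h1 := (hS v hvS).1
          have h2 := (hS v hvS).2
          rw [h, map_zero, sub_zero, hzero] at h1
          omega
        have hvS' : v ∈ S' := Finset.mem_filter.2 ⟨hvS, hα0⟩
        have h2 : Ge v (e v) (aeval t⁻¹ u) := by
          simp only [u]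
          rw [← Finset.mul_prod_erase S' _ hvS', map_mul, map_pow, map_sub, aeval_X, aeval_C]
          have h3 : t⁻¹ - algebraMap K F (α v)⁻¹ =
              (t - algebraMap K F (α v)) * (-(t⁻¹ * algebraMap K F (α v)⁻¹)) := by
            have h4 : algebraMap K F (α v) ≠ 0 := by rwa [ne_eq, map_eq_zero]
            rw [map_inv₀]
            field_simp
            ring
          have h5 : Ge v 1 (t⁻¹ - algebraMap K F (α v)⁻¹) := by
            rw [h3]
            have h6 : Ge v (e v) (t - algebraMap K F (α v)) := Ge.of_le (hS v hvS).1.ge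
            have h7 : Ge v 0 (-(t⁻¹ * algebraMap K F (α v)⁻¹)) := by
              apply Ge.neg
              refine ((Ge.of_le (v := v) (f := t⁻¹) (n := 0) (by rw [v.ord_inv, hzero]; simp)).mul
                (Ge.algebraMap v _)).mono (by simp)
            refine (h6.mul h7).mono ?_
            have := (hS v hvS).2
            omega
          have h6 := h5.pow (e v).toNat
          refine (h6.mul (regFin_aeval (K := K) t⁻¹ _ v (by rw [v.ord_inv]; exact hv))).mono ?_
          have := (hS v hvS).2
          omega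
        exact (h2.mul (htm.mul (hfS v hvS))).mono (by omega)
      · exact (hureg.mul (htm.mul (hfin v hzero.ge hvS))).mono (by simp)
  obtain ⟨p', hp', -⟩ := trace_poly (K := K) (L₀ := K⟮t⟯) (AdjoinSimple.gen K t)⁻¹ hgs htops
    (f := aeval t⁻¹ u * (t⁻¹ ^ m * f)) (by rw [hts]; exact hregs)
  -- compare at a pole of `t`
  have h1 : Algebra.trace K⟮t⟯ F (aeval t⁻¹ u * (t⁻¹ ^ m * f)) =
      aeval (AdjoinSimple.gen K t)⁻¹ u * ((AdjoinSimple.gen K t)⁻¹ ^ m *
        Algebra.trace K⟮t⟯ F f) := by
    have h2 : aeval t⁻¹ u * (t⁻¹ ^ m * f) =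
        (aeval (AdjoinSimple.gen K t)⁻¹ u * (AdjoinSimple.gen K t)⁻¹ ^ m : K⟮t⟯) • f := by
      rw [Algebra.smul_def, map_mul, map_pow, hts, ← aeval_algebraMap_apply, hts, mul_assoc]
    rw [h2, map_smul, smul_eq_mul, mul_assoc]
  rw [h1, ← hP] at hp'
  have h2 := congrArg (algebraMap K⟮t⟯ F) hp'
  rw [map_mul, map_mul, map_pow, ← aeval_algebraMap_apply, ← aeval_algebraMap_apply,
    ← aeval_algebraMap_apply, hts, hgen] at h2
  obtain ⟨v, hv⟩ := exists_pole ht
  have hvs : 0 < v.ord t⁻¹ := by rw [v.ord_inv]; omega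
  have h3 := ge_aeval_of_coeff_zero hvs p'
  have h4 := ord_aeval_of_coeff_ne_zero hvs hu0
  rw [h2] at h3
  have hPt := ord_aeval_of_neg hv hP0
  have h5 : t⁻¹ ^ m ≠ 0 := pow_ne_zero _ (inv_ne_zero ht0)
  have h6 := h3.le_ord (mul_ne_zero h4.1 (mul_ne_zero h5 hPt.1))
  rw [v.ord_mul h4.1 (mul_ne_zero h5 hPt.1), v.ord_mul h5 hPt.1, h4.2, hPt.2, ord_pow,
    v.ord_inv] at h6
  by_contra hcon
  push Not at hcon
  have h7 : (m : ℤ) + 1 ≤ P.natDegree := by exact_mod_cast hcon
  nlinarith

end Fermat.Agent.RR
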